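import Mathlib
import Fermat.Agent.PT.Glob.Core

/-!
# W3-PT / PT-GLOB / GLOB-SI : the second inequality — frozen interface (helper68)

Target: `IfaceSI` of `Glob/Core.lean` (`normIndex L K T ≤ p` for `K / L` cyclic of odd prime
degree `p`, `μ_p ⊆ L`, `T` admissible).  Naming as in `Core.lean`: `L` = base field, `K` = the
extension.  Everything is in elementary language (valuations of `L`, approximation), no ideles,
no completions.

## Route (Kummer-theory proof of the second inequality)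

Let `a ∈ E_T` be a Kummer generator of `K` (`K = L(α)`, `α ^ p = a`; `IfaceKumGen`), and let
`T'` be a set of `rank 𝓞_Lˣ + #T` auxiliary places outside `T` such that `a` is a local `p`-th
power at every `v ∈ T'` and the `T`-units surject onto `∏_{v ∈ T'} (units at v) / (p-th powers
mod v)` (`IfaceFB`, from weak Chebotarev for cyclic layers).  Put `A = E_{T ∪ T'}`,
`P_v = localPowSubgroup L p v` (the `v`-adic closure of the `p`-th powers), `N_v` the local norms.

* KEY: `A ∩ ⋂_{v ∈ T} P_v = A ^ p`.  Indeed for `b` in the left side and `N = L(b^{1/p}) ≠ L` the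
  residue map of `N / L` on an admissible `T₂ ⊇ T ∪ T'` is onto (`IfaceLNSplit` at `v ∈ T`,
  `IfaceLNUnr` at `v ∈ T₂ \ (T ∪ T')`, `IfaceFB` + `IfaceNewton` at `v ∈ T'`), which contradicts
  the first inequality `IfaceFI`.
* COUNT: `# ∏_{v ∈ T} Lˣ / P_v ≤ p ^ (2 #T + [L : ℚ])` (`IfaceLPIdx`) and
  `[A : A ^ p] = p ^ (rank + #T + #T' + 1) = p ^ (2 #T + [L : ℚ] - 1)`; so the image of `A` in
  `∏_{v ∈ T} Lˣ / P_v` has index `≤ p`, a fortiori in `∏_{v ∈ T} Lˣ / N_v`.
* INDEP: the image of `A` in `∏_{v ∈ T} Lˣ / N_v` is contained in the image of `E_T`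
  (`IfaceNormUnif`: norms which are uniformizers at `v ∈ T'` and units outside `T ∪ {v}`).

Final theorem (file `SI/Final.lean`, helper68):
`ifaceSI_of : IfaceFI → IfaceAdm → IfaceLPIdx → IfaceLNSplit → IfaceLNUnr → IfaceNewton →
  IfaceFB → IfaceKumGen → IfaceNormUnif → IfaceSI`.
-/

set_option autoImplicit false

open NumberField IsDedekindDomain

namespace Fermat.Agent.PT.Glob

noncomputable section

section Defs

variable (L : Type) [Field L] [NumberField L]

/-- `c` is `v`-adically close to `1`, at precision `n + 1`. -/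
def CloseOne (v : HeightOneSpectrum (𝓞 L)) (n : ℕ) (c : L) : Prop :=
  v.valuation L (c - 1) ≤ WithZero.exp (-((n : ℤ) + 1))

variable {L} in
lemma closeOne_one (v : HeightOneSpectrum (𝓞 L)) (n : ℕ) : CloseOne L v n 1 := by
  simp [CloseOne]

variable {L} in
lemma CloseOne.val_sub_lt_one {v : HeightOneSpectrum (𝓞 L)} {n : ℕ} {c : L}
    (h : CloseOne L v n c) : v.valuation L (c - 1) < 1 :=
  h.trans_lt (exp_neg_succ_lt_one n)

variable {L} in
lemma CloseOne.val_eq_one {v : HeightOneSpectrum (𝓞 L)} {n : ℕ} {c : L}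
    (h : CloseOne L v n c) : v.valuation L c = 1 := by
  have := Valuation.map_one_add_of_lt (v := v.valuation L) (x := c - 1) h.val_sub_lt_one
  simpa using this

variable {L} in
lemma CloseOne.ne_zero {v : HeightOneSpectrum (𝓞 L)} {n : ℕ} {c : L}
    (h : CloseOne L v n c) : c ≠ 0 := by
  rintro rfl
  have := h.val_eq_one
  simp at this

variable {L} in
lemma CloseOne.mul {v : HeightOneSpectrum (𝓞 L)} {n : ℕ} {c c' : L}
    (h : CloseOne L v n c) (h' : CloseOne L v n c') : CloseOne L v n (c * c') := by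
  unfold CloseOne at *
  have key : c * c' - 1 = (c - 1) * (c' - 1) + ((c - 1) + (c' - 1)) := by ring
  rw [key]
  have h1 : v.valuation L ((c - 1) * (c' - 1)) ≤ WithZero.exp (-((n : ℤ) + 1)) := by
    rw [map_mul]
    calc v.valuation L (c - 1) * v.valuation L (c' - 1)
        ≤ WithZero.exp (-((n : ℤ) + 1)) * 1 :=
          mul_le_mul' h (h'.trans (exp_neg_succ_lt_one n).le)
      _ = _ := mul_one _
  have h2 : v.valuation L ((c - 1) + (c' - 1)) ≤ WithZero.exp (-((n : ℤ) + 1)) :=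
    (Valuation.map_add_le_max' _ _ _).trans (max_le h h')
  exact (Valuation.map_add_le_max' _ _ _).trans (max_le h1 h2)

variable {L} in
lemma CloseOne.inv {v : HeightOneSpectrum (𝓞 L)} {n : ℕ} {c : L}
    (h : CloseOne L v n c) : CloseOne L v n c⁻¹ := by
  have hc0 : c ≠ 0 := h.ne_zero
  have hval : v.valuation L c = 1 := h.val_eq_one
  unfold CloseOne at *
  have key : c⁻¹ - 1 = -(c - 1) * c⁻¹ := by
    field_simp
    ring
  rw [key, map_mul, Valuation.map_neg, map_inv₀, hval, inv_one, mul_one]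
  exact h

variable {L} in
lemma CloseOne.mono {v : HeightOneSpectrum (𝓞 L)} {n m : ℕ} {c : L}
    (h : CloseOne L v n c) (hmn : m ≤ n) : CloseOne L v m c := by
  unfold CloseOne at *
  refine h.trans ?_
  rw [WithZero.exp_le_exp]
  omega

/-- The `v`-adic closure of a subgroup `H` of `Lˣ`: the elements which are `v`-adically
approximable by elements of `H`. -/
def vClosure (v : HeightOneSpectrum (𝓞 L)) (H : Subgroup Lˣ) : Subgroup Lˣ where
  carrier := {b | ∀ n : ℕ, ∃ h ∈ H, CloseOne L v n ((b : L) / (h : L))}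
  one_mem' := fun n => ⟨1, H.one_mem, by simpa using closeOne_one v n⟩
  mul_mem' := fun {b b'} hb hb' n => by
    obtain ⟨h, hh, hc⟩ := hb n
    obtain ⟨h', hh', hc'⟩ := hb' n
    refine ⟨h * h', H.mul_mem hh hh', ?_⟩
    have : ((b * b' : Lˣ) : L) / ((h * h' : Lˣ) : L) = ((b : L) / (h : L)) * ((b' : L) / (h' : L)) := by
      rw [Units.val_mul, Units.val_mul]
      field_simp
    rw [this]
    exact hc.mul hc'
  inv_mem' := fun {b} hb n => by
    obtain ⟨h, hh, hc⟩ := hb n
    refine ⟨h⁻¹, H.inv_mem hh, ?_⟩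
    have : ((b⁻¹ : Lˣ) : L) / ((h⁻¹ : Lˣ) : L) = ((b : L) / (h : L))⁻¹ := by
      rw [Units.val_inv_eq_inv_val, Units.val_inv_eq_inv_val]
      field_simp
    rw [this]
    exact hc.inv

variable {L} in
lemma mem_vClosure {v : HeightOneSpectrum (𝓞 L)} {H : Subgroup Lˣ} {b : Lˣ} :
    b ∈ vClosure L v H ↔ ∀ n : ℕ, ∃ h ∈ H, CloseOne L v n ((b : L) / (h : L)) := Iff.rfl

variable {L} in
lemma le_vClosure (v : HeightOneSpectrum (𝓞 L)) (H : Subgroup Lˣ) : H ≤ vClosure L v H := by
  intro b hb n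
  refine ⟨b, hb, ?_⟩
  rw [div_self b.ne_zero]
  exact closeOne_one v n

variable {L} in
lemma vClosure_mono (v : HeightOneSpectrum (𝓞 L)) {H H' : Subgroup Lˣ} (h : H ≤ H') :
    vClosure L v H ≤ vClosure L v H' := by
  intro b hb n
  obtain ⟨x, hx, hc⟩ := hb n
  exact ⟨x, h hx, hc⟩

/-- The local `p`-th powers at `v`: the `v`-adic closure of the `p`-th powers of `Lˣ`. -/
def localPowSubgroup (p : ℕ) (v : HeightOneSpectrum (𝓞 L)) : Subgroup Lˣ :=
  vClosure L v (powMonoidHom p : Lˣ →* Lˣ).range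

variable {L} in
lemma mem_localPowSubgroup {p : ℕ} {v : HeightOneSpectrum (𝓞 L)} {b : Lˣ} :
    b ∈ localPowSubgroup L p v ↔
      ∀ n : ℕ, ∃ y : Lˣ, CloseOne L v n ((b : L) / (y : L) ^ p) := by
  unfold localPowSubgroup
  rw [mem_vClosure]
  constructor
  · intro h n
    obtain ⟨x, ⟨y, rfl⟩, hc⟩ := h n
    exact ⟨y, by simpa using hc⟩
  · intro h n
    obtain ⟨y, hc⟩ := h n
    exact ⟨y ^ p, ⟨y, rfl⟩, by simpa using hc⟩

variable {L} in
lemma pow_mem_localPowSubgroup (p : ℕ) (v : HeightOneSpectrum (𝓞 L)) (y : Lˣ) :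
    y ^ p ∈ localPowSubgroup L p v :=
  le_vClosure v _ ⟨y, rfl⟩

end Defs

section Norm

variable (L K : Type) [Field L] [NumberField L] [Field K] [NumberField K] [Algebra L K]

lemma localNormSubgroup_eq_vClosure (v : HeightOneSpectrum (𝓞 L)) :
    localNormSubgroup L K v = vClosure L v (globalNorms L K) := by
  ext b
  rw [mem_localNormSubgroup, mem_vClosure]
  constructor
  · intro h n
    obtain ⟨y, hy⟩ := h n
    exact ⟨Units.map (Algebra.norm L : K →* L) y, ⟨y, rfl⟩, hy⟩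
  · intro h n
    obtain ⟨x, ⟨y, rfl⟩, hc⟩ := h n
    exact ⟨y, hc⟩

/-- `p`-th powers of `Lˣ` are global norms from an extension of degree `p`. -/
lemma pow_mem_globalNorms {p : ℕ} (hdeg : Module.finrank L K = p) (y : Lˣ) :
    y ^ p ∈ globalNorms L K := by
  rw [mem_globalNorms]
  refine ⟨Units.map (algebraMap L K).toMonoidHom y, ?_⟩
  rw [Units.coe_map]
  simp only [RingHom.toMonoidHom_eq_coe, MonoidHom.coe_coe]
  rw [Algebra.norm_algebraMap, hdeg, Units.val_pow_eq_pow_val]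

/-- (LP-LE) local `p`-th powers are local norms from an extension of degree `p`. -/
theorem localPowSubgroup_le_localNormSubgroup {p : ℕ} (hdeg : Module.finrank L K = p)
    (v : HeightOneSpectrum (𝓞 L)) : localPowSubgroup L p v ≤ localNormSubgroup L K v := by
  rw [localNormSubgroup_eq_vClosure]
  refine vClosure_mono v ?_
  rintro _ ⟨y, rfl⟩
  exact pow_mem_globalNorms L K hdeg y

end Norm

/-! ## Frozen leaf interfaces -/

/-- (LP-IDX) index of the local `p`-th powers, product form (upper bound):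
`∏_{v ∈ T} [Lˣ : P_v] ≤ p ^ (2 #T + [L : ℚ])` if `μ_p ⊆ L` and `T` contains the places above `p`
(in fact `[Lˣ : P_v] = p ^ 2 · #(𝓞/v^{e_v})` with `e_v = ord_v p`, and equality holds). -/
def IfaceLPIdx : Prop :=
  ∀ (p : ℕ), p.Prime → 3 ≤ p → ∀ (L : Type) [Field L] [NumberField L],
    (∃ ζ : L, IsPrimitiveRoot ζ p) →
    ∀ T : Finset (HeightOneSpectrum (𝓞 L)),
      (∀ v : HeightOneSpectrum (𝓞 L), (p : 𝓞 L) ∈ v.asIdeal → v ∈ T) →
      (∀ v ∈ T, (localPowSubgroup L p v).index ≠ 0) ∧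
      ∏ v ∈ T, (localPowSubgroup L p v).index ≤ p ^ (2 * T.card + Module.finrank ℚ L)

/-- (LN-SPLIT, Kummer form) if `K = L(α)`, `α ^ p = a` and `a` is a local `p`-th power at `v`,
then every element of `Lˣ` is a local norm at `v` (any `v`, also above `p`). -/
def IfaceLNSplit : Prop :=
  ∀ (p : ℕ), p.Prime → 3 ≤ p → ∀ (L K : Type) [Field L] [NumberField L] [Field K]
    [NumberField K] [Algebra L K] [IsGalois L K], Module.finrank L K = p →
    (∃ ζ : L, IsPrimitiveRoot ζ p) →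
    ∀ (v : HeightOneSpectrum (𝓞 L)) (α : K) (a : Lˣ),
      α ^ p = algebraMap L K (a : L) → (∀ x : L, algebraMap L K x ≠ α) →
      a ∈ localPowSubgroup L p v → localNormSubgroup L K v = ⊤

/-- (LN-UNR, Kummer form) if `K = L(α)`, `α ^ p = a`, `v ∤ p` and `a` is a unit at `v`, then
every unit at `v` is a local norm at `v`. -/
def IfaceLNUnr : Prop :=
  ∀ (p : ℕ), p.Prime → 3 ≤ p → ∀ (L K : Type) [Field L] [NumberField L] [Field K]
    [NumberField K] [Algebra L K] [IsGalois L K], Module.finrank L K = p →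
    (∃ ζ : L, IsPrimitiveRoot ζ p) →
    ∀ (v : HeightOneSpectrum (𝓞 L)) (α : K) (a : Lˣ),
      α ^ p = algebraMap L K (a : L) → (∀ x : L, algebraMap L K x ≠ α) →
      (p : 𝓞 L) ∉ v.asIdeal → v.valuation L (a : L) = 1 →
      ∀ u : Lˣ, v.valuation L (u : L) = 1 → u ∈ localNormSubgroup L K v

/-- (NEWTON) for `v ∤ p`, an element `v`-adically congruent to `1` is a local `p`-th power. -/
def IfaceNewton : Prop :=
  ∀ (p : ℕ), p.Prime → ∀ (L : Type) [Field L] [NumberField L]
    (v : HeightOneSpectrum (𝓞 L)), (p : 𝓞 L) ∉ v.asIdeal →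
    ∀ c : Lˣ, v.valuation L ((c : L) - 1) < 1 → c ∈ localPowSubgroup L p v

/-- (FB) auxiliary places ("Frobenius basis"): for a `T`-unit `a` which is not a `p`-th power
there are `rank 𝓞_Lˣ + #T` places `v ∉ T` at which `a` is a local `p`-th power and such that
the `T`-units surject onto `∏_{v ∈ T'} (units at v) / (p-th powers mod v)`. -/
def IfaceFB : Prop :=
  ∀ (p : ℕ), p.Prime → 3 ≤ p → ∀ (L : Type) [Field L] [NumberField L],
    (∃ ζ : L, IsPrimitiveRoot ζ p) →
    ∀ T : Finset (HeightOneSpectrum (𝓞 L)),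
      (∀ v : HeightOneSpectrum (𝓞 L), (p : 𝓞 L) ∈ v.asIdeal → v ∈ T) →
      ∀ a : Lˣ, a ∈ (T : Set (HeightOneSpectrum (𝓞 L))).unit L → (∀ x : Lˣ, x ^ p ≠ a) →
      ∃ T' : Finset (HeightOneSpectrum (𝓞 L)), Disjoint T T' ∧
        T'.card = NumberField.Units.rank L + T.card ∧
        (∀ v ∈ T', a ∈ localPowSubgroup L p v) ∧
        ∀ c : HeightOneSpectrum (𝓞 L) → Lˣ, (∀ v ∈ T', v.valuation L (c v : L) = 1) →
          ∃ u : Lˣ, u ∈ (T : Set (HeightOneSpectrum (𝓞 L))).unit L ∧
            ∀ v ∈ T', ∃ x : Lˣ,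
              v.valuation L ((u : L) / ((c v : L) * (x : L) ^ p) - 1) < 1

/-- (AUX) one auxiliary place (sub-leaf of FB, from weak Chebotarev for cyclic layers): if `u`
is not in `⟨a⟩ · (Lˣ)^p`, there is a place `v` outside any finite set, `v ∤ p`, with `a`, `u`
units at `v`, `a` a `p`-th power mod `v` and `u` not a `p`-th power mod `v`. -/
def IfaceAuxPrime : Prop :=
  ∀ (p : ℕ), p.Prime → 3 ≤ p → ∀ (L : Type) [Field L] [NumberField L],
    (∃ ζ : L, IsPrimitiveRoot ζ p) →
    ∀ (a u : Lˣ), (∀ (i : ℕ) (x : Lˣ), u ≠ a ^ i * x ^ p) →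
    ∀ T₀ : Finset (HeightOneSpectrum (𝓞 L)),
      ∃ v : HeightOneSpectrum (𝓞 L), v ∉ T₀ ∧ (p : 𝓞 L) ∉ v.asIdeal ∧
        v.valuation L (a : L) = 1 ∧ v.valuation L (u : L) = 1 ∧
        (∃ x : Lˣ, v.valuation L ((a : L) / (x : L) ^ p - 1) < 1) ∧
        ¬ ∃ x : Lˣ, v.valuation L ((u : L) / (x : L) ^ p - 1) < 1

/-- (RES) for `v ∤ p` and `μ_p ⊆ L` the units at `v` modulo `p`-th powers mod `v` form a group
of order `p`: a non-`p`-th-power `c` generates. -/
def IfaceRes : Prop :=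
  ∀ (p : ℕ), p.Prime → ∀ (L : Type) [Field L] [NumberField L],
    (∃ ζ : L, IsPrimitiveRoot ζ p) →
    ∀ v : HeightOneSpectrum (𝓞 L), (p : 𝓞 L) ∉ v.asIdeal →
    ∀ c c' : Lˣ, v.valuation L (c : L) = 1 → v.valuation L (c' : L) = 1 →
      (¬ ∃ x : Lˣ, v.valuation L ((c : L) / (x : L) ^ p - 1) < 1) →
      ∃ (i : ℕ) (x : Lˣ), v.valuation L ((c' : L) / ((c : L) ^ i * (x : L) ^ p) - 1) < 1

/-- (KUM-GEN) a Kummer generator of `K / L` which is a `T`-unit, `T` admissible. -/
def IfaceKumGen : Prop :=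
  ∀ (p : ℕ), p.Prime → 3 ≤ p → ∀ (L K : Type) [Field L] [NumberField L] [Field K]
    [NumberField K] [Algebra L K] [IsGalois L K], Module.finrank L K = p →
    (∃ ζ : L, IsPrimitiveRoot ζ p) →
    ∀ T : Finset (HeightOneSpectrum (𝓞 L)), Admissible L K p T →
      ∃ (α : K) (a : Lˣ), a ∈ (T : Set (HeightOneSpectrum (𝓞 L))).unit L ∧
        α ^ p = algebraMap L K (a : L) ∧ ∀ x : L, algebraMap L K x ≠ α

/-- (NORM-UNIF) if every element is a local norm at `v ∉ T` (`T` admissible), there is a global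
norm which is a uniformizer at `v` and a unit at all other places outside `T`. -/
def IfaceNormUnif : Prop :=
  ∀ (p : ℕ), p.Prime → 3 ≤ p → ∀ (L K : Type) [Field L] [NumberField L] [Field K]
    [NumberField K] [Algebra L K] [IsGalois L K], Module.finrank L K = p →
    ∀ T : Finset (HeightOneSpectrum (𝓞 L)), Admissible L K p T →
    ∀ v : HeightOneSpectrum (𝓞 L), v ∉ T → localNormSubgroup L K v = ⊤ →
      ∃ z : Kˣ, v.valuation L (Algebra.norm L (z : K)) = WithZero.exp (-1 : ℤ) ∧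
        ∀ v' : HeightOneSpectrum (𝓞 L), v' ∉ T → v' ≠ v →
          v'.valuation L (Algebra.norm L (z : K)) = 1

/-- (FB-ASM) sub-leaf: FB from AUX + RES (induction on the index, `[E_T : E_T^p]` from
`PT/Units/Kummer.lean`). -/
def IfaceFBAsm : Prop := IfaceAuxPrime → IfaceRes → IfaceNewton → IfaceFB

end

end Fermat.Agent.PT.Glob
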