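import Mathlib
import Fermat.Agent.PT.Glob.Core
import Fermat.Agent.PT.Glob.SI.Iface

/-!
# W3-PT / GLOB-SI : the KEY lemma of the second inequality (helper68)

`h68si_key`: let `T` contain the places above `p` and have trivial `T`-class group, let `T'` be
disjoint from `T` such that the `T`-units surject onto the units at `v ∈ T'` modulo `p`-th powers
mod `v`.  If a `(T ∪ T')`-unit `b` is a local `p`-th power at every `v ∈ T`, then `b` is a `p`-th
power in `L`.

Proof: otherwise `N = L(b^{1/p})` is cyclic of degree `p`; on an admissible `T₂ ⊇ T ∪ T'` the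
residue map of `N / L` is onto, so `normIndex L N T₂ = 1`, against the first inequality.
-/

set_option autoImplicit false
set_option linter.unusedSectionVars false

open NumberField IsDedekindDomain Polynomial

namespace Fermat.Agent.PT.Glob

noncomputable section

section Util

variable {L : Type} [Field L] [NumberField L]

/-- The valuation of a unit is a power of `exp (-1)`. -/
lemma h68si_val_eq_zpow (v : HeightOneSpectrum (𝓞 L)) (c : Lˣ) :
    ∃ k : ℤ, v.valuation L (c : L) = (WithZero.exp (-1 : ℤ)) ^ k := by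
  have hne : v.valuation L (c : L) ≠ 0 := (Valuation.ne_zero_iff _).2 c.ne_zero
  refine ⟨-(WithZero.log (v.valuation L (c : L))), ?_⟩
  rw [← WithZero.exp_zsmul, smul_eq_mul, neg_mul_neg, mul_one, WithZero.exp_log hne]

/-- Trivial `T`-class group: prescribed valuations on a finite set outside `T`, units at the
other places outside `T`. -/
lemma h68si_exists_val {T : Set (HeightOneSpectrum (𝓞 L))} (hcl : TClassGroupTrivial L T)
    (c : HeightOneSpectrum (𝓞 L) → Lˣ) (F : Finset (HeightOneSpectrum (𝓞 L)))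
    (hF : ∀ v ∈ F, v ∉ T) :
    ∃ x : Lˣ, (∀ v ∈ F, v.valuation L (x : L) = v.valuation L (c v : L)) ∧
      ∀ v, v ∉ T → v ∉ F → v.valuation L (x : L) = 1 := by
  classical
  induction F using Finset.induction_on with
  | empty => exact ⟨1, by simp, by simp⟩
  | insert v₀ F hv₀ ih =>
    obtain ⟨x, hx1, hx2⟩ := ih (fun v hv => hF v (Finset.mem_insert_of_mem hv))
    have hv₀T : v₀ ∉ T := hF v₀ (Finset.mem_insert_self _ _)
    obtain ⟨y, hy1, hy2⟩ := hcl v₀ hv₀T
    obtain ⟨k, hk⟩ := h68si_val_eq_zpow v₀ (c v₀)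
    refine ⟨x * y ^ k, ?_, ?_⟩
    · intro v hv
      rw [Units.val_mul, Units.val_zpow_eq_zpow_val, map_mul, map_zpow₀]
      rcases Finset.mem_insert.1 hv with rfl | hvF
      · rw [hx2 v hv₀T hv₀, hy1, one_mul, hk]
      · have hne : v ≠ v₀ := fun h => hv₀ (h ▸ hvF)
        rw [hx1 v hvF, hy2 v (hF v hv) hne, one_zpow, mul_one]
    · intro v hvT hv
      rw [Units.val_mul, Units.val_zpow_eq_zpow_val, map_mul, map_zpow₀]
      have hne : v ≠ v₀ := fun h => hv (h ▸ Finset.mem_insert_self _ _)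
      rw [hx2 v hvT (fun h => hv (Finset.mem_insert_of_mem h)), hy2 v hvT hne, one_zpow, mul_one]

lemma h68si_mem_unit_iff {S : Set (HeightOneSpectrum (𝓞 L))} {x : Lˣ} :
    x ∈ S.unit L ↔ ∀ v, v ∉ S → v.valuation L (x : L) = 1 := Iff.rfl

end Util

section Abstract

variable {L : Type} [Field L] [NumberField L]

/-- The abstract form of the KEY lemma: no cyclic layer `N = L(β)`, `β ^ p = b`, can exist. -/
theorem h68si_key_abs (hFI : IfaceFI) (hAdm : IfaceAdm) (hSplit : IfaceLNSplit)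
    (hUnr : IfaceLNUnr) (hNewton : IfaceNewton)
    {p : ℕ} (hp : p.Prime) (hp3 : 3 ≤ p) (hζ : ∃ ζ : L, IsPrimitiveRoot ζ p)
    (T T' : Finset (HeightOneSpectrum (𝓞 L))) (hdisj : Disjoint T T')
    (hTp : ∀ v : HeightOneSpectrum (𝓞 L), (p : 𝓞 L) ∈ v.asIdeal → v ∈ T)
    (hcl : TClassGroupTrivial L (T : Set (HeightOneSpectrum (𝓞 L))))
    (hsurj : ∀ c : HeightOneSpectrum (𝓞 L) → Lˣ, (∀ v ∈ T', v.valuation L (c v : L) = 1) →
      ∃ u : Lˣ, u ∈ (T : Set (HeightOneSpectrum (𝓞 L))).unit L ∧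
        ∀ v ∈ T', ∃ x : Lˣ, v.valuation L ((u : L) / ((c v : L) * (x : L) ^ p) - 1) < 1)
    (b : Lˣ) (hb : b ∈ ((T : Set (HeightOneSpectrum (𝓞 L))) ∪
      (T' : Set (HeightOneSpectrum (𝓞 L)))).unit L)
    (hloc : ∀ v ∈ T, b ∈ localPowSubgroup L p v)
    (N : Type) [Field N] [NumberField N] [Algebra L N] [IsGalois L N]
    (hdeg : Module.finrank L N = p) (β : N) (hβ : β ^ p = algebraMap L N (b : L))
    (hβL : ∀ x : L, algebraMap L N x ≠ β) : False := by
  classical
  obtain ⟨T₂, hTT₂, hadm⟩ := hAdm p hp L N (T ∪ T')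
  -- the residue map of `N / L` on `T₂` is onto
  have hsur : Function.Surjective (residueMap L N T₂) := by
    intro q
    -- lifts of the target classes
    have hlift : ∀ v : T₂, ∃ c : Lˣ, (QuotientGroup.mk c : Lˣ ⧸ localNormSubgroup L N v.1) = q v :=
      fun v => QuotientGroup.mk_surjective (q v)
    choose c₀ hc₀ using hlift
    let c : HeightOneSpectrum (𝓞 L) → Lˣ := fun v => if h : v ∈ T₂ then c₀ ⟨v, h⟩ else 1
    have hc : ∀ v : T₂, c v.1 = c₀ v := fun v => by simp [c, v.2]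
    -- correct the valuations on `T₂ \ T`
    obtain ⟨a₁, ha1, ha2⟩ := h68si_exists_val hcl c (T₂ \ T)
      (fun v hv => by simpa using (Finset.mem_sdiff.1 hv).2)
    -- the unit parts at `T'`
    have hT'T₂ : ∀ v ∈ T', v ∈ T₂ \ T := fun v hv =>
      Finset.mem_sdiff.2 ⟨hTT₂ (Finset.mem_union_right _ hv),
        fun h => (Finset.disjoint_left.1 hdisj h) hv⟩
    obtain ⟨u₁, hu1, hu1'⟩ := hsurj (fun v => c v / a₁) (fun v hv => by
      rw [Units.val_div_eq_div_val, map_div₀, ha1 v (hT'T₂ v hv)]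
      exact div_self ((Valuation.ne_zero_iff _).2 (c v).ne_zero))
    have hu : u₁ * a₁ ∈ (T₂ : Set (HeightOneSpectrum (𝓞 L))).unit L := by
      intro v hv
      have hvT : v ∉ (T : Set (HeightOneSpectrum (𝓞 L))) := fun h =>
        hv (Finset.mem_coe.2 (hTT₂ (Finset.mem_union_left _ (Finset.mem_coe.1 h))))
      have hvF : v ∉ T₂ \ T := fun h => hv (Finset.mem_coe.2 (Finset.mem_sdiff.1 h).1)
      rw [Units.val_mul, map_mul, hu1 v hvT, ha2 v hvT hvF, one_mul]
    refine ⟨⟨u₁ * a₁, hu⟩, ?_⟩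
    funext v
    show (QuotientGroup.mk (u₁ * a₁) : Lˣ ⧸ localNormSubgroup L N v.1) = q v
    rw [← hc₀ v, ← hc v]
    refine (QuotientGroup.eq.2 ?_).symm
    -- `(c v)⁻¹ * (u₁ * a₁)` is a local norm at `v`
    by_cases hvT : v.1 ∈ T
    · rw [hSplit p hp hp3 L N hdeg hζ v.1 β b hβ hβL (hloc v.1 hvT)]
      exact Subgroup.mem_top _
    · have hvp : (p : 𝓞 L) ∉ v.1.asIdeal := fun h => hvT (hTp v.1 h)
      by_cases hvT' : v.1 ∈ T'
      · obtain ⟨x, hx⟩ := hu1' v.1 hvT'
        have h1 : (u₁ / ((c v.1 / a₁) * x ^ p) : Lˣ) ∈ localPowSubgroup L p v.1 := by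
          refine hNewton p hp L v.1 hvp _ ?_
          have : ((u₁ / ((c v.1 / a₁) * x ^ p) : Lˣ) : L) =
              (u₁ : L) / (((c v.1 / a₁ : Lˣ) : L) * (x : L) ^ p) := by
            rw [Units.val_div_eq_div_val, Units.val_mul, Units.val_pow_eq_pow_val]
          rw [this]
          exact hx
        have h2 : (x ^ p : Lˣ) ∈ localPowSubgroup L p v.1 := pow_mem_localPowSubgroup p v.1 x
        have h3 := Subgroup.mul_mem _ h1 h2
        have h4 : (u₁ / ((c v.1 / a₁) * x ^ p)) * x ^ p = (c v.1)⁻¹ * (u₁ * a₁) := by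
          rw [div_eq_mul_inv, div_eq_mul_inv, mul_inv, mul_inv, inv_inv]
          rw [mul_assoc, mul_assoc, inv_mul_cancel, mul_one]
          rw [mul_comm (c v.1)⁻¹ a₁, ← mul_assoc, mul_comm _ (c v.1)⁻¹]
        rw [h4] at h3
        exact localPowSubgroup_le_localNormSubgroup L N hdeg v.1 h3
      · -- `v ∈ T₂ \ (T ∪ T')`: units are norms
        have hvb : v.1.valuation L (b : L) = 1 := by
          refine hb v.1 ?_
          intro h
          rcases h with h | h
          · exact hvT (Finset.mem_coe.1 h)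
          · exact hvT' (Finset.mem_coe.1 h)
        refine hUnr p hp hp3 L N hdeg hζ v.1 β b hβ hβL hvp hvb _ ?_
        have hvF : v.1 ∈ T₂ \ T := Finset.mem_sdiff.2 ⟨v.2, hvT⟩
        have hvT0 : v.1 ∉ (T : Set (HeightOneSpectrum (𝓞 L))) := fun h => hvT (Finset.mem_coe.1 h)
        rw [Units.val_mul, Units.val_mul, Units.val_inv_eq_inv_val, map_mul, map_mul, map_inv₀,
          hu1 v.1 hvT0, ha1 v.1 hvF, one_mul]
        exact inv_mul_cancel₀ ((Valuation.ne_zero_iff _).2 (c v.1).ne_zero)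
  -- contradiction with the first inequality
  have hidx : normIndex L N T₂ = 1 := by
    unfold normIndex
    rw [MonoidHom.range_eq_top.2 hsur, Subgroup.index_top]
  obtain ⟨-, hfi⟩ := hFI p hp hp3 L N hdeg T₂ hadm
  rw [hidx] at hfi
  have hp1 : p = 1 := Nat.eq_one_of_mul_eq_one_right hfi.symm
  omega

/-- **KEY lemma of the second inequality.** -/
theorem h68si_key (hFI : IfaceFI) (hAdm : IfaceAdm) (hSplit : IfaceLNSplit)
    (hUnr : IfaceLNUnr) (hNewton : IfaceNewton)
    {p : ℕ} (hp : p.Prime) (hp3 : 3 ≤ p) (hζ : ∃ ζ : L, IsPrimitiveRoot ζ p)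
    (T T' : Finset (HeightOneSpectrum (𝓞 L))) (hdisj : Disjoint T T')
    (hTp : ∀ v : HeightOneSpectrum (𝓞 L), (p : 𝓞 L) ∈ v.asIdeal → v ∈ T)
    (hcl : TClassGroupTrivial L (T : Set (HeightOneSpectrum (𝓞 L))))
    (hsurj : ∀ c : HeightOneSpectrum (𝓞 L) → Lˣ, (∀ v ∈ T', v.valuation L (c v : L) = 1) →
      ∃ u : Lˣ, u ∈ (T : Set (HeightOneSpectrum (𝓞 L))).unit L ∧
        ∀ v ∈ T', ∃ x : Lˣ, v.valuation L ((u : L) / ((c v : L) * (x : L) ^ p) - 1) < 1)
    (b : Lˣ) (hb : b ∈ ((T : Set (HeightOneSpectrum (𝓞 L))) ∪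
      (T' : Set (HeightOneSpectrum (𝓞 L)))).unit L)
    (hloc : ∀ v ∈ T, b ∈ localPowSubgroup L p v) : ∃ c : Lˣ, c ^ p = b := by
  by_contra hcon
  have hcon' : ∀ x : L, x ^ p ≠ (b : L) := by
    intro x hx
    have hx0 : x ≠ 0 := by
      rintro rfl
      rw [zero_pow hp.ne_zero] at hx
      exact b.ne_zero hx.symm
    exact hcon ⟨Units.mk0 x hx0, Units.ext (by simpa using hx)⟩
  have hirr : Irreducible (X ^ p - C (b : L)) := X_pow_sub_C_irreducible_of_prime hp hcon'
  have : Fact (Irreducible (X ^ p - C (b : L))) := ⟨hirr⟩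
  have hζ' : (primitiveRoots p L).Nonempty := by
    obtain ⟨ζ, hζ⟩ := hζ
    exact ⟨ζ, (mem_primitiveRoots hp.pos).2 hζ⟩
  have hsf : IsSplittingField L (AdjoinRoot (X ^ p - C (b : L))) (X ^ p - C (b : L)) :=
    isSplittingField_AdjoinRoot_X_pow_sub_C hζ' hirr
  have : IsGalois L (AdjoinRoot (X ^ p - C (b : L))) :=
    isGalois_of_isSplittingField_X_pow_sub_C hζ' hirr _
  have hdeg : Module.finrank L (AdjoinRoot (X ^ p - C (b : L))) = p :=
    finrank_of_isSplittingField_X_pow_sub_C hζ' hirr _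
  have : FiniteDimensional L (AdjoinRoot (X ^ p - C (b : L))) :=
    Polynomial.IsSplittingField.finiteDimensional _ (X ^ p - C (b : L))
  have : NumberField (AdjoinRoot (X ^ p - C (b : L))) := NumberField.of_module_finite L _
  have hroot : (AdjoinRoot.root (X ^ p - C (b : L))) ^ p =
      algebraMap L (AdjoinRoot (X ^ p - C (b : L))) (b : L) := by
    have h := AdjoinRoot.eval₂_root (X ^ p - C (b : L))
    rw [eval₂_sub, eval₂_pow, eval₂_X, eval₂_C, sub_eq_zero] at h
    exact h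
  have hnot : ∀ x : L, algebraMap L (AdjoinRoot (X ^ p - C (b : L))) x ≠
      AdjoinRoot.root (X ^ p - C (b : L)) := by
    intro x hx
    apply hcon' x
    apply (algebraMap L (AdjoinRoot (X ^ p - C (b : L)))).injective
    rw [map_pow, hx, hroot]
  exact h68si_key_abs hFI hAdm hSplit hUnr hNewton hp hp3 hζ T T' hdisj hTp hcl hsurj b hb hloc
    (AdjoinRoot (X ^ p - C (b : L))) hdeg (AdjoinRoot.root _) hroot hnot

end Abstract

end

end Fermat.Agent.PT.Glob
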