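import Mathlib
import Fermat.Agent.PT.Glob.Core
import Fermat.Agent.PT.Units.Kummer
import Fermat.Agent.PT.Glob.SI.Iface
import Fermat.Agent.PT.Glob.SI.Key68

/-!
# W3-PT / GLOB-SI : assembly of the second inequality (helper68)

`ifaceSI_of : IfaceFI → IfaceAdm → IfaceLPIdx → IfaceLNSplit → IfaceLNUnr → IfaceNewton →
  IfaceFB → IfaceKumGen → IfaceNormUnif → IfaceSI`.
-/

set_option autoImplicit false
set_option linter.unusedSectionVars false

open NumberField IsDedekindDomain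

namespace Fermat.Agent.PT.Glob

noncomputable section

section Util

variable {L : Type} [Field L] [NumberField L]

/-- `μ_p ⊆ L`, `p` odd: `L` is totally complex, so `2 (rank 𝓞ˣ + 1) = [L : ℚ]`. -/
lemma h68si_rank {p : ℕ} (hp3 : 3 ≤ p) {ζ : L} (hζ : IsPrimitiveRoot ζ p) :
    2 * (NumberField.Units.rank L + 1) = Module.finrank ℚ L := by
  have h0 := NumberField.InfinitePlace.IsPrimitiveRoot.nrRealPlaces_eq_zero_of_two_lt
    (by omega : 2 < p) hζ
  have h1 := NumberField.InfinitePlace.card_add_two_mul_card_eq_rank (K := L)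
  have h2 := NumberField.InfinitePlace.card_eq_nrRealPlaces_add_nrComplexPlaces (K := L)
  have h3 : 0 < Fintype.card (InfinitePlace L) := Fintype.card_pos
  unfold NumberField.Units.rank
  omega

/-- `[E_S : E_S ^ p] = p ^ (rank + #S + 1)`, multiplicative form of `SU_index_sunit_pow`. -/
lemma h68si_index_pow (S : Set (HeightOneSpectrum (𝓞 L))) [Finite S] {p : ℕ} (hp : p.Prime)
    {ζ : L} (hζ : IsPrimitiveRoot ζ p) :
    (powMonoidHom p : S.unit L →* S.unit L).range.index =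
      p ^ (NumberField.Units.rank L + Nat.card S + 1) := by
  have : Fact p.Prime := ⟨hp⟩
  rw [← Fermat.Agent.PT.Units.SU_index_sunit_pow L S p ζ hζ, ← Subgroup.index_toAddSubgroup]
  congr 1
  ext x
  constructor
  · rintro ⟨y, hy⟩
    refine ⟨Additive.ofMul y, ?_⟩
    rw [Fermat.Agent.PT.Units.SU_nrm_one_eq]
    exact congrArg Additive.ofMul hy
  · rintro ⟨y, hy⟩
    rw [Fermat.Agent.PT.Units.SU_nrm_one_eq] at hy
    exact ⟨Additive.toMul y, congrArg Additive.toMul hy⟩

lemma h68si_val_pow_eq_one {a : WithZero (Multiplicative ℤ)} {e : ℕ} (he : e ≠ 0)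
    (h : a ^ e = 1) : a = 1 := by
  have ha : a ≠ 0 := by
    rintro rfl
    rw [zero_pow he] at h
    exact zero_ne_one h
  have h1 : WithZero.exp (e • WithZero.log a) = WithZero.exp 0 := by
    rw [WithZero.exp_nsmul, WithZero.exp_log ha, h, WithZero.exp_zero]
  have h2 := WithZero.exp_injective h1
  have h3 : WithZero.log a = 0 := by
    rcases smul_eq_zero.1 h2 with h | h
    · exact absurd h he
    · exact h
  rw [← WithZero.exp_log ha, h3, WithZero.exp_zero]

end Util

section Indep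

variable {L K : Type} [Field L] [NumberField L] [Field K] [NumberField K] [Algebra L K]

/-- the norm as a homomorphism of unit groups -/
def h68si_normU : Kˣ →* Lˣ := Units.map (Algebra.norm L : K →* L)

lemma h68si_normU_coe (y : Kˣ) : ((h68si_normU (L := L) y : Lˣ) : L) = Algebra.norm L (y : K) :=
  rfl

lemma h68si_normU_mem (y : Kˣ) : h68si_normU (L := L) y ∈ globalNorms L K := ⟨y, rfl⟩

/-- Global norms with prescribed valuations on a finite set of places which have
norm-uniformizers, units at the other places outside `T`. -/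
lemma h68si_exists_norm_val {T : Set (HeightOneSpectrum (𝓞 L))}
    (c : HeightOneSpectrum (𝓞 L) → Lˣ) (F : Finset (HeightOneSpectrum (𝓞 L)))
    (hF : ∀ v ∈ F, v ∉ T)
    (hz : ∀ v ∈ F, ∃ z : Kˣ,
      v.valuation L (Algebra.norm L (z : K)) = WithZero.exp (-1 : ℤ) ∧
        ∀ v' : HeightOneSpectrum (𝓞 L), v' ∉ T → v' ≠ v →
          v'.valuation L (Algebra.norm L (z : K)) = 1) :
    ∃ y : Kˣ, (∀ v ∈ F, v.valuation L ((h68si_normU (L := L) y : Lˣ) : L) =
        v.valuation L (c v : L)) ∧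
      ∀ v, v ∉ T → v ∉ F → v.valuation L ((h68si_normU (L := L) y : Lˣ) : L) = 1 := by
  classical
  induction F using Finset.induction_on with
  | empty => exact ⟨1, by simp, by simp⟩
  | insert v₀ F hv₀ ih =>
    obtain ⟨x, hx1, hx2⟩ := ih (fun v hv => hF v (Finset.mem_insert_of_mem hv))
      (fun v hv => hz v (Finset.mem_insert_of_mem hv))
    have hv₀T : v₀ ∉ T := hF v₀ (Finset.mem_insert_self _ _)
    obtain ⟨z, hz1, hz2⟩ := hz v₀ (Finset.mem_insert_self _ _)
    obtain ⟨k, hk⟩ := h68si_val_eq_zpow v₀ (c v₀)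
    rw [← h68si_normU_coe] at hz1
    simp only [← h68si_normU_coe] at hz2
    refine ⟨x * z ^ k, ?_, ?_⟩
    · intro v hv
      rw [map_mul, map_zpow, Units.val_mul, Units.val_zpow_eq_zpow_val, map_mul, map_zpow₀]
      rcases Finset.mem_insert.1 hv with rfl | hvF
      · rw [hx2 v hv₀T hv₀, hz1, one_mul, hk]
      · have hne : v ≠ v₀ := fun h => hv₀ (h ▸ hvF)
        rw [hx1 v hvF, hz2 v (hF v hv) hne, one_zpow, mul_one]
    · intro v hvT hv
      rw [map_mul, map_zpow, Units.val_mul, Units.val_zpow_eq_zpow_val, map_mul, map_zpow₀]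
      have hne : v ≠ v₀ := fun h => hv (h ▸ Finset.mem_insert_self _ _)
      rw [hx2 v hvT (fun h => hv (Finset.mem_insert_of_mem h)), hz2 v hvT hne, one_zpow, mul_one]

end Indep

section Maps

variable (L K : Type) [Field L] [NumberField L] [Field K] [NumberField K] [Algebra L K]
variable (p : ℕ)

/-- `E_S → ∏_{v ∈ T} Lˣ / P_v`. -/
def h68si_phi (S : Set (HeightOneSpectrum (𝓞 L))) (T : Finset (HeightOneSpectrum (𝓞 L))) :
    (S.unit L) →* ((v : T) → Lˣ ⧸ localPowSubgroup L p v.1) :=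
  MonoidHom.pi fun v =>
    (QuotientGroup.mk' (localPowSubgroup L p v.1)).comp (Subgroup.subtype (S.unit L))

lemma h68si_phi_apply (S : Set (HeightOneSpectrum (𝓞 L)))
    (T : Finset (HeightOneSpectrum (𝓞 L))) (u : S.unit L) (v : T) :
    h68si_phi L p S T u v = QuotientGroup.mk (u : Lˣ) := rfl

/-- `∏_{v ∈ T} Lˣ / P_v → ∏_{v ∈ T} Lˣ / N_v`. -/
def h68si_proj (hdeg : Module.finrank L K = p) (T : Finset (HeightOneSpectrum (𝓞 L))) :
    ((v : T) → Lˣ ⧸ localPowSubgroup L p v.1) →* ((v : T) → Lˣ ⧸ localNormSubgroup L K v.1) :=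
  MonoidHom.pi fun v => (QuotientGroup.map (localPowSubgroup L p v.1)
    (localNormSubgroup L K v.1) (MonoidHom.id Lˣ)
    (localPowSubgroup_le_localNormSubgroup L K hdeg v.1)).comp (Pi.evalMonoidHom _ v)

lemma h68si_proj_mk (hdeg : Module.finrank L K = p) (T : Finset (HeightOneSpectrum (𝓞 L)))
    (c : T → Lˣ) (v : T) :
    h68si_proj L K p hdeg T
      (fun v => (QuotientGroup.mk (c v) : Lˣ ⧸ localPowSubgroup L p v.1)) v =
        (QuotientGroup.mk (c v) : Lˣ ⧸ localNormSubgroup L K v.1) := rfl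

lemma h68si_proj_phi (hdeg : Module.finrank L K = p) (S : Set (HeightOneSpectrum (𝓞 L)))
    (T : Finset (HeightOneSpectrum (𝓞 L))) (u : S.unit L) (v : T) :
    h68si_proj L K p hdeg T (h68si_phi L p S T u) v =
      (QuotientGroup.mk (u : Lˣ) : Lˣ ⧸ localNormSubgroup L K v.1) := rfl

lemma h68si_residueMap_apply (T : Finset (HeightOneSpectrum (𝓞 L)))
    (u : (T : Set (HeightOneSpectrum (𝓞 L))).unit L) (v : T) :
    residueMap L K T u v = (QuotientGroup.mk (u : Lˣ) : Lˣ ⧸ localNormSubgroup L K v.1) := rfl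

lemma h68si_proj_surjective (hdeg : Module.finrank L K = p)
    (T : Finset (HeightOneSpectrum (𝓞 L))) :
    Function.Surjective (h68si_proj L K p hdeg T) := by
  intro q
  have hlift : ∀ v : T, ∃ c : Lˣ,
      (QuotientGroup.mk c : Lˣ ⧸ localNormSubgroup L K v.1) = q v :=
    fun v => QuotientGroup.mk_surjective (q v)
  choose c hc using hlift
  refine ⟨fun v => QuotientGroup.mk (c v), ?_⟩
  funext v
  rw [h68si_proj_mk]
  exact hc v

end Maps

section Count

variable {L : Type} [Field L] [NumberField L]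

/-- KEY in kernel form. -/
lemma h68si_ker (hFI : IfaceFI) (hAdm : IfaceAdm) (hSplit : IfaceLNSplit)
    (hUnr : IfaceLNUnr) (hNewton : IfaceNewton)
    {p : ℕ} (hp : p.Prime) (hp3 : 3 ≤ p) (hζ : ∃ ζ : L, IsPrimitiveRoot ζ p)
    (T T' : Finset (HeightOneSpectrum (𝓞 L))) (hdisj : Disjoint T T')
    (hTp : ∀ v : HeightOneSpectrum (𝓞 L), (p : 𝓞 L) ∈ v.asIdeal → v ∈ T)
    (hcl : TClassGroupTrivial L (T : Set (HeightOneSpectrum (𝓞 L))))
    (hsurj : ∀ c : HeightOneSpectrum (𝓞 L) → Lˣ, (∀ v ∈ T', v.valuation L (c v : L) = 1) →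
      ∃ u : Lˣ, u ∈ (T : Set (HeightOneSpectrum (𝓞 L))).unit L ∧
        ∀ v ∈ T', ∃ x : Lˣ, v.valuation L ((u : L) / ((c v : L) * (x : L) ^ p) - 1) < 1) :
    (h68si_phi L p ((T : Set (HeightOneSpectrum (𝓞 L))) ∪
      (T' : Set (HeightOneSpectrum (𝓞 L)))) T).ker =
      (powMonoidHom p : (((T : Set (HeightOneSpectrum (𝓞 L))) ∪
        (T' : Set (HeightOneSpectrum (𝓞 L)))).unit L) →* _).range := by
  ext u
  rw [MonoidHom.mem_ker]
  constructor
  · intro hu
    have hloc : ∀ v ∈ T, (u : Lˣ) ∈ localPowSubgroup L p v := by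
      intro v hv
      have := congrFun hu ⟨v, hv⟩
      rw [h68si_phi_apply] at this
      exact (QuotientGroup.eq_one_iff _).1 this
    obtain ⟨c, hc⟩ := h68si_key hFI hAdm hSplit hUnr hNewton hp hp3 hζ T T' hdisj hTp
      hcl hsurj (u : Lˣ) u.2 hloc
    have hcS : c ∈ ((T : Set (HeightOneSpectrum (𝓞 L))) ∪
        (T' : Set (HeightOneSpectrum (𝓞 L)))).unit L := by
      intro v hv
      have h1 : v.valuation L ((c ^ p : Lˣ) : L) = 1 := by
        rw [hc]
        exact u.2 v hv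
      rw [Units.val_pow_eq_pow_val, map_pow] at h1
      exact h68si_val_pow_eq_one hp.ne_zero h1
    exact ⟨⟨c, hcS⟩, Subtype.ext hc⟩
  · rintro ⟨c, rfl⟩
    funext v
    rw [h68si_phi_apply]
    exact (QuotientGroup.eq_one_iff _).2 (pow_mem_localPowSubgroup p v.1 (c : Lˣ))

/-- COUNT: the image of `E_{T ∪ T'}` in `∏_{v ∈ T} Lˣ / P_v` has index `≤ p`. -/
lemma h68si_index_le (hLP : IfaceLPIdx)
    {p : ℕ} (hp : p.Prime) (hp3 : 3 ≤ p) {ζ : L} (hζp : IsPrimitiveRoot ζ p)
    (T T' : Finset (HeightOneSpectrum (𝓞 L))) (hdisj : Disjoint T T')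
    (hTp : ∀ v : HeightOneSpectrum (𝓞 L), (p : 𝓞 L) ∈ v.asIdeal → v ∈ T)
    (hcard : T'.card = NumberField.Units.rank L + T.card)
    (hker : (h68si_phi L p ((T : Set (HeightOneSpectrum (𝓞 L))) ∪
      (T' : Set (HeightOneSpectrum (𝓞 L)))) T).ker =
      (powMonoidHom p : (((T : Set (HeightOneSpectrum (𝓞 L))) ∪
        (T' : Set (HeightOneSpectrum (𝓞 L)))).unit L) →* _).range) :
    (MonoidHom.range (N := (v : T) → Lˣ ⧸ localPowSubgroup L p v.1)
      (h68si_phi L p ((T : Set (HeightOneSpectrum (𝓞 L))) ∪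
        (T' : Set (HeightOneSpectrum (𝓞 L)))) T)).index ≠ 0 ∧
    (MonoidHom.range (N := (v : T) → Lˣ ⧸ localPowSubgroup L p v.1)
      (h68si_phi L p ((T : Set (HeightOneSpectrum (𝓞 L))) ∪
        (T' : Set (HeightOneSpectrum (𝓞 L)))) T)).index ≤ p := by
  classical
  have hSfin : Finite ↥((T : Set (HeightOneSpectrum (𝓞 L))) ∪
      (T' : Set (HeightOneSpectrum (𝓞 L)))) :=
    ((Finset.finite_toSet T).union (Finset.finite_toSet T')).to_subtype
  have hScard : Nat.card ↥((T : Set (HeightOneSpectrum (𝓞 L))) ∪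
      (T' : Set (HeightOneSpectrum (𝓞 L)))) = T.card + T'.card := by
    rw [Nat.card_coe_set_eq, ← Finset.coe_union, Set.ncard_coe_finset,
      Finset.card_union_of_disjoint hdisj]
  have hrange : Nat.card (MonoidHom.range (N := (v : T) → Lˣ ⧸ localPowSubgroup L p v.1)
      (h68si_phi L p ((T : Set (HeightOneSpectrum (𝓞 L))) ∪
        (T' : Set (HeightOneSpectrum (𝓞 L)))) T)) =
      p ^ (NumberField.Units.rank L + (T.card + T'.card) + 1) := by
    rw [← Subgroup.index_ker, hker, h68si_index_pow _ hp hζp, hScard]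
  obtain ⟨hLP1, hLP2⟩ := hLP p hp hp3 L ⟨ζ, hζp⟩ T hTp
  have hfinQ : ∀ v : T, Finite (Lˣ ⧸ localPowSubgroup L p v.1) := fun v =>
    Subgroup.index_ne_zero_iff_finite.1 (hLP1 v.1 v.2)
  have hfinQ' : Finite ((v : T) → Lˣ ⧸ localPowSubgroup L p v.1) := Pi.finite
  have hcardQ : Nat.card ((v : T) → Lˣ ⧸ localPowSubgroup L p v.1) ≤
      p ^ (2 * T.card + Module.finrank ℚ L) := by
    rw [Nat.card_pi]
    have : ∀ v : T, Nat.card (Lˣ ⧸ localPowSubgroup L p v.1) =
        (localPowSubgroup L p v.1).index := fun v => (Subgroup.index_eq_card _).symm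
    simp only [this]
    rw [Finset.prod_coe_sort T (fun v => (localPowSubgroup L p v).index)]
    exact hLP2
  have hexp : NumberField.Units.rank L + (T.card + T'.card) + 1 + 1 =
      2 * T.card + Module.finrank ℚ L := by
    have := h68si_rank hp3 hζp
    omega
  refine ⟨Subgroup.index_ne_zero_of_finite, ?_⟩
  have h1 := Subgroup.index_mul_card (MonoidHom.range
    (N := (v : T) → Lˣ ⧸ localPowSubgroup L p v.1)
    (h68si_phi L p ((T : Set (HeightOneSpectrum (𝓞 L))) ∪
      (T' : Set (HeightOneSpectrum (𝓞 L)))) T))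
  rw [hrange] at h1
  have hpos : 0 < p ^ (NumberField.Units.rank L + (T.card + T'.card) + 1) := pow_pos hp.pos _
  refine Nat.le_of_mul_le_mul_right ?_ hpos
  rw [h1, ← pow_succ', hexp]
  exact hcardQ

end Count

section Final

variable {L K : Type} [Field L] [NumberField L] [Field K] [NumberField K] [Algebra L K]

/-- INDEP: the image of `E_{T ∪ T'}` in `∏_{v ∈ T} Lˣ / N_v` lies in the image of `E_T`. -/
lemma h68si_comap {p : ℕ} (hdeg : Module.finrank L K = p)
    (T T' : Finset (HeightOneSpectrum (𝓞 L))) (hdisj : Disjoint T T')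
    (hz : ∀ v ∈ T', ∃ z : Kˣ,
      v.valuation L (Algebra.norm L (z : K)) = WithZero.exp (-1 : ℤ) ∧
        ∀ v' : HeightOneSpectrum (𝓞 L), v' ∉ (T : Set (HeightOneSpectrum (𝓞 L))) → v' ≠ v →
          v'.valuation L (Algebra.norm L (z : K)) = 1) :
    MonoidHom.range (N := (v : T) → Lˣ ⧸ localPowSubgroup L p v.1)
      (h68si_phi L p ((T : Set (HeightOneSpectrum (𝓞 L))) ∪
        (T' : Set (HeightOneSpectrum (𝓞 L)))) T) ≤
      (MonoidHom.range (N := (v : T) → Lˣ ⧸ localNormSubgroup L K v.1)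
        (residueMap L K T)).comap (h68si_proj L K p hdeg T) := by
  rintro _ ⟨u, rfl⟩
  rw [Subgroup.mem_comap]
  obtain ⟨y, hy1, hy2⟩ := h68si_exists_norm_val (K := K) (fun _ => (u : Lˣ)) T'
    (fun v hv h => (Finset.disjoint_left.1 hdisj (Finset.mem_coe.1 h)) hv) hz
  have hu₀ : (u : Lˣ) / h68si_normU (L := L) y ∈
      (T : Set (HeightOneSpectrum (𝓞 L))).unit L := by
    intro v hv
    rw [Units.val_div_eq_div_val, map_div₀]
    by_cases hvT' : v ∈ T'
    · rw [hy1 v hvT']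
      exact div_self ((Valuation.ne_zero_iff _).2 (u : Lˣ).ne_zero)
    · rw [hy2 v hv hvT', div_one]
      refine u.2 v ?_
      rintro (h | h)
      · exact hv h
      · exact hvT' (Finset.mem_coe.1 h)
  refine ⟨⟨(u : Lˣ) / h68si_normU (L := L) y, hu₀⟩, ?_⟩
  funext v
  rw [h68si_residueMap_apply, h68si_proj_phi, QuotientGroup.eq]
  have h1 : ((u : Lˣ) / h68si_normU (L := L) y)⁻¹ * (u : Lˣ) = h68si_normU (L := L) y := by
    rw [inv_div, div_mul_cancel]
  rw [h1]
  exact globalNorms_le_localNormSubgroup L K v.1 (h68si_normU_mem y)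

end Final

/-- **The second inequality**, from the first inequality and the SI leaves. -/
theorem ifaceSI_of (hFI : IfaceFI) (hAdm : IfaceAdm) (hLP : IfaceLPIdx) (hSplit : IfaceLNSplit)
    (hUnr : IfaceLNUnr) (hNewton : IfaceNewton) (hFB : IfaceFB) (hKum : IfaceKumGen)
    (hNU : IfaceNormUnif) : IfaceSI := by
  classical
  intro p hp hp3 L K _ _ _ _ _ _ hdeg hζ T hT
  obtain ⟨ζ, hζp⟩ := hζ
  have hζ : ∃ ζ : L, IsPrimitiveRoot ζ p := ⟨ζ, hζp⟩
  have : NeZero p := ⟨hp.ne_zero⟩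
  obtain ⟨α, a, haT, hα, hαL⟩ := hKum p hp hp3 L K hdeg hζ T hT
  -- `a` is not a `p`-th power in `L`
  have ha : ∀ x : Lˣ, x ^ p ≠ a := by
    intro x hx
    have hx0 : algebraMap L K (x : L) ≠ 0 := by
      rw [Ne, map_eq_zero]
      exact x.ne_zero
    have h1 : (α / algebraMap L K (x : L)) ^ p = 1 := by
      rw [div_pow, hα, ← hx, Units.val_pow_eq_pow_val, map_pow, div_self (pow_ne_zero _ hx0)]
    have hζK : IsPrimitiveRoot (algebraMap L K ζ) p :=
      hζp.map_of_injective (algebraMap L K).injective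
    obtain ⟨j, -, hj⟩ := hζK.eq_pow_of_pow_eq_one h1
    apply hαL (ζ ^ j * (x : L))
    rw [map_mul, map_pow, hj, div_mul_cancel₀ _ hx0]
  obtain ⟨T', hdisj, hcard, hT'loc, hT'surj⟩ := hFB p hp hp3 L hζ T hT.above_p a haT ha
  have hker := h68si_ker hFI hAdm hSplit hUnr hNewton hp hp3 hζ T T' hdisj hT.above_p
    hT.classL hT'surj
  obtain ⟨hidx0, hidx⟩ := h68si_index_le hLP hp hp3 hζp T T' hdisj hT.above_p hcard hker
  have hz : ∀ v ∈ T', ∃ z : Kˣ,
      v.valuation L (Algebra.norm L (z : K)) = WithZero.exp (-1 : ℤ) ∧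
        ∀ v' : HeightOneSpectrum (𝓞 L), v' ∉ (T : Set (HeightOneSpectrum (𝓞 L))) → v' ≠ v →
          v'.valuation L (Algebra.norm L (z : K)) = 1 := by
    intro v hv
    have hvT : v ∉ T := fun h => (Finset.disjoint_left.1 hdisj h) hv
    obtain ⟨z, hz1, hz2⟩ := hNU p hp hp3 L K hdeg T hT v hvT
      (hSplit p hp hp3 L K hdeg hζ v α a hα hαL (hT'loc v hv))
    exact ⟨z, hz1, fun v' hv' hne => hz2 v' (fun h => hv' (Finset.mem_coe.2 h)) hne⟩
  have hcomap := h68si_comap (K := K) hdeg T T' hdisj hz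
  have hdvd : (MonoidHom.range (N := (v : T) → Lˣ ⧸ localNormSubgroup L K v.1)
      (residueMap L K T)).index ∣
      (MonoidHom.range (N := (v : T) → Lˣ ⧸ localPowSubgroup L p v.1)
        (h68si_phi L p ((T : Set (HeightOneSpectrum (𝓞 L))) ∪
          (T' : Set (HeightOneSpectrum (𝓞 L)))) T)).index := by
    have key := Subgroup.index_comap_of_surjective
      (G := (v : T) → Lˣ ⧸ localNormSubgroup L K v.1)
      (G' := (v : T) → Lˣ ⧸ localPowSubgroup L p v.1)
      (f := h68si_proj L K p hdeg T)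
      (MonoidHom.range (N := (v : T) → Lˣ ⧸ localNormSubgroup L K v.1) (residueMap L K T))
      (h68si_proj_surjective L K p hdeg T)
    rw [← key]
    exact Subgroup.index_dvd_of_le hcomap
  unfold normIndex
  refine ⟨fun h0 => hidx0 (Nat.eq_zero_of_zero_dvd (h0 ▸ hdvd)), ?_⟩
  exact (Nat.le_of_dvd (Nat.pos_of_ne_zero hidx0) hdvd).trans hidx

end

end Fermat.Agent.PT.Glob
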