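import Mathlib
import Fermat.Agent.PT.Glob.SI.Iface

/-!
# W3-PT / PT-GLOB / GLOB-SI, leaf SI-RES (helper24)

`h24sr_ifaceRes : IfaceRes` — for a finite place `v` of a number field `L`, the units at `v`
modulo (`p`-th powers times units congruent to `1` mod `v`) form a cyclic group of order `1` or
`p`: if `c` is not a `p`-th power mod `v` then every unit `c'` is `c ^ i * x ^ p` mod `v`.

Proof: the residue field `k = 𝓞_L / v` is finite, so `kˣ` is cyclic; lift/reduce along
`exists_valuation_sub_lt_of_integer`.  (Neither `μ_p ⊆ L` nor `v ∤ p` is needed.)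
-/

set_option autoImplicit false

open NumberField IsDedekindDomain

namespace Fermat.Agent.PT.Glob

/-- In a cyclic group, a non-`p`-th-power generates modulo `p`-th powers (`p` prime). -/
theorem h24sr_cyclic_pow {G : Type*} [Group G] [IsCyclic G] (p : ℕ) (hp : p.Prime) (a a' : G)
    (ha : ¬ ∃ h : G, h ^ p = a) : ∃ (i : ℕ) (h : G), a' = a ^ i * h ^ p := by
  have : Fact p.Prime := ⟨hp⟩
  obtain ⟨g, hg⟩ := IsCyclic.exists_generator (α := G)
  obtain ⟨s, rfl⟩ := Subgroup.mem_zpowers_iff.mp (hg a)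
  obtain ⟨t, rfl⟩ := Subgroup.mem_zpowers_iff.mp (hg a')
  have hps : ¬ (p : ℤ) ∣ s := by
    rintro ⟨s', rfl⟩
    apply ha
    refine ⟨g ^ s', ?_⟩
    rw [← zpow_natCast, ← zpow_mul, mul_comm]
  have hs : (s : ZMod p) ≠ 0 := by
    rw [Ne, ZMod.intCast_zmod_eq_zero_iff_dvd]
    exact hps
  set i : ℕ := ((t : ZMod p) * (s : ZMod p)⁻¹).val with hi
  have hz : ((t - (i : ℤ) * s : ℤ) : ZMod p) = 0 := by
    push_cast
    rw [hi, ZMod.natCast_val, ZMod.cast_id', id, mul_assoc, inv_mul_cancel₀ hs, mul_one, sub_self]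
  obtain ⟨m, hm⟩ := (ZMod.intCast_zmod_eq_zero_iff_dvd _ p).mp hz
  refine ⟨i, g ^ m, ?_⟩
  rw [← zpow_natCast (g ^ s), ← zpow_mul, ← zpow_natCast (g ^ m), ← zpow_mul, ← zpow_add]
  congr 1
  linarith [hm]

section Cong

variable {L : Type} [Field L] [NumberField L] (v : HeightOneSpectrum (𝓞 L))

/-- congruence modulo the maximal ideal of `v`. -/
def h24sr_Cong (x y : L) : Prop := v.valuation L (x - y) < 1

variable {v}

theorem h24sr_cong_refl (x : L) : h24sr_Cong v x x := by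
  unfold h24sr_Cong
  rw [sub_self, map_zero]
  exact zero_lt_one

theorem h24sr_cong_symm {x y : L} (h : h24sr_Cong v x y) : h24sr_Cong v y x := by
  unfold h24sr_Cong at *
  rwa [Valuation.map_sub_swap]

theorem h24sr_cong_trans {x y z : L} (h : h24sr_Cong v x y) (h' : h24sr_Cong v y z) :
    h24sr_Cong v x z := by
  unfold h24sr_Cong at *
  have : x - z = (x - y) + (y - z) := by ring
  rw [this]
  exact Valuation.map_add_lt _ h h'

theorem h24sr_cong_mul {x x' y y' : L} (hx : h24sr_Cong v x x') (hy : h24sr_Cong v y y')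
    (hx1 : v.valuation L x' ≤ 1) (hy1 : v.valuation L y ≤ 1) :
    h24sr_Cong v (x * y) (x' * y') := by
  unfold h24sr_Cong at *
  have : x * y - x' * y' = (x - x') * y + x' * (y - y') := by ring
  rw [this]
  refine Valuation.map_add_lt _ ?_ ?_
  · rw [map_mul]
    calc v.valuation L (x - x') * v.valuation L y ≤ v.valuation L (x - x') * 1 :=
          mul_le_mul' le_rfl hy1
      _ = v.valuation L (x - x') := mul_one _
      _ < 1 := hx
  · rw [map_mul]
    calc v.valuation L x' * v.valuation L (y - y') ≤ 1 * v.valuation L (y - y') :=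
          mul_le_mul' hx1 le_rfl
      _ = v.valuation L (y - y') := one_mul _
      _ < 1 := hy

theorem h24sr_val_eq_one_of_cong {x y : L} (h : h24sr_Cong v x y) (hy : v.valuation L y = 1) :
    v.valuation L x = 1 := by
  unfold h24sr_Cong at h
  have : x = y + (x - y) := by ring
  rw [this, Valuation.map_add_eq_of_lt_left _ (by rw [hy]; exact h), hy]

theorem h24sr_cong_pow {x y : L} (h : h24sr_Cong v x y) (hy : v.valuation L y = 1) (n : ℕ) :
    h24sr_Cong v (x ^ n) (y ^ n) := by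
  have hx : v.valuation L x = 1 := h24sr_val_eq_one_of_cong h hy
  induction n with
  | zero => simpa using h24sr_cong_refl (v := v) (1 : L)
  | succ k ih =>
    rw [pow_succ, pow_succ]
    refine h24sr_cong_mul ih h ?_ hx.le
    rw [map_pow, hy, one_pow]

theorem h24sr_exists_int (x : L) (hx : v.valuation L x ≤ 1) :
    ∃ a : 𝓞 L, h24sr_Cong v (algebraMap (𝓞 L) L a) x := by
  obtain ⟨a, ha⟩ := v.exists_valuation_sub_lt_of_integer (K := L) hx 1
  refine ⟨a, ?_⟩
  unfold h24sr_Cong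
  simpa using ha

theorem h24sr_cong_int_iff (a b : 𝓞 L) :
    h24sr_Cong v (algebraMap (𝓞 L) L a) (algebraMap (𝓞 L) L b) ↔
      Ideal.Quotient.mk v.asIdeal a = Ideal.Quotient.mk v.asIdeal b := by
  unfold h24sr_Cong
  rw [← map_sub, HeightOneSpectrum.valuation_lt_one_iff_mem, Ideal.Quotient.eq]

theorem h24sr_div_sub_one {x y : L} (hy : v.valuation L y = 1) :
    v.valuation L (x / y - 1) < 1 ↔ h24sr_Cong v x y := by
  unfold h24sr_Cong
  have hy0 : y ≠ 0 := by
    rintro rfl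
    rw [map_zero] at hy
    exact zero_ne_one hy
  have : x / y - 1 = (x - y) / y := by
    field_simp
  rw [this, map_div₀, hy, div_one]

end Cong

/-- SI-RES. -/
theorem h24sr_ifaceRes : IfaceRes := by
  intro p hp L _ _ _ v _ c c' hc hc' hcn
  -- integral lifts of `c`, `c'`
  obtain ⟨a, ha⟩ := h24sr_exists_int (v := v) (c : L) hc.le
  obtain ⟨a', ha'⟩ := h24sr_exists_int (v := v) (c' : L) hc'.le
  have hav : v.valuation L (algebraMap (𝓞 L) L a) = 1 := h24sr_val_eq_one_of_cong ha hc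
  have ha'v : v.valuation L (algebraMap (𝓞 L) L a') = 1 := h24sr_val_eq_one_of_cong ha' hc'
  have hmk0 : ∀ b : 𝓞 L, v.valuation L (algebraMap (𝓞 L) L b) = 1 →
      Ideal.Quotient.mk v.asIdeal b ≠ 0 := by
    intro b hb h0
    rw [Ideal.Quotient.eq_zero_iff_mem, ← HeightOneSpectrum.valuation_lt_one_iff_mem (K := L)] at h0
    rw [hb] at h0
    exact lt_irrefl _ h0
  have hmk1 : ∀ b : 𝓞 L, Ideal.Quotient.mk v.asIdeal b ≠ 0 →
      v.valuation L (algebraMap (𝓞 L) L b) = 1 := by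
    intro b hb
    rw [HeightOneSpectrum.valuation_eq_one_iff_notMem]
    intro hmem
    exact hb (Ideal.Quotient.eq_zero_iff_mem.mpr hmem)
  have : v.asIdeal.IsMaximal := v.isMaximal
  let _ : Field (𝓞 L ⧸ v.asIdeal) := Ideal.Quotient.field v.asIdeal
  have : Finite (𝓞 L ⧸ v.asIdeal)ˣ := inferInstance
  -- `ā` is not a `p`-th power
  have hnp : ¬ ∃ h : (𝓞 L ⧸ v.asIdeal)ˣ, h ^ p = Units.mk0 _ (hmk0 a hav) := by
    rintro ⟨h, hh⟩
    obtain ⟨y, hy⟩ := Ideal.Quotient.mk_surjective (h : 𝓞 L ⧸ v.asIdeal)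
    have hy0 : Ideal.Quotient.mk v.asIdeal y ≠ 0 := by
      rw [hy]
      exact h.ne_zero
    have hyv := hmk1 y hy0
    have hyL : algebraMap (𝓞 L) L y ≠ 0 := by
      intro h0
      rw [h0, map_zero] at hyv
      exact zero_ne_one hyv
    apply hcn
    refine ⟨Units.mk0 _ hyL, ?_⟩
    have hypow : v.valuation L ((algebraMap (𝓞 L) L y) ^ p) = 1 := by
      rw [map_pow, hyv, one_pow]
    rw [Units.val_mk0, h24sr_div_sub_one hypow]
    refine h24sr_cong_trans (h24sr_cong_symm ha) ?_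
    rw [← map_pow, h24sr_cong_int_iff, map_pow, hy]
    have := congrArg (fun u : (𝓞 L ⧸ v.asIdeal)ˣ => (u : 𝓞 L ⧸ v.asIdeal)) hh
    simp only [Units.val_pow_eq_pow_val, Units.val_mk0] at this
    exact this.symm
  obtain ⟨i, h, hh⟩ := h24sr_cyclic_pow p hp (Units.mk0 _ (hmk0 a hav))
    (Units.mk0 _ (hmk0 a' ha'v)) hnp
  obtain ⟨y, hy⟩ := Ideal.Quotient.mk_surjective (h : 𝓞 L ⧸ v.asIdeal)
  have hy0 : Ideal.Quotient.mk v.asIdeal y ≠ 0 := by
    rw [hy]
    exact h.ne_zero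
  have hyv := hmk1 y hy0
  have hyL : algebraMap (𝓞 L) L y ≠ 0 := by
    intro h0
    rw [h0, map_zero] at hyv
    exact zero_ne_one hyv
  refine ⟨i, Units.mk0 _ hyL, ?_⟩
  have hypow : v.valuation L ((algebraMap (𝓞 L) L y) ^ p) = 1 := by
    rw [map_pow, hyv, one_pow]
  have hcpow : v.valuation L ((c : L) ^ i) = 1 := by
    rw [map_pow, hc, one_pow]
  have hden : v.valuation L ((c : L) ^ i * (algebraMap (𝓞 L) L y) ^ p) = 1 := by
    rw [map_mul, hcpow, hypow, one_mul]
  rw [Units.val_mk0, h24sr_div_sub_one hden]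
  -- `c' ≡ a' ≡ a^i y^p ≡ c^i y^p`
  have h1 : h24sr_Cong v (algebraMap (𝓞 L) L a')
      ((algebraMap (𝓞 L) L a) ^ i * (algebraMap (𝓞 L) L y) ^ p) := by
    rw [← map_pow, ← map_pow, ← map_mul, h24sr_cong_int_iff, map_mul, map_pow, map_pow, hy]
    have := congrArg (fun u : (𝓞 L ⧸ v.asIdeal)ˣ => (u : 𝓞 L ⧸ v.asIdeal)) hh
    simp only [Units.val_mul, Units.val_pow_eq_pow_val, Units.val_mk0] at this
    exact this
  have h2 : h24sr_Cong v ((algebraMap (𝓞 L) L a) ^ i * (algebraMap (𝓞 L) L y) ^ p)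
      ((c : L) ^ i * (algebraMap (𝓞 L) L y) ^ p) :=
    h24sr_cong_mul (h24sr_cong_pow ha hc i) (h24sr_cong_refl _) hcpow.le hypow.le
  exact h24sr_cong_trans (h24sr_cong_symm ha') (h24sr_cong_trans h1 h2)

end Fermat.Agent.PT.Glob
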