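import Mathlib
import Fermat.Agent.PT.Glob.SI.Iface
import Fermat.Agent.PT.Units.Kummer
import Fermat.Agent.PT.Units.SUnitHerbrand

/-!
# W3-PT / PT-GLOB / GLOB-SI, leaf SI-KUMGEN (helper25): a Kummer generator which is a `T`-unit

`h25k_kumGen : IfaceKumGen` — for `K / L` Galois of odd prime degree `p`, `μ_p ⊆ L`, and `T`
admissible there are `α ∈ K`, `a ∈ E_T` with `α ^ p = a` and `α ∉ L`.

Proof: Kummer theory (`exists_root_adjoin_eq_top_of_isCyclic`) gives `α₀`, `α₀ ^ p = a₀ ∈ L`.
For `v ∉ T` the extension is unramified at `v`, so `v(a₀) = w(α₀) ^ p` for `w ∣ v`, i.e.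
`p ∣ ord_v a₀`.  As the `T`-class group of `L` is trivial there is `c ∈ Lˣ` with
`ord_v c = ord_v a₀ / p` for all `v ∉ T`; put `α = α₀ / c`, `a = a₀ / c ^ p`.
-/

set_option autoImplicit false
set_option linter.unusedSectionVars false
set_option linter.style.haveILetI false

open NumberField IsDedekindDomain IntermediateField

namespace Fermat.Agent.PT.Glob

open Fermat.Agent.PT.Units

noncomputable section

/-- the set of places at which a nonzero element is not a unit is finite. -/
theorem h25k_finite_ne_one (L : Type) [Field L] [NumberField L] (x : Lˣ) :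
    {v : HeightOneSpectrum (𝓞 L) | v.valuation L (x : L) ≠ 1}.Finite := by
  have h1 := HeightOneSpectrum.Support.finite (𝓞 L) (x : L)
  have h2 := HeightOneSpectrum.Support.finite (𝓞 L) ((x : L)⁻¹)
  refine (h1.union h2).subset ?_
  intro v hv
  have hpos : 0 < v.valuation L (x : L) := by
    rw [Valuation.pos_iff]
    exact x.ne_zero
  rcases lt_or_gt_of_ne hv with h | h
  · right
    show 1 < v.valuation L (x : L)⁻¹
    rw [map_inv₀]
    exact (one_lt_inv₀ hpos).2 h
  · left
    exact h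

/-- the valuation form of a trivial `T`-class group gives `SU_IsLarge`. -/
theorem h25k_isLarge_of_tClassGroupTrivial {F : Type} [Field F] [NumberField F]
    {S : Set (HeightOneSpectrum (𝓞 F))} (h : TClassGroupTrivial F S) : SU_IsLarge F S := by
  intro w
  by_cases hw : w ∈ S
  · refine ⟨1, fun h' => absurd hw h', fun v _ _ => ?_⟩
    rw [SU_ord_eq_zero_iff]
    simp
  · obtain ⟨x, hx1, hx2⟩ := h w hw
    refine ⟨x, fun _ => ?_, fun v hv hvw => ?_⟩
    · have := SU_exp_ord F w x
      rw [hx1, WithZero.exp_inj] at this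
      exact this
    · rw [SU_ord_eq_zero_iff]
      exact hx2 v hv hvw

/-- in an unramified Galois step the valuation of an element of the base is the valuation at a
prime above. -/
theorem h25k_valuation_up_of_unram (L K : Type) [Field L] [NumberField L] [Field K]
    [NumberField K] [Algebra L K] [IsGalois L K] (v : HeightOneSpectrum (𝓞 L))
    (hv : v.asIdeal.ramificationIdxIn (𝓞 K) = 1) (w : HeightOneSpectrum (𝓞 K))
    (hw : w.under (𝓞 L) = v) (x : L) :
    w.valuation K (algebraMap L K x) = v.valuation L x := by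
  subst hw
  haveI : w.asIdeal.LiesOver (w.under (𝓞 L)).asIdeal := ⟨rfl⟩
  have h1 := HeightOneSpectrum.valuation_liesOver K (w.under (𝓞 L)) w x
  have h2 : (w.under (𝓞 L)).asIdeal.ramificationIdx' w.asIdeal = 1 := by
    rw [Ideal.ramificationIdx'_eq_ramificationIdx _ _ (w.under (𝓞 L)).ne_bot,
      ← Ideal.ramificationIdxIn_eq_ramificationIdx (w.under (𝓞 L)).asIdeal w.asIdeal Gal(K/L)]
    exact hv
  rw [h2, pow_one] at h1
  exact h1.symm

/-- **SI-KUMGEN.** -/
theorem h25k_kumGen : IfaceKumGen := by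
  classical
  intro p hp hp3 L K _ _ _ _ _ _ hdeg hζ T hT
  haveI : Fact p.Prime := ⟨hp⟩
  haveI : FiniteDimensional L K := Module.finite_of_finrank_pos (by rw [hdeg]; exact hp.pos)
  haveI : IsCyclic Gal(K/L) := by
    have hcard : Nat.card Gal(K/L) = p := by rw [IsGalois.card_aut_eq_finrank, hdeg]
    exact isCyclic_of_prime_card hcard
  obtain ⟨ζ, hζ⟩ := hζ
  have hK : (primitiveRoots (Module.finrank L K) L).Nonempty := by
    rw [hdeg]
    exact ⟨ζ, (mem_primitiveRoots hp.pos).2 hζ⟩
  obtain ⟨α₀, ⟨a₀, ha₀⟩, htop⟩ := exists_root_adjoin_eq_top_of_isCyclic L K hK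
  rw [hdeg] at ha₀
  -- `α₀ ∉ L`
  have hα₀ : ∀ x : L, algebraMap L K x ≠ α₀ := by
    intro x hx
    have hbot : L⟮α₀⟯ = ⊥ := by
      rw [IntermediateField.adjoin_simple_eq_bot_iff]
      exact IntermediateField.mem_bot.2 ⟨x, hx⟩
    rw [htop] at hbot
    have h1 : Module.finrank L K = 1 := IntermediateField.bot_eq_top_iff_finrank_eq_one.1 hbot.symm
    rw [hdeg] at h1
    exact hp.one_lt.ne' h1
  have hα₀0 : α₀ ≠ 0 := fun h => hα₀ 0 (by rw [map_zero, h])
  have ha₀0 : a₀ ≠ 0 := by
    intro h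
    rw [h, map_zero] at ha₀
    exact pow_ne_zero p hα₀0 ha₀.symm
  set a₀u : Lˣ := Units.mk0 a₀ ha₀0 with ha₀u
  -- `p ∣ ord_v a₀` outside `T`
  have hdiv : ∀ v : HeightOneSpectrum (𝓞 L), v ∉ T →
      ∃ m : ℤ, SU_ord L v (Additive.ofMul a₀u) = (p : ℤ) * m := by
    intro v hv
    obtain ⟨w, hw⟩ := SU_exists_above (K := L) (L := K) v
    have h1 := h25k_valuation_up_of_unram L K v (hT.unramified v hv) w hw a₀
    rw [ha₀, map_pow] at h1
    have hwne : w.valuation K α₀ ≠ 0 := by
      rw [Ne, map_eq_zero]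
      exact hα₀0
    obtain ⟨m, hm⟩ : ∃ m : ℤ, w.valuation K α₀ = WithZero.exp m := by
      obtain ⟨m, hm⟩ := WithZero.ne_zero_iff_exists.1 hwne
      exact ⟨Multiplicative.toAdd m, hm.symm⟩
    refine ⟨m, ?_⟩
    have h2 := SU_exp_ord L v a₀u
    rw [show ((a₀u : Lˣ) : L) = a₀ from rfl, ← h1, hm, ← WithZero.exp_nsmul, WithZero.exp_inj] at h2
    rw [h2, nsmul_eq_mul]
  choose m hm using hdiv
  -- the valuation vector `ord_v a₀ / p`
  have hfin : {v : HeightOneSpectrum (𝓞 L) | v.valuation L (a₀u : L) ≠ 1}.Finite :=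
    h25k_finite_ne_one L a₀u
  let n : HeightOneSpectrum (𝓞 L) →₀ ℤ :=
    Finsupp.onFinset hfin.toFinset (fun v => if h : v ∉ T then m v h else 0) (by
      intro v hv
      rw [Set.Finite.mem_toFinset, Set.mem_ofPred_eq]
      intro h1
      apply hv
      by_cases hvT : v ∉ T
      · rw [dif_pos hvT]
        have h2 := hm v hvT
        rw [(SU_ord_eq_zero_iff L v a₀u).2 h1] at h2
        have hp0 : (p : ℤ) ≠ 0 := by exact_mod_cast hp.ne_zero
        rcases mul_eq_zero.1 h2.symm with h3 | h3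
        · exact absurd h3 hp0
        · exact h3
      · rw [dif_neg hvT])
  obtain ⟨c, hc⟩ := (h25k_isLarge_of_tClassGroupTrivial hT.classL).exists_ord_eq n
  refine ⟨α₀ / algebraMap L K (c : L), a₀u / c ^ p, ?_, ?_, ?_⟩
  · -- `a` is a `T`-unit
    intro v hv
    have hvT : v ∉ T := hv
    show v.valuation L ((a₀u / c ^ p : Lˣ) : L) = 1
    rw [← SU_ord_eq_zero_iff]
    have h1 : Additive.ofMul (a₀u / c ^ p) = Additive.ofMul a₀u - p • Additive.ofMul c := rfl
    rw [h1, map_sub, map_nsmul, hm v hvT, hc v hvT]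
    show (p : ℤ) * m v hvT - p • (n v) = 0
    have h2 : n v = m v hvT := by
      show (if h : v ∉ T then m v h else 0) = m v hvT
      rw [dif_pos hvT]
    rw [h2, nsmul_eq_mul, sub_self]
  · rw [div_pow, ← ha₀, ← map_pow, Units.val_div_eq_div_val, map_div₀, Units.val_pow_eq_pow_val]
    rfl
  · intro x hx
    apply hα₀ (x * (c : L))
    rw [map_mul, hx, div_mul_cancel₀]
    rw [Ne, map_eq_zero]
    exact c.ne_zero

end

end Fermat.Agent.PT.Glob
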