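import Mathlib
import Fermat.Agent.PT.Units.SUnitHerbrand

/-!
# W3-PT / PT-GLOB / GLOB-SI, leaf SI-AUX (helper41): core lemmas

* generic valuation lemmas (`h41a_val_*`, `h41a_exists_root_close`, `h41a_val_natCast_lt_one`);
* going up and down along an extension of number fields (`h41a_val_up_*`, `h41a_val_down_*`);
* the heart `h41a_not_pow_of_unique_prime`: if the prime `w` of `F`, not above `p`, has a unique
  prime above it in the Kummer extension `F(u^(1/p))`, then `u` is not a `p`-th power modulo `w`.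
  Proof: if `u = x^p` modulo `w`, then `t = β / x` (`β ^ p = u`) is congruent modulo `W` to a
  `p`-th root of unity of `F`; the generator `σ` of the Galois group fixes `W` and maps `t` to
  `ζ t`, so `ζ - 1` lies in `W`, hence `p` lies in `W`.
-/

set_option autoImplicit false

open Polynomial NumberField IsDedekindDomain

namespace Fermat.Agent.PT.Glob

section GenericVal

variable {K : Type*} [Field K] {Γ : Type*} [LinearOrderedCommGroupWithZero Γ]

/-- a valuation with `v (c - 1) < 1` has `v c = 1` -/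
lemma h41a_val_eq_one_of_sub_lt (v : Valuation K Γ) {c : K} (h : v (c - 1) < 1) : v c = 1 := by
  have := Valuation.map_one_add_of_lt (v := v) (x := c - 1) h
  simpa using this

/-- `v (t ^ p - 1) < 1` forces `v t = 1` -/
lemma h41a_val_eq_one_of_pow (v : Valuation K Γ) {p : ℕ} (hp : p ≠ 0) {t : K}
    (h : v (t ^ p - 1) < 1) : v t = 1 := by
  have h1 : v (t ^ p) = 1 := h41a_val_eq_one_of_sub_lt v h
  rw [map_pow] at h1
  exact (pow_eq_one_iff.1 h1).resolve_right hp

/-- roots of unity have valuation one -/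
lemma h41a_val_root (v : Valuation K Γ) {p : ℕ} (hp : p ≠ 0) {ζ : K} (hζ : ζ ^ p = 1) :
    v ζ = 1 := by
  have h1 : v (ζ ^ p) = 1 := by rw [hζ, map_one]
  rw [map_pow] at h1
  exact (pow_eq_one_iff.1 h1).resolve_right hp

/-- if `t ^ p` is close to one, then `t` is close to a `p`-th root of unity -/
lemma h41a_exists_root_close (v : Valuation K Γ) {p : ℕ} (hp : 0 < p) {ζ : K}
    (hζ : IsPrimitiveRoot ζ p) {t : K} (h : v (t ^ p - 1) < 1) :
    ∃ i : ℕ, v (t - ζ ^ i) < 1 := by
  have hprod : t ^ p - 1 = ∏ i ∈ Finset.range p, (t - ζ ^ i) := by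
    have h1 := X_pow_sub_C_eq_prod hζ hp (one_pow p)
    have h2 := congrArg (Polynomial.eval t) h1
    simpa [Polynomial.eval_prod] using h2
  by_contra hcon
  simp only [not_exists, not_lt] at hcon
  have : (1 : Γ) ≤ v (t ^ p - 1) := by
    rw [hprod, map_prod]
    exact Finset.one_le_prod' (fun i _ => hcon i)
  exact absurd h (not_lt.2 this)

/-- if `ζ ≠ 1` is a `p`-th root of unity close to one, then `p` is small -/
lemma h41a_val_natCast_lt_one (v : Valuation K Γ) {p : ℕ} (hp : 1 < p) {ζ : K}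
    (hζ : IsPrimitiveRoot ζ p) (h : v (ζ - 1) < 1) : v (p : K) < 1 := by
  have hp0 : p ≠ 0 := by omega
  have hζ1 : v ζ = 1 := h41a_val_root v hp0 hζ.pow_eq_one
  have hk : ∀ k : ℕ, v (ζ ^ k - 1) < 1 := by
    intro k
    induction k with
    | zero => simp
    | succ k ih =>
      have e : ζ ^ (k + 1) - 1 = ζ ^ k * (ζ - 1) + (ζ ^ k - 1) := by ring
      rw [e]
      refine Valuation.map_add_lt v ?_ ih
      rw [map_mul, map_pow, hζ1, one_pow, one_mul]
      exact h
  have hsum : ∑ k ∈ Finset.range p, ζ ^ k = 0 := hζ.geom_sum_eq_zero hp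
  have e : (p : K) = ∑ k ∈ Finset.range p, (1 - ζ ^ k) := by
    rw [Finset.sum_sub_distrib, hsum, sub_zero]
    simp
  rw [e]
  refine Valuation.map_sum_lt v one_ne_zero (fun k _ => ?_)
  rw [← Valuation.map_neg]
  simpa using hk k

end GenericVal

section Up

open Fermat.Agent.PT.Units

variable {F K2 : Type*} [Field F] [NumberField F] [Field K2] [NumberField K2] [Algebra F K2]

/-- smallness goes up -/
lemma h41a_val_up_lt (W : HeightOneSpectrum (𝓞 K2)) {y : F}
    (h : (W.under (𝓞 F)).valuation F y < 1) : W.valuation K2 (algebraMap F K2 y) < 1 := by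
  obtain ⟨e, he, hv⟩ := SU_valuation_up (K := F) (L := K2) W y
  rw [hv]
  exact pow_lt_one' h he

/-- valuation one goes up -/
lemma h41a_val_up_eq_one (W : HeightOneSpectrum (𝓞 K2)) {y : F}
    (h : (W.under (𝓞 F)).valuation F y = 1) : W.valuation K2 (algebraMap F K2 y) = 1 := by
  obtain ⟨e, he, hv⟩ := SU_valuation_up (K := F) (L := K2) W y
  rw [hv, h, one_pow]

/-- smallness goes down -/
lemma h41a_val_down_lt (W : HeightOneSpectrum (𝓞 K2)) {y : F}
    (h : W.valuation K2 (algebraMap F K2 y) < 1) : (W.under (𝓞 F)).valuation F y < 1 := by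
  obtain ⟨e, he, hv⟩ := SU_valuation_up (K := F) (L := K2) W y
  rw [hv] at h
  by_contra hcon
  rw [not_lt] at hcon
  exact absurd h (not_lt.2 (one_le_pow_of_one_le' hcon e))

/-- valuation one goes down -/
lemma h41a_val_down_eq_one (W : HeightOneSpectrum (𝓞 K2)) {y : F}
    (h : W.valuation K2 (algebraMap F K2 y) = 1) : (W.under (𝓞 F)).valuation F y = 1 := by
  obtain ⟨e, he, hv⟩ := SU_valuation_up (K := F) (L := K2) W y
  rw [hv] at h
  exact (pow_eq_one_iff.1 h).resolve_right he

end Up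

section Core

open Fermat.Agent.PT.Units

/-- The heart: at a prime `w ∤ p` of `F` with a unique prime above it in `F(u^(1/p))`, the element
`u` is not a `p`-th power modulo `w`. -/
theorem h41a_not_pow_of_unique_prime {p : ℕ} (hp : p.Prime) (F : Type) [Field F] [NumberField F]
    {ζ : F} (hζ : IsPrimitiveRoot ζ p) (u : F) (H : Irreducible (X ^ p - C u))
    (K2 : Type) [Field K2] [NumberField K2] [Algebra F K2]
    [IsSplittingField F K2 (X ^ p - C u)]
    (w : HeightOneSpectrum (𝓞 F)) (hwp : (p : 𝓞 F) ∉ w.asIdeal)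
    (huniq : ∀ W W' : HeightOneSpectrum (𝓞 K2),
      W.under (𝓞 F) = w → W'.under (𝓞 F) = w → W = W') :
    ¬ ∃ x : Fˣ, w.valuation F (u / (x : F) ^ p - 1) < 1 := by
  rintro ⟨x, hx⟩
  have : NeZero p := ⟨hp.ne_zero⟩
  set β : K2 := rootOfSplitsXPowSubC (NeZero.pos p) u K2 with hβdef
  have hβ : β ^ p = algebraMap F K2 u := rootOfSplitsXPowSubC_pow u K2
  set σ : Gal(K2/F) := (autEquivZmod H K2 hζ).symm (Multiplicative.ofAdd ((1 : ℕ) : ZMod p))
    with hσdef
  have hσβ : σ β = ζ ^ 1 • β := autEquivZmod_symm_apply_natCast H K2 hβ hζ 1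
  obtain ⟨W, hW⟩ := SU_exists_above (K := F) (L := K2) w
  have hpull : SU_pull σ W = W := huniq _ _ ((SU_pull_under σ W).trans hW) hW
  set ζ' : K2 := algebraMap F K2 ζ with hζ'def
  have hζ' : IsPrimitiveRoot ζ' p := hζ.map_of_injective (algebraMap F K2).injective
  set x' : K2 := algebraMap F K2 (x : F) with hx'def
  have hx'0 : x' ≠ 0 := by
    rw [hx'def, Ne, map_eq_zero]
    exact x.ne_zero
  set t : K2 := β / x' with htdef
  have ht : t ^ p - 1 = algebraMap F K2 (u / (x : F) ^ p - 1) := by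
    rw [htdef, div_pow, hβ, map_sub, map_div₀, map_pow, map_one]
  have h1 : W.valuation K2 (t ^ p - 1) < 1 := by
    rw [ht]
    apply h41a_val_up_lt
    rw [hW]
    exact hx
  obtain ⟨i, hi⟩ := h41a_exists_root_close (W.valuation K2) hp.pos hζ' h1
  have hσt : σ (t - ζ' ^ i) = ζ' * t - ζ' ^ i := by
    rw [map_sub, map_pow, htdef, map_div₀, hσβ, hζ'def, hx'def, AlgEquiv.commutes,
      AlgEquiv.commutes, pow_one, Algebra.smul_def, mul_div_assoc]
  have h2 : W.valuation K2 (ζ' * t - ζ' ^ i) < 1 := by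
    rw [← hσt, SU_valuation_gal, hpull]
    exact hi
  have h3 : W.valuation K2 ((ζ' - 1) * t) < 1 := by
    have e : (ζ' - 1) * t = (ζ' * t - ζ' ^ i) - (t - ζ' ^ i) := by ring
    rw [e]
    exact Valuation.map_sub_lt _ h2 hi
  have h4 : W.valuation K2 t = 1 := h41a_val_eq_one_of_pow _ hp.ne_zero h1
  rw [map_mul, h4, mul_one] at h3
  have h5 : W.valuation K2 ((p : ℕ) : K2) < 1 :=
    h41a_val_natCast_lt_one _ hp.one_lt hζ' h3
  have h6 : w.valuation F ((p : ℕ) : F) < 1 := by
    rw [← hW]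
    apply h41a_val_down_lt W
    rw [map_natCast]
    exact h5
  apply hwp
  refine (HeightOneSpectrum.valuation_lt_one_iff_mem (K := F) w ((p : ℕ) : 𝓞 F)).1 ?_
  exact_mod_cast h6

end Core

end Fermat.Agent.PT.Glob
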