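import Mathlib
import Fermat.Agent.PT.Glob.SI.Iface
import Fermat.Agent.PT.Glob.SI.H41AuxCore
import Fermat.Agent.Cheb.Cyclic

/-!
# W3-PT / PT-GLOB / GLOB-SI, leaf SI-AUX (helper41): the auxiliary prime

`h41a_auxPrime : IfaceAuxPrime` (unconditional; in particular it uses neither `IfaceLNSplit` nor
`IfaceNewton`).

Route: `K1 = L(a^(1/p))` (or `K1 = L` if `a` is a `p`-th power), `u` is not a `p`-th power in
`K1` (`h41a_kummer`), `K2 = K1(u^(1/p))` is cyclic of degree `p` over `K1`; weak Chebotarev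
(`Cheb.exists_degOne_isInert`) gives a prime `w` of `K1` of absolute degree one, inert in `K2`,
outside a finite set; `v = w ∩ L`.  Since `w` has degree one, `α = a^(1/p)` is congruent modulo
`w` to a rational number, so `a` is a `p`-th power modulo `v`; since `w` has a unique prime above
it in `K2`, `u` is not a `p`-th power modulo `w` (`h41a_not_pow_of_unique_prime`), a fortiori
not modulo `v`.
-/

set_option autoImplicit false

open Polynomial NumberField IsDedekindDomain

namespace Fermat.Agent.PT.Glob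

section Finite

variable {F : Type*} [Field F] [NumberField F]

/-- the primes containing a nonzero integer of `F` form a finite set -/
theorem h41a_finite_mem (s : 𝓞 F) (hs : s ≠ 0) :
    {w : HeightOneSpectrum (𝓞 F) | s ∈ w.asIdeal}.Finite := by
  have hne : Ideal.span {s} ≠ 0 := by
    rw [Ne, Ideal.zero_eq_bot, Ideal.span_singleton_eq_bot]
    exact hs
  refine (Ideal.finite_factors hne).subset ?_
  intro v hv
  show v.asIdeal ∣ Ideal.span {s}
  rw [Ideal.dvd_span_singleton]
  exact hv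

/-- a nonzero element of `F` is a unit at almost all primes -/
theorem h41a_finite_val_ne_one (y : F) (hy : y ≠ 0) :
    {w : HeightOneSpectrum (𝓞 F) | w.valuation F y ≠ 1}.Finite := by
  obtain ⟨r, s, hs, rfl⟩ := IsFractionRing.div_surjective (A := 𝓞 F) y
  have hs0 : s ≠ 0 := nonZeroDivisors.ne_zero hs
  have hr0 : r ≠ 0 := by
    rintro rfl
    simp at hy
  refine ((h41a_finite_mem r hr0).union (h41a_finite_mem s hs0)).subset ?_
  intro w hw
  by_contra hcon
  simp only [Set.mem_union, Set.mem_ofPred_eq, not_or] at hcon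
  apply hw
  rw [map_div₀, (HeightOneSpectrum.valuation_eq_one_iff_notMem w).2 hcon.1,
    (HeightOneSpectrum.valuation_eq_one_iff_notMem w).2 hcon.2, div_one]

/-- at a prime of degree one every integer of `F` is congruent to a rational integer -/
theorem h41a_exists_int_sub_mem (w : HeightOneSpectrum (𝓞 F)) (hdeg : Cheb.IsDegOne F w)
    (r : 𝓞 F) : ∃ n : ℤ, r - (n : 𝓞 F) ∈ w.asIdeal := by
  have hcard : Nat.card (𝓞 F ⧸ w.asIdeal) = Ideal.absNorm w.asIdeal := by
    rw [Ideal.absNorm_apply, Submodule.cardQuot_apply]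
  have : Fact (Ideal.absNorm w.asIdeal).Prime := ⟨hdeg⟩
  have h1 : (Ideal.Quotient.mk w.asIdeal 1 : 𝓞 F ⧸ w.asIdeal) ≠ 0 := by
    rw [Ne, Ideal.Quotient.eq_zero_iff_mem]
    intro h
    exact w.isPrime.ne_top ((Ideal.eq_top_iff_one _).2 h)
  have hmem := mem_zmultiples_of_prime_card (g' := Ideal.Quotient.mk w.asIdeal r) hcard h1
  obtain ⟨n, hn⟩ := AddSubgroup.mem_zmultiples_iff.1 hmem
  refine ⟨n, ?_⟩
  rw [← Ideal.Quotient.eq_zero_iff_mem, map_sub, ← hn, map_intCast]
  simp

end Finite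

section Kummer

/-- Kummer theory: an element of `L` which is a `p`-th power in `L(a^(1/p))` lies in
`⟨a⟩ · L^p`. -/
theorem h41a_kummer {p : ℕ} (hp : p.Prime) (L : Type) [Field L] {ζ : L}
    (hζ : IsPrimitiveRoot ζ p) (a : L) (ha : a ≠ 0) (H : Irreducible (X ^ p - C a))
    (K1 : Type) [Field K1] [Algebra L K1] [IsSplittingField L K1 (X ^ p - C a)]
    (u : L) (γ : K1) (hγ : γ ^ p = algebraMap L K1 u) :
    ∃ (j : ℕ) (x : L), u = a ^ j * x ^ p := by
  have : NeZero p := ⟨hp.ne_zero⟩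
  have hinj : Function.Injective (algebraMap L K1) := (algebraMap L K1).injective
  rcases eq_or_ne γ 0 with rfl | hγ0
  · refine ⟨0, 0, ?_⟩
    rw [zero_pow hp.ne_zero] at hγ
    have : u = 0 := hinj (by rw [← hγ, map_zero])
    rw [this, zero_pow hp.ne_zero, mul_zero]
  set α : K1 := rootOfSplitsXPowSubC (NeZero.pos p) a K1 with hαdef
  have hα : α ^ p = algebraMap L K1 a := rootOfSplitsXPowSubC_pow a K1
  have hα0 : α ≠ 0 := by
    intro h0
    rw [h0, zero_pow hp.ne_zero] at hα
    exact ha (hinj (by rw [← hα, map_zero]))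
  set G := autEquivZmod H K1 hζ with hG
  set σ : Gal(K1/L) := G.symm (Multiplicative.ofAdd ((1 : ℕ) : ZMod p)) with hσdef
  have hσα : σ α = ζ ^ 1 • α := autEquivZmod_symm_apply_natCast H K1 hα hζ 1
  set ζ' : K1 := algebraMap L K1 ζ with hζ'def
  have hζ' : IsPrimitiveRoot ζ' p := hζ.map_of_injective hinj
  have hσα' : σ α = ζ' * α := by rw [hσα, pow_one, Algebra.smul_def]
  have h1 : (σ γ / γ) ^ p = 1 := by
    rw [div_pow, ← map_pow, hγ, AlgEquiv.commutes, div_self]
    rw [← hγ]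
    exact pow_ne_zero _ hγ0
  obtain ⟨j, -, hj⟩ := hζ'.eq_pow_of_pow_eq_one h1
  have hσγ : σ γ = ζ' ^ j * γ := by
    rw [hj, div_mul_cancel₀ _ hγ0]
  set y : K1 := γ / α ^ j with hydef
  have hσy : σ y = y := by
    rw [hydef, map_div₀, map_pow, hσγ, hσα', mul_pow, mul_div_mul_left]
    exact pow_ne_zero _ (hζ'.ne_zero hp.ne_zero)
  have hpow : ∀ k : ℕ, (σ ^ k) y = y := by
    intro k
    induction k with
    | zero => simp
    | succ k ih => rw [pow_succ, AlgEquiv.mul_apply, hσy, ih]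
  have hall : ∀ τ : Gal(K1/L), τ y = y := by
    intro τ
    have hτ : τ = σ ^ (Multiplicative.toAdd (G τ)).val := by
      apply G.injective
      rw [map_pow, hσdef, MulEquiv.apply_symm_apply, ← ofAdd_nsmul, nsmul_eq_mul,
        Nat.cast_one, mul_one, ZMod.natCast_zmod_val]
      rfl
    rw [hτ]
    exact hpow _
  have hgal : IsGalois L K1 :=
    isGalois_of_isSplittingField_X_pow_sub_C ⟨ζ, (mem_primitiveRoots hp.pos).2 hζ⟩ H K1
  have hfd : FiniteDimensional L K1 := Polynomial.IsSplittingField.finiteDimensional K1 (X ^ p - C a)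
  have hy : y ∈ (⊥ : IntermediateField L K1) := (IsGalois.mem_bot_iff_fixed y).2 hall
  obtain ⟨x, hx⟩ := IntermediateField.mem_bot.1 hy
  refine ⟨j, x, hinj ?_⟩
  rw [map_mul, map_pow, map_pow, hx, ← hα, ← hγ, hydef, ← pow_mul, mul_comm p j, pow_mul,
    div_pow, mul_div_cancel₀]
  exact pow_ne_zero _ (pow_ne_zero _ hα0)

end Kummer

section Main

open Fermat.Agent.PT.Units

/-- an inert prime has a unique prime above it -/
theorem h41a_unique_of_isInert {p : ℕ} (hp : p.Prime) (K1 K2 : Type) [Field K1] [NumberField K1]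
    [Field K2] [NumberField K2] [Algebra K1 K2] [IsGalois K1 K2]
    (hdeg : Module.finrank K1 K2 = p) (w : HeightOneSpectrum (𝓞 K1))
    (hw : Cheb.IsInert K1 K2 w) (W W' : HeightOneSpectrum (𝓞 K2))
    (hW : W.under (𝓞 K1) = w) (hW' : W'.under (𝓞 K1) = w) : W = W' := by
  have := w.isMaximal
  have h := Ideal.ncard_primesOver_mul_ramificationIdxIn_mul_inertiaDegIn w.asIdeal (𝓞 K2)
    Gal(K2/K1)
  rw [IsGalois.card_aut_eq_finrank, hw.1, hw.2, one_mul, hdeg] at h
  have h1 : (w.asIdeal.primesOver (𝓞 K2)).ncard = 1 := by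
    have hp0 : 0 < p := hp.pos
    exact Nat.eq_of_mul_eq_mul_right hp0 (by rw [h, one_mul])
  obtain ⟨P, hP⟩ := Set.ncard_eq_one.1 h1
  have hmem : ∀ V : HeightOneSpectrum (𝓞 K2), V.under (𝓞 K1) = w → V.asIdeal = P := by
    intro V hV
    have : V.asIdeal ∈ w.asIdeal.primesOver (𝓞 K2) := by
      refine ⟨V.isPrime, ⟨?_⟩⟩
      rw [← hV]
      rfl
    rw [hP] at this
    exact this
  exact HeightOneSpectrum.ext ((hmem W hW).trans (hmem W' hW').symm)

/-- powers of elements close to one are close to one -/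
lemma h41a_pow_close {K : Type*} [Field K] {Γ : Type*} [LinearOrderedCommGroupWithZero Γ]
    (v : Valuation K Γ) {c : K} (h : v (c - 1) < 1) (k : ℕ) : v (c ^ k - 1) < 1 := by
  have hc1 : v c = 1 := h41a_val_eq_one_of_sub_lt v h
  induction k with
  | zero => simp
  | succ k ih =>
    have e : c ^ (k + 1) - 1 = c ^ k * (c - 1) + (c ^ k - 1) := by ring
    rw [e]
    refine Valuation.map_add_lt v ?_ ih
    rw [map_mul, map_pow, hc1, one_pow, one_mul]
    exact h

/-- The main step: the auxiliary prime, from a finite extension `K1 / L` in which `a` becomes a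
`p`-th power while `u` does not. -/
theorem h41a_main {p : ℕ} (hp : p.Prime) (L : Type) [Field L] [NumberField L]
    {ζ : L} (hζ : IsPrimitiveRoot ζ p)
    (K1 : Type) [Field K1] [NumberField K1] [Algebra L K1]
    (a u : Lˣ) (α : K1) (hα : α ^ p = algebraMap L K1 (a : L))
    (hu : ∀ γ : K1, γ ^ p ≠ algebraMap L K1 (u : L))
    (T₀ : Finset (HeightOneSpectrum (𝓞 L))) :
    ∃ v : HeightOneSpectrum (𝓞 L), v ∉ T₀ ∧ (p : 𝓞 L) ∉ v.asIdeal ∧
        v.valuation L (a : L) = 1 ∧ v.valuation L (u : L) = 1 ∧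
        (∃ x : Lˣ, v.valuation L ((a : L) / (x : L) ^ p - 1) < 1) ∧
        ¬ ∃ x : Lˣ, v.valuation L ((u : L) / (x : L) ^ p - 1) < 1 := by
  classical
  have H : Irreducible (X ^ p - C (algebraMap L K1 (u : L))) :=
    X_pow_sub_C_irreducible_of_prime hp hu
  have hinj : Function.Injective (algebraMap L K1) := (algebraMap L K1).injective
  have hζ1 : IsPrimitiveRoot (algebraMap L K1 ζ) p := hζ.map_of_injective hinj
  have hprim : (primitiveRoots p K1).Nonempty := ⟨_, (mem_primitiveRoots hp.pos).2 hζ1⟩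
  have : NeZero p := ⟨hp.ne_zero⟩
  let K2 := (X ^ p - C (algebraMap L K1 (u : L))).SplittingField
  have : NumberField K2 := NumberField.of_module_finite K1 K2
  have : IsGalois K1 K2 := isGalois_of_isSplittingField_X_pow_sub_C hprim H K2
  have : IsCyclic Gal(K2/K1) := isCyclic_of_isSplittingField_X_pow_sub_C hprim H K2
  have hdeg : Module.finrank K1 K2 = p := finrank_of_isSplittingField_X_pow_sub_C hprim H K2
  -- write `α = r / s`
  obtain ⟨r, s, hs, hrs⟩ := IsFractionRing.div_surjective (A := 𝓞 K1) α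
  have hs0 : s ≠ 0 := nonZeroDivisors.ne_zero hs
  -- the excluded sets
  have hfin1 : {v : HeightOneSpectrum (𝓞 L) | (p : 𝓞 L) ∈ v.asIdeal}.Finite :=
    h41a_finite_mem (p : 𝓞 L) (by exact_mod_cast hp.ne_zero)
  have hfin2 := h41a_finite_val_ne_one (a : L) a.ne_zero
  have hfin3 := h41a_finite_val_ne_one (u : L) u.ne_zero
  set TL : Set (HeightOneSpectrum (𝓞 L)) :=
    ((↑T₀ ∪ {v : HeightOneSpectrum (𝓞 L) | (p : 𝓞 L) ∈ v.asIdeal}) ∪
      {v : HeightOneSpectrum (𝓞 L) | v.valuation L (a : L) ≠ 1}) ∪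
      {v : HeightOneSpectrum (𝓞 L) | v.valuation L (u : L) ≠ 1} with hTL
  have hTLfin : TL.Finite := (((T₀.finite_toSet).union hfin1).union hfin2).union hfin3
  have hT1 : (SU_above L K1 TL).Finite := by
    have : Finite TL := hTLfin.to_subtype
    have : Finite (SU_above L K1 TL) := SU_finite_above (K := L) (L := K1) TL
    exact Set.toFinite _
  have hT2 := h41a_finite_mem s hs0
  obtain ⟨w, hwT, hwdeg, hwin⟩ := Cheb.exists_degOne_isInert K1 K2
    (SU_above L K1 TL ∪ {w : HeightOneSpectrum (𝓞 K1) | s ∈ w.asIdeal}) (hT1.union hT2)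
  have hwTL : w.under (𝓞 L) ∉ TL := fun h => hwT (Or.inl h)
  have hsw : s ∉ w.asIdeal := fun h => hwT (Or.inr h)
  set v : HeightOneSpectrum (𝓞 L) := w.under (𝓞 L) with hv
  have hv1 : v ∉ T₀ := fun h => hwTL (Or.inl (Or.inl (Or.inl h)))
  have hv2 : (p : 𝓞 L) ∉ v.asIdeal := fun h => hwTL (Or.inl (Or.inl (Or.inr h)))
  have hv3 : v.valuation L (a : L) = 1 := by
    by_contra h
    exact hwTL (Or.inl (Or.inr h))
  have hv4 : v.valuation L (u : L) = 1 := by
    by_contra h
    exact hwTL (Or.inr h)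
  refine ⟨v, hv1, hv2, hv3, hv4, ?_, ?_⟩
  · -- `a` is a `p`-th power modulo `v`
    have hwa : w.valuation K1 (algebraMap L K1 (a : L)) = 1 := h41a_val_up_eq_one w hv3
    have hwα : w.valuation K1 α = 1 := by
      rw [← hα, map_pow] at hwa
      exact (pow_eq_one_iff.1 hwa).resolve_right hp.ne_zero
    have hws : w.valuation K1 (algebraMap (𝓞 K1) K1 s) = 1 :=
      (HeightOneSpectrum.valuation_eq_one_iff_notMem w).2 hsw
    have hwr : w.valuation K1 (algebraMap (𝓞 K1) K1 r) = 1 := by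
      have h := hwα
      rw [← hrs, map_div₀, hws, div_one] at h
      exact h
    have hrw : r ∉ w.asIdeal := (HeightOneSpectrum.valuation_eq_one_iff_notMem w).1 hwr
    obtain ⟨nr, hnr⟩ := h41a_exists_int_sub_mem w hwdeg r
    obtain ⟨ns, hns⟩ := h41a_exists_int_sub_mem w hwdeg s
    have hnrw : ((nr : ℤ) : 𝓞 K1) ∉ w.asIdeal := by
      intro h
      apply hrw
      have := w.asIdeal.add_mem hnr h
      simpa using this
    have hnsw : ((ns : ℤ) : 𝓞 K1) ∉ w.asIdeal := by
      intro h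
      apply hsw
      have := w.asIdeal.add_mem hns h
      simpa using this
    have hnr0 : nr ≠ 0 := by
      rintro rfl
      exact hnrw (by simp)
    have hns0 : ns ≠ 0 := by
      rintro rfl
      exact hnsw (by simp)
    have hxL : ((nr : ℤ) : L) / ((ns : ℤ) : L) ≠ 0 :=
      div_ne_zero (by exact_mod_cast hnr0) (by exact_mod_cast hns0)
    refine ⟨Units.mk0 _ hxL, ?_⟩
    rw [Units.val_mk0]
    apply h41a_val_down_lt w
    have hφs : algebraMap (𝓞 K1) K1 s ≠ 0 := by
      intro h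
      rw [h, map_zero] at hws
      exact zero_ne_one hws
    have hnrK : ((nr : ℤ) : K1) ≠ 0 := by exact_mod_cast hnr0
    have hnsK : ((ns : ℤ) : K1) ≠ 0 := by exact_mod_cast hns0
    have e1 : algebraMap L K1 ((a : L) / (((nr : ℤ) : L) / ((ns : ℤ) : L)) ^ p - 1)
        = (α / (((nr : ℤ) : K1) / ((ns : ℤ) : K1))) ^ p - 1 := by
      rw [map_sub, map_div₀, map_pow, map_div₀, map_intCast, map_intCast, map_one, div_pow α, hα]
    rw [e1]
    apply h41a_pow_close
    have e2 : α / (((nr : ℤ) : K1) / ((ns : ℤ) : K1)) - 1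
        = algebraMap (𝓞 K1) K1 ((r - ((nr : ℤ) : 𝓞 K1)) * ((ns : ℤ) : 𝓞 K1)
            - (s - ((ns : ℤ) : 𝓞 K1)) * ((nr : ℤ) : 𝓞 K1))
          / (algebraMap (𝓞 K1) K1 s * algebraMap (𝓞 K1) K1 ((nr : ℤ) : 𝓞 K1)) := by
      rw [← hrs]
      simp only [map_sub, map_mul, map_intCast]
      field_simp
      ring
    rw [e2, map_div₀, map_mul, hws, (HeightOneSpectrum.valuation_eq_one_iff_notMem w).2 hnrw,
      mul_one, div_one, HeightOneSpectrum.valuation_of_algebraMap,
      HeightOneSpectrum.intValuation_lt_one_iff_mem]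
    exact w.asIdeal.sub_mem (w.asIdeal.mul_mem_right _ hnr) (w.asIdeal.mul_mem_right _ hns)
  · -- `u` is not a `p`-th power modulo `v`
    rintro ⟨x, hx⟩
    have hwp : (p : 𝓞 K1) ∉ w.asIdeal := by
      intro h
      apply hv2
      rw [hv, HeightOneSpectrum.under_asIdeal, Ideal.under_def, Ideal.mem_comap]
      simpa using h
    refine h41a_not_pow_of_unique_prime hp K1 hζ1 (algebraMap L K1 (u : L)) H K2 w hwp
      (fun W W' hW hW' => h41a_unique_of_isInert hp K1 K2 hdeg w hwin W W' hW hW') ?_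
    refine ⟨Units.map (algebraMap L K1 : L →* K1) x, ?_⟩
    have e : algebraMap L K1 (u : L) / ((Units.map (algebraMap L K1 : L →* K1) x : K1ˣ) : K1) ^ p - 1
        = algebraMap L K1 ((u : L) / (x : L) ^ p - 1) := by
      rw [map_sub, map_div₀, map_pow, map_one]
      rfl
    rw [e]
    exact h41a_val_up_lt w hx

/-- **SI-AUX**: the auxiliary prime (Kummer theory + weak Chebotarev for cyclic layers). -/
theorem h41a_auxPrime : IfaceAuxPrime := by
  intro p hp _ L _ _ hζ' a u hau T₀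
  obtain ⟨ζ, hζ⟩ := hζ'
  by_cases hpow : ∃ x₀ : L, x₀ ^ p = (a : L)
  · obtain ⟨x₀, hx₀⟩ := hpow
    refine h41a_main hp L hζ L a u x₀ (by rw [hx₀]; rfl) ?_ T₀
    intro γ hγ
    have hγ' : γ ^ p = (u : L) := hγ
    have hγ0 : γ ≠ 0 := by
      rintro rfl
      rw [zero_pow hp.ne_zero] at hγ'
      exact u.ne_zero hγ'.symm
    refine hau 0 (Units.mk0 γ hγ0) (Units.ext ?_)
    rw [pow_zero, one_mul, Units.val_pow_eq_pow_val, Units.val_mk0, hγ']
  · have hpow' : ∀ b : L, b ^ p ≠ (a : L) := fun b hb => hpow ⟨b, hb⟩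
    have H : Irreducible (X ^ p - C (a : L)) := X_pow_sub_C_irreducible_of_prime hp hpow'
    let K1 := (X ^ p - C (a : L)).SplittingField
    have : NumberField K1 := NumberField.of_module_finite L K1
    have : NeZero p := ⟨hp.ne_zero⟩
    refine h41a_main hp L hζ K1 a u (rootOfSplitsXPowSubC (NeZero.pos p) (a : L) K1)
      (rootOfSplitsXPowSubC_pow _ K1) ?_ T₀
    intro γ hγ
    obtain ⟨j, x, hx⟩ := h41a_kummer hp L hζ (a : L) a.ne_zero H K1 (u : L) γ hγ
    have hx0 : x ≠ 0 := by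
      rintro rfl
      rw [zero_pow hp.ne_zero, mul_zero] at hx
      exact u.ne_zero hx
    refine hau j (Units.mk0 x hx0) (Units.ext ?_)
    rw [Units.val_mul, Units.val_pow_eq_pow_val, Units.val_pow_eq_pow_val, Units.val_mk0, hx]

end Main

end Fermat.Agent.PT.Glob
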