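import Mathlib
import Fermat.Agent.PT.Glob.SI.Iface

/-!
# W3-PT / GLOB-SI leaf SI-LNUNR (helper59)

`IfaceLNUnr` (units are local norms at an unramified place of a Kummer layer) from the leaves
`IfaceNewton`, `IfaceLNSplit`, `IfaceRes`:

* if `a` is a `p`-th power modulo `v`, then `a` is a local `p`-th power (Newton) and every element
  is a local norm (LN-SPLIT);
* otherwise `a = N(α)` is a norm which is not a `p`-th power modulo `v`, so by (RES) every unit
  `u` at `v` is `≡ a ^ i * x ^ p = N(α ^ i * x)` modulo `v`, and the quotient is a local `p`-th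
  power (Newton), hence a local norm.
-/

set_option autoImplicit false

open NumberField IsDedekindDomain Polynomial IntermediateField

namespace Fermat.Agent.PT.Glob

noncomputable section

/-- `a` is not a `p`-th power in `L` if `α ^ p = a`, `α ∉ L` and `μ_p ⊆ L`. -/
lemma h59u_not_pow {p : ℕ} (hp : p.Prime) {L K : Type} [Field L] [Field K] [Algebra L K]
    {ζ : L} (hζ : IsPrimitiveRoot ζ p) {α : K} {a : L} (hα : α ^ p = algebraMap L K a)
    (hαL : ∀ x : L, algebraMap L K x ≠ α) (ha : a ≠ 0) : ∀ b : L, b ^ p ≠ a := by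
  intro b hb
  have hb0 : b ≠ 0 := by
    rintro rfl
    rw [zero_pow hp.ne_zero] at hb
    exact ha hb.symm
  have hζK : IsPrimitiveRoot (algebraMap L K ζ) p :=
    hζ.map_of_injective (algebraMap L K).injective
  have hbK : algebraMap L K b ≠ 0 := (_root_.map_ne_zero _).2 hb0
  have h1 : (α / algebraMap L K b) ^ p = 1 := by
    rw [div_pow, hα, ← map_pow, hb, div_self]
    exact (_root_.map_ne_zero _).2 ha
  have : NeZero p := ⟨hp.ne_zero⟩
  obtain ⟨i, -, hi⟩ := hζK.eq_pow_of_pow_eq_one h1
  apply hαL (ζ ^ i * b)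
  rw [map_mul, map_pow, hi, div_mul_cancel₀ _ hbK]

/-- The minimal polynomial of a Kummer generator. -/
lemma h59u_minpoly {p : ℕ} (hp : p.Prime) {L K : Type} [Field L] [Field K] [Algebra L K]
    {ζ : L} (hζ : IsPrimitiveRoot ζ p) {α : K} {a : L} (hα : α ^ p = algebraMap L K a)
    (hαL : ∀ x : L, algebraMap L K x ≠ α) (ha : a ≠ 0) :
    minpoly L α = X ^ p - C a := by
  symm
  refine minpoly.eq_of_irreducible_of_monic
    (X_pow_sub_C_irreducible_of_prime hp (h59u_not_pow hp hζ hα hαL ha)) ?_
    (monic_X_pow_sub_C a hp.ne_zero)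
  simp [hα]

/-- The norm of a Kummer generator (`p` odd). -/
lemma h59u_norm_gen {p : ℕ} (hp : p.Prime) (hp3 : 3 ≤ p) {L K : Type} [Field L] [Field K]
    [Algebra L K] [FiniteDimensional L K] (hdeg : Module.finrank L K = p)
    {ζ : L} (hζ : IsPrimitiveRoot ζ p) {α : K} {a : L} (hα : α ^ p = algebraMap L K a)
    (hαL : ∀ x : L, algebraMap L K x ≠ α) (ha : a ≠ 0) :
    Algebra.norm L α = a := by
  have hmin := h59u_minpoly hp hζ hα hαL ha
  have hint : IsIntegral L α := Algebra.IsIntegral.isIntegral α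
  have hnd : (minpoly L α).natDegree = p := by
    rw [hmin]; exact natDegree_X_pow_sub_C
  have hfr : Module.finrank L L⟮α⟯ = p := by
    rw [IntermediateField.adjoin.finrank hint, hnd]
  have hfr2 : Module.finrank L⟮α⟯ K = 1 := by
    have h := Module.finrank_mul_finrank L L⟮α⟯ K
    rw [hfr, hdeg] at h
    have hp0 : 0 < p := hp.pos
    exact Nat.eq_of_mul_eq_mul_left hp0 (by rw [h, mul_one])
  rw [Algebra.norm_eq_norm_adjoin L α, hfr2, pow_one]
  have hpb := Algebra.PowerBasis.norm_gen_eq_coeff_zero_minpoly (IntermediateField.adjoin.powerBasis hint)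
  rw [IntermediateField.adjoin.powerBasis_gen hint, IntermediateField.adjoin.powerBasis_dim hint,
    IntermediateField.minpoly_gen, hnd, hmin] at hpb
  rw [hpb]
  have hodd : Odd p := hp.odd_of_ne_two (by omega)
  rw [hodd.neg_one_pow]
  have h0p : ¬ (0 = p) := fun h => hp.ne_zero h.symm
  simp [h0p]

/-- **SI-LNUNR** from the leaves (NEWTON), (LN-SPLIT), (RES). -/
theorem h59u_lnUnr_of (hN : IfaceNewton) (hS : IfaceLNSplit) (hR : IfaceRes) : IfaceLNUnr := by
  intro p hp hp3 L K _ _ _ _ _ _ hdeg hζ v α a hα hαL hpv hav u huv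
  by_cases hA : ∃ x : Lˣ, v.valuation L ((a : L) / (x : L) ^ p - 1) < 1
  · -- `a` is a `p`-th power modulo `v`
    obtain ⟨x, hx⟩ := hA
    have h1 : a * (x ^ p)⁻¹ ∈ localPowSubgroup L p v := by
      refine hN p hp L v hpv _ ?_
      have : ((a * (x ^ p)⁻¹ : Lˣ) : L) = (a : L) / (x : L) ^ p := by
        rw [Units.val_mul, Units.val_inv_eq_inv_val, Units.val_pow_eq_pow_val, div_eq_mul_inv]
      rw [this]
      exact hx
    have h2 : a ∈ localPowSubgroup L p v := by
      have := (localPowSubgroup L p v).mul_mem h1 (pow_mem_localPowSubgroup p v x)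
      simpa using this
    have h3 := hS p hp hp3 L K hdeg hζ v α a hα hαL h2
    rw [h3]
    exact Subgroup.mem_top u
  · -- `a = N(α)` is not a `p`-th power modulo `v`
    obtain ⟨ζ, hζ'⟩ := hζ
    obtain ⟨i, x, hix⟩ := hR p hp L ⟨ζ, hζ'⟩ v hpv a u hav huv hA
    have hnorm : Algebra.norm L α = (a : L) :=
      h59u_norm_gen hp hp3 hdeg hζ' hα hαL a.ne_zero
    have hα0 : α ≠ 0 := by
      rintro rfl
      rw [zero_pow hp.ne_zero] at hα
      exact a.ne_zero ((map_eq_zero (algebraMap L K)).1 hα.symm)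
    -- the global norm `a ^ i * x ^ p`
    have hg : a ^ i * x ^ p ∈ globalNorms L K := by
      refine (globalNorms L K).mul_mem ((globalNorms L K).pow_mem ?_ i)
        (pow_mem_globalNorms L K hdeg x)
      rw [mem_globalNorms]
      exact ⟨Units.mk0 α hα0, hnorm⟩
    have hq : u * (a ^ i * x ^ p)⁻¹ ∈ localPowSubgroup L p v := by
      refine hN p hp L v hpv _ ?_
      have : ((u * (a ^ i * x ^ p)⁻¹ : Lˣ) : L) = (u : L) / ((a : L) ^ i * (x : L) ^ p) := by
        rw [Units.val_mul, Units.val_inv_eq_inv_val, Units.val_mul, Units.val_pow_eq_pow_val,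
          Units.val_pow_eq_pow_val, div_eq_mul_inv]
      rw [this]
      exact hix
    have h1 := (localNormSubgroup L K v).mul_mem
      (localPowSubgroup_le_localNormSubgroup L K hdeg v hq)
      (globalNorms_le_localNormSubgroup L K v hg)
    rwa [inv_mul_cancel_right] at h1

end

end Fermat.Agent.PT.Glob
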