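import Mathlib
import Fermat.Agent.PT.Glob.SI.Iface

/-!
# W3-PT / GLOB-SI, leaf SI-LNSPLIT (helper74)

`h74s_ifaceLNSplit : IfaceLNSplit` (Kummer form): if `K = L(α)`, `α ^ p = a` and `a` is a local
`p`-th power at `v`, then every element of `Lˣ` is a local norm from `K` at `v`.

Proof (no ramification theory): `N_{K/L}(x - γ) = x ^ p - c` for `γ ^ p = c`, `x ∈ L`
(`h74s_norm_sub_kummer`).  For a target `b` and a precision `n` choose `t'` small, `t = b t'`,
then `β₀` with `δ = a / β₀ ^ p - 1` much smaller; with `γ = α / β₀` the element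
`y = (1 + t - γ) / (1 + t' - γ)` has norm `((1+t)^p - 1 - δ) / ((1+t')^p - 1 - δ) = b (1 + ε)`.
-/

set_option autoImplicit false

open NumberField IsDedekindDomain Polynomial IntermediateField

namespace Fermat.Agent.PT.Glob

noncomputable section

/-! ## The norm of `x - γ` in a Kummer extension of prime degree -/

section NormKummer

variable {L K : Type} [Field L] [Field K] [Algebra L K] [FiniteDimensional L K]

omit [FiniteDimensional L K] in
theorem h74s_adjoin_eq_top {p : ℕ} (hp : p.Prime) (hdeg : Module.finrank L K = p) (g : K)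
    (hg : ∀ x : L, algebraMap L K x ≠ g) : L⟮g⟯ = ⊤ := by
  have hs : IsSimpleOrder (IntermediateField L K) :=
    IntermediateField.isSimpleOrder_of_finrank_prime L K (by rw [hdeg]; exact hp)
  rcases eq_bot_or_eq_top L⟮g⟯ with h | h
  · exfalso
    rw [IntermediateField.adjoin_simple_eq_bot_iff, IntermediateField.mem_bot] at h
    obtain ⟨x, hx⟩ := h
    exact hg x hx
  · exact h

theorem h74s_natDegree_minpoly {p : ℕ} (hp : p.Prime) (hdeg : Module.finrank L K = p) (g : K)
    (hg : ∀ x : L, algebraMap L K x ≠ g) : (minpoly L g).natDegree = p := by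
  have hint : IsIntegral L g := Algebra.IsIntegral.isIntegral g
  rw [← IntermediateField.adjoin.finrank hint, h74s_adjoin_eq_top hp hdeg g hg,
    IntermediateField.finrank_top', hdeg]

theorem h74s_minpoly_kummer {p : ℕ} (hp : p.Prime) (hdeg : Module.finrank L K = p) (γ : K)
    (c₀ : L) (hγ : γ ^ p = algebraMap L K c₀) (hγL : ∀ x : L, algebraMap L K x ≠ γ) :
    minpoly L γ = X ^ p - C c₀ := by
  have hdvd : minpoly L γ ∣ (X ^ p - C c₀ : L[X]) := by
    apply minpoly.dvd
    rw [map_sub, map_pow, aeval_X, aeval_C, hγ, sub_self]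
  have hint : IsIntegral L γ := Algebra.IsIntegral.isIntegral γ
  have h1 := Polynomial.eq_of_monic_of_dvd_of_natDegree_le (minpoly.monic hint)
    (Polynomial.monic_X_pow_sub_C c₀ hp.ne_zero) hdvd
    (by rw [Polynomial.natDegree_X_pow_sub_C, h74s_natDegree_minpoly hp hdeg γ hγL])
  exact h1.symm

/-- The norm of an element `g ∉ L` in an extension of prime degree `p`. -/
theorem h74s_norm_eq_coeff {p : ℕ} (hp : p.Prime) (hdeg : Module.finrank L K = p) (g : K)
    (hg : ∀ x : L, algebraMap L K x ≠ g) :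
    Algebra.norm L g = (-1) ^ p * (minpoly L g).coeff 0 := by
  have hint : IsIntegral L g := Algebra.IsIntegral.isIntegral g
  have hnd := h74s_natDegree_minpoly hp hdeg g hg
  have h1 : Module.finrank L⟮g⟯ K = 1 := by
    have h2 := Module.finrank_mul_finrank L L⟮g⟯ K
    rw [IntermediateField.adjoin.finrank hint, hnd, hdeg] at h2
    have hp0 : 0 < p := hp.pos
    exact Nat.eq_of_mul_eq_mul_left hp0 (by rw [h2, mul_one])
  rw [Algebra.norm_eq_norm_adjoin L g, h1, pow_one]
  have h3 := Algebra.PowerBasis.norm_gen_eq_coeff_zero_minpoly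
    (IntermediateField.adjoin.powerBasis hint)
  rw [IntermediateField.adjoin.powerBasis_gen, IntermediateField.adjoin.powerBasis_dim,
    IntermediateField.minpoly_gen, hnd] at h3
  exact h3

/-- `N_{K/L}(x - γ) = x ^ p - c₀` if `γ ^ p = c₀`, `γ ∉ L`, `[K : L] = p` prime. -/
theorem h74s_norm_sub_kummer {p : ℕ} (hp : p.Prime) (hdeg : Module.finrank L K = p) (γ : K)
    (c₀ : L) (hγ : γ ^ p = algebraMap L K c₀) (hγL : ∀ x : L, algebraMap L K x ≠ γ) (x : L) :
    Algebra.norm L (algebraMap L K x - γ) = x ^ p - c₀ := by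
  have hg : ∀ y : L, algebraMap L K y ≠ γ - algebraMap L K x := by
    intro y hy
    apply hγL (y + x)
    rw [map_add, hy]
    ring
  have h1 := h74s_norm_eq_coeff hp hdeg (γ - algebraMap L K x) hg
  rw [minpoly.sub_algebraMap, h74s_minpoly_kummer hp hdeg γ c₀ hγ hγL,
    Polynomial.coeff_zero_eq_eval_zero, Polynomial.eval_comp] at h1
  simp only [eval_add, eval_X, eval_C, zero_add, eval_sub, eval_pow] at h1
  have h2 : algebraMap L K x - γ = algebraMap L K (-1) * (γ - algebraMap L K x) := by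
    rw [map_neg, map_one]
    ring
  rw [h2, map_mul, Algebra.norm_algebraMap, hdeg, h1, ← mul_assoc, ← mul_pow]
  norm_num

end NormKummer

/-! ## The estimate -/

theorem h74s_binom {R : Type*} [CommRing R] (t : R) (k : ℕ) :
    ∃ r : R, (1 + t) ^ k = 1 + (k : R) * t + t ^ 2 * r := by
  induction k with
  | zero => exact ⟨0, by simp⟩
  | succ k ih =>
    obtain ⟨r, hr⟩ := ih
    refine ⟨(k : R) + r + r * t, ?_⟩
    rw [pow_succ, hr]
    push_cast
    ring

section Estimate

variable {L : Type} [Field L] [NumberField L] (v : HeightOneSpectrum (𝓞 L))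

theorem h74s_val_natCast_le_one (p : ℕ) : v.valuation L (p : L) ≤ 1 := by
  have h1 : (p : L) = algebraMap (𝓞 L) L (p : 𝓞 L) := (map_natCast _ p).symm
  rw [h1]
  exact v.valuation_le_one _

/-- The main estimate: `(1 + t) ^ p - (1 + δ) = t p u` with `u` close to `1`. -/
theorem h74s_estimate {p n : ℕ} (hpL : (p : L) ≠ 0) {t δ : L} (ht0 : t ≠ 0)
    (ht : v.valuation L t ≤ v.valuation L (p : L) * WithZero.exp (-((n : ℤ) + 1)))
    (hδ : v.valuation L δ ≤
      v.valuation L t * v.valuation L (p : L) * WithZero.exp (-((n : ℤ) + 1))) :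
    ∃ u : L, CloseOne L v n u ∧ (1 + t) ^ p - (1 + δ) = t * (p : L) * u := by
  have hwp0 : v.valuation L (p : L) ≠ 0 := (Valuation.ne_zero_iff _).2 hpL
  have hwt0 : v.valuation L t ≠ 0 := (Valuation.ne_zero_iff _).2 ht0
  have hwp1 : v.valuation L (p : L) ≤ 1 := h74s_val_natCast_le_one v p
  have he1 : (WithZero.exp (-((n : ℤ) + 1)) : WithZero (Multiplicative ℤ)) ≤ 1 :=
    (exp_neg_succ_lt_one n).le
  have ht1 : v.valuation L t ≤ 1 :=
    ht.trans (mul_le_one' hwp1 he1)
  obtain ⟨r, hr⟩ := h74s_binom (⟨t, ht1⟩ : (v.valuation L).integer) p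
  have hr' : (1 + t) ^ p = 1 + (p : L) * t + t ^ 2 * (r : L) := by
    have := congrArg (fun x : (v.valuation L).integer => (x : L)) hr
    simpa using this
  have hr1 : v.valuation L (r : L) ≤ 1 := r.2
  refine ⟨1 + (t * (r : L) / (p : L) - δ / (t * (p : L))), ?_, ?_⟩
  · unfold CloseOne
    rw [add_sub_cancel_left]
    refine (Valuation.map_sub _ _ _).trans (max_le ?_ ?_)
    · rw [map_div₀, map_mul, div_le_iff₀ (zero_lt_iff.2 hwp0)]
      calc v.valuation L t * v.valuation L (r : L)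
          ≤ v.valuation L t * 1 := mul_le_mul_right hr1 _
        _ = v.valuation L t := mul_one _
        _ ≤ v.valuation L (p : L) * WithZero.exp (-((n : ℤ) + 1)) := ht
        _ = WithZero.exp (-((n : ℤ) + 1)) * v.valuation L (p : L) := mul_comm _ _
    · rw [map_div₀, map_mul, div_le_iff₀ (zero_lt_iff.2 (mul_ne_zero hwt0 hwp0))]
      refine hδ.trans (le_of_eq ?_)
      rw [mul_comm]
  · rw [hr']
    field_simp
    ring

end Estimate

/-! ## The leaf -/

/-- **SI-LNSPLIT**. -/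
theorem h74s_ifaceLNSplit : IfaceLNSplit := by
  intro p hp _ L K _ _ _ _ _ _ hdeg _ v α a hα hαL ha
  rw [eq_top_iff]
  intro b _
  rw [mem_localNormSubgroup]
  intro n
  have hpL : (p : L) ≠ 0 := by exact_mod_cast hp.ne_zero
  have hwp0 : v.valuation L (p : L) ≠ 0 := (Valuation.ne_zero_iff _).2 hpL
  have hwb0 : v.valuation L (b : L) ≠ 0 := (Valuation.ne_zero_iff _).2 b.ne_zero
  obtain ⟨π, hπ⟩ := v.valuation_exists_uniformizer L
  have hπ0 : π ≠ 0 := by
    intro h
    rw [h, map_zero] at hπ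
    exact WithZero.exp_ne_zero.symm hπ
  have hx₀ : v.valuation L ((p : L) * π ^ (n + 1))
      = v.valuation L (p : L) * WithZero.exp (-((n : ℤ) + 1)) := by
    rw [map_mul, map_pow, hπ, ← WithZero.exp_nsmul]
    congr 2
    simp
  have hx₀0 : (p : L) * π ^ (n + 1) ≠ 0 := mul_ne_zero hpL (pow_ne_zero _ hπ0)
  -- the auxiliary small element `t'`
  obtain ⟨t', ht'0, ht', htb⟩ : ∃ t' : L, t' ≠ 0 ∧
      v.valuation L t' ≤ v.valuation L (p : L) * WithZero.exp (-((n : ℤ) + 1)) ∧
      v.valuation L ((b : L) * t') ≤ v.valuation L (p : L) * WithZero.exp (-((n : ℤ) + 1)) := by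
    rcases le_or_gt (v.valuation L (b : L)) 1 with hb1 | hb1
    · refine ⟨(p : L) * π ^ (n + 1), hx₀0, hx₀.le, ?_⟩
      rw [map_mul, hx₀]
      calc v.valuation L (b : L) * (v.valuation L (p : L) * WithZero.exp (-((n : ℤ) + 1)))
          ≤ 1 * (v.valuation L (p : L) * WithZero.exp (-((n : ℤ) + 1))) :=
            mul_le_mul_left hb1 _
        _ = _ := one_mul _
    · refine ⟨(p : L) * π ^ (n + 1) / (b : L), div_ne_zero hx₀0 b.ne_zero, ?_, ?_⟩
      · rw [map_div₀, hx₀, div_le_iff₀ (zero_lt_iff.2 hwb0)]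
        calc v.valuation L (p : L) * WithZero.exp (-((n : ℤ) + 1))
            = v.valuation L (p : L) * WithZero.exp (-((n : ℤ) + 1)) * 1 := (mul_one _).symm
          _ ≤ v.valuation L (p : L) * WithZero.exp (-((n : ℤ) + 1)) * v.valuation L (b : L) :=
            mul_le_mul_right hb1.le _
      · rw [mul_div_cancel₀ _ b.ne_zero, hx₀]
  have htb0 : (b : L) * t' ≠ 0 := mul_ne_zero b.ne_zero ht'0
  -- the approximation of `a` by a `p`-th power
  have hγ1 : v.valuation L ((b : L) * t') * v.valuation L (p : L)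
      * WithZero.exp (-((n : ℤ) + 1)) ≠ 0 :=
    mul_ne_zero (mul_ne_zero ((Valuation.ne_zero_iff _).2 htb0) hwp0) WithZero.exp_ne_zero
  have hγ2 : v.valuation L t' * v.valuation L (p : L)
      * WithZero.exp (-((n : ℤ) + 1)) ≠ 0 :=
    mul_ne_zero (mul_ne_zero ((Valuation.ne_zero_iff _).2 ht'0) hwp0) WithZero.exp_ne_zero
  obtain ⟨m, hm1, hm2⟩ := WithZero.exists_exp_neg_natCast_lt_and_lt hγ1 hγ2
  obtain ⟨β₀, hβ₀⟩ := (mem_localPowSubgroup.1 ha) m
  have hδm : v.valuation L ((a : L) / (β₀ : L) ^ p - 1) ≤ WithZero.exp (-(m : ℤ)) := by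
    refine hβ₀.trans ?_
    rw [WithZero.exp_le_exp]
    omega
  -- the new Kummer generator
  have hβ0 : (β₀ : L) ≠ 0 := β₀.ne_zero
  have hγp : (α * algebraMap L K ((β₀ : L)⁻¹)) ^ p
      = algebraMap L K ((a : L) / (β₀ : L) ^ p) := by
    rw [mul_pow, hα, ← map_pow, ← map_mul, inv_pow, div_eq_mul_inv]
  have hγL : ∀ x : L, algebraMap L K x ≠ α * algebraMap L K ((β₀ : L)⁻¹) := by
    intro x hx
    apply hαL (x * (β₀ : L))
    rw [map_mul, hx, mul_assoc, ← map_mul, inv_mul_cancel₀ hβ0, map_one, mul_one]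
  have hN := h74s_norm_sub_kummer hp hdeg _ _ hγp hγL
  have hc : (a : L) / (β₀ : L) ^ p = 1 + ((a : L) / (β₀ : L) ^ p - 1) := by ring
  obtain ⟨u₁, hu₁, hu₁'⟩ := h74s_estimate v (n := n) hpL htb0 htb (hδm.trans hm1.le)
  obtain ⟨u₂, hu₂, hu₂'⟩ := h74s_estimate v (n := n) hpL ht'0 ht' (hδm.trans hm2.le)
  have hN1 : Algebra.norm L (algebraMap L K (1 + (b : L) * t') - α * algebraMap L K ((β₀ : L)⁻¹))
      = (b : L) * t' * (p : L) * u₁ := by
    rw [hN, ← hu₁']
    ring
  have hN2 : Algebra.norm L (algebraMap L K (1 + t') - α * algebraMap L K ((β₀ : L)⁻¹))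
      = t' * (p : L) * u₂ := by
    rw [hN, ← hu₂']
    ring
  have hnum0 : algebraMap L K (1 + (b : L) * t') - α * algebraMap L K ((β₀ : L)⁻¹) ≠ 0 :=
    sub_ne_zero.2 (hγL _)
  have hden0 : algebraMap L K (1 + t') - α * algebraMap L K ((β₀ : L)⁻¹) ≠ 0 :=
    sub_ne_zero.2 (hγL _)
  have hNy : Algebra.norm L
      ((algebraMap L K (1 + (b : L) * t') - α * algebraMap L K ((β₀ : L)⁻¹)) /
        (algebraMap L K (1 + t') - α * algebraMap L K ((β₀ : L)⁻¹)))
      = (b : L) * t' * (p : L) * u₁ * (t' * (p : L) * u₂)⁻¹ := by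
    rw [div_eq_mul_inv, map_mul, Algebra.norm_inv, hN1, hN2]
  refine ⟨Units.mk0 _ (div_ne_zero hnum0 hden0), ?_⟩
  unfold NormApprox
  rw [Units.val_mk0, hNy]
  have hu₁0 : u₁ ≠ 0 := hu₁.ne_zero
  have hu₂0 : u₂ ≠ 0 := hu₂.ne_zero
  have e1 : (b : L) / ((b : L) * t' * (p : L) * u₁ * (t' * (p : L) * u₂)⁻¹) = u₂ * u₁⁻¹ := by
    have hb0 : (b : L) ≠ 0 := b.ne_zero
    field_simp
  rw [e1]
  exact hu₂.mul hu₁.inv

end

end Fermat.Agent.PT.Glob
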