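import Mathlib

/-!
# W3-PT / GLOB-SI, local inputs (helper74): the completion of a number field at a finite place

`L` a number field, `v` a finite place, `E = v.adicCompletion L`, `𝒪[E]` its valuation ring
(for the `ℤᵐ⁰`-valued valuation of Mathlib).  We prove

* `h74s_valued_algebraMap` : the valuation of `E` restricts to `v.valuation L`;
* `h74s_exists_approx` : `L` is dense in `E` (valuation form);
* `h74s_isDiscreteValuationRing`, `h74s_finite_residueField`, `h74s_card_residueField_le`,
  `h74s_compactSpace_integer`, `h74s_isAdicComplete`: `𝒪[E]` is a complete discrete valuation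
  ring with finite residue field (a quotient of `𝓞 L ⧸ v`), compact and adically complete.
-/

set_option autoImplicit false

open NumberField IsDedekindDomain IsLocalRing

open scoped Valued

namespace Fermat.Agent.PT.Glob

noncomputable section

variable (L : Type) [Field L] [NumberField L] (v : HeightOneSpectrum (𝓞 L))

theorem h74s_valued_algebraMap (k : L) :
    Valued.v (algebraMap L (v.adicCompletion L) k) = v.valuation L k :=
  HeightOneSpectrum.valuedAdicCompletion_eq_valuation' v k

/-- Density of `L` in the completion, in valuation form. -/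
theorem h74s_exists_approx (z w : v.adicCompletion L) (hw : w ≠ 0) :
    ∃ k : L, Valued.v (z - algebraMap L (v.adicCompletion L) k) < Valued.v w := by
  have hpos : 0 < ‖w‖ := norm_pos_iff.2 hw
  obtain ⟨k, hk⟩ := (HeightOneSpectrum.denseRange_algebraMap L v).exists_dist_lt z hpos
  refine ⟨k, ?_⟩
  rw [dist_eq_norm] at hk
  exact Valued.toNormedField.norm_lt_iff.1 hk

theorem h74s_isDiscreteValuationRing : IsDiscreteValuationRing 𝒪[v.adicCompletion L] :=
  inferInstanceAs (IsDiscreteValuationRing (v.adicCompletionIntegers L))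

theorem h74s_completeSpace_integer : CompleteSpace 𝒪[v.adicCompletion L] :=
  (Valued.isClosed_integer (v.adicCompletion L)).completeSpace_coe

/-- The structure map `𝓞 L → 𝒪[E]`. -/
def h74s_toO : 𝓞 L →+* 𝒪[v.adicCompletion L] :=
  algebraMap (𝓞 L) (v.adicCompletionIntegers L)

theorem h74s_toO_coe (a : 𝓞 L) :
    ((h74s_toO L v a : 𝒪[v.adicCompletion L]) : v.adicCompletion L)
      = algebraMap L (v.adicCompletion L) (algebraMap (𝓞 L) L a) :=
  HeightOneSpectrum.algebraMap_adicCompletionIntegers_apply (𝓞 L) L v a

theorem h74s_mem_maximalIdeal (x : 𝒪[v.adicCompletion L]) :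
    x ∈ maximalIdeal 𝒪[v.adicCompletion L] ↔ Valued.v (x : v.adicCompletion L) < 1 := by
  rw [IsLocalRing.mem_maximalIdeal, mem_nonunits_iff]
  have h1 : IsUnit x ↔ Valued.v (x : v.adicCompletion L) = 1 :=
    HeightOneSpectrum.adicCompletionIntegers.isUnit_iff_valued_eq_one
      (a := (x : v.adicCompletionIntegers L))
  rw [h1]
  have h2 : Valued.v (x : v.adicCompletion L) ≤ 1 := x.2
  constructor
  · intro h
    exact lt_of_le_of_ne h2 h
  · intro h
    exact h.ne

/-- Every element of `𝒪[E]` is congruent to an element of `𝓞 L` modulo the maximal ideal. -/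
theorem h74s_exists_int_approx (x : 𝒪[v.adicCompletion L]) :
    ∃ a : 𝓞 L, x - h74s_toO L v a ∈ maximalIdeal 𝒪[v.adicCompletion L] := by
  obtain ⟨k, hk⟩ := h74s_exists_approx L v (x : v.adicCompletion L) 1 one_ne_zero
  rw [map_one] at hk
  have hx1 : Valued.v (x : v.adicCompletion L) ≤ 1 := x.2
  have hk1 : v.valuation L k ≤ 1 := by
    rw [← h74s_valued_algebraMap]
    have e1 : algebraMap L (v.adicCompletion L) k
        = (x : v.adicCompletion L) - ((x : v.adicCompletion L)
          - algebraMap L (v.adicCompletion L) k) := by ring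
    rw [e1]
    exact (Valuation.map_sub _ _ _).trans (max_le hx1 hk.le)
  obtain ⟨a, ha⟩ := v.exists_valuation_sub_lt_of_integer hk1 1
  refine ⟨a, ?_⟩
  rw [h74s_mem_maximalIdeal]
  have e2 : ((x - h74s_toO L v a : 𝒪[v.adicCompletion L]) : v.adicCompletion L)
      = ((x : v.adicCompletion L) - algebraMap L (v.adicCompletion L) k)
        - algebraMap L (v.adicCompletion L) (algebraMap (𝓞 L) L a - k) := by
    rw [map_sub, ← h74s_toO_coe]
    push_cast
    ring
  rw [e2]
  refine lt_of_le_of_lt (Valuation.map_sub _ _ _) (max_lt hk ?_)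
  rw [h74s_valued_algebraMap]
  simpa using ha

/-- The residue map restricted to `𝓞 L`. -/
def h74s_resMap : 𝓞 L ⧸ v.asIdeal →+* ResidueField 𝒪[v.adicCompletion L] :=
  Ideal.Quotient.lift v.asIdeal ((IsLocalRing.residue 𝒪[v.adicCompletion L]).comp (h74s_toO L v))
    (by
      intro a ha
      rw [RingHom.comp_apply, IsLocalRing.residue_eq_zero_iff, h74s_mem_maximalIdeal,
        h74s_toO_coe, h74s_valued_algebraMap]
      exact (v.valuation_lt_one_iff_mem a).2 ha)

theorem h74s_resMap_surjective : Function.Surjective (h74s_resMap L v) := by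
  intro y
  obtain ⟨x, rfl⟩ := IsLocalRing.residue_surjective y
  obtain ⟨a, ha⟩ := h74s_exists_int_approx L v x
  refine ⟨Ideal.Quotient.mk _ a, ?_⟩
  unfold h74s_resMap
  rw [Ideal.Quotient.lift_mk, RingHom.comp_apply]
  symm
  rw [← sub_eq_zero, ← map_sub, IsLocalRing.residue_eq_zero_iff]
  exact ha

theorem h74s_finite_residueField : Finite (ResidueField 𝒪[v.adicCompletion L]) :=
  Finite.of_surjective _ (h74s_resMap_surjective L v)

theorem h74s_card_residueField_le :
    Nat.card (ResidueField 𝒪[v.adicCompletion L]) ≤ Nat.card (𝓞 L ⧸ v.asIdeal) :=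
  Nat.card_le_card_of_surjective _ (h74s_resMap_surjective L v)

theorem h74s_compactSpace_integer : CompactSpace 𝒪[v.adicCompletion L] :=
  Valued.integer.compactSpace_iff_completeSpace_and_isDiscreteValuationRing_and_finite_residueField.2
    ⟨h74s_completeSpace_integer L v, h74s_isDiscreteValuationRing L v,
      h74s_finite_residueField L v⟩

open scoped Pointwise in
theorem h74s_isAdicComplete :
    IsAdicComplete (maximalIdeal 𝒪[v.adicCompletion L]) 𝒪[v.adicCompletion L] := by
  have hD := h74s_isDiscreteValuationRing L v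
  have hC := h74s_compactSpace_integer L v
  exact
  { haus' := by
      intro x hx
      have hH : IsHausdorff (maximalIdeal 𝒪[v.adicCompletion L]) 𝒪[v.adicCompletion L] :=
        inferInstance
      exact hH.haus' x hx
    prec' := fun f hf => by
      let S : ℕ → Set 𝒪[v.adicCompletion L] := fun n =>
        f n +ᵥ ((maximalIdeal 𝒪[v.adicCompletion L] ^ n : Ideal 𝒪[v.adicCompletion L]) :
          Set 𝒪[v.adicCompletion L])
      have hS : ∀ n, S (n + 1) ⊆ S n := by
        intro n
        apply (Set.vadd_set_subset_vadd_set_iff.mpr (Ideal.pow_le_pow_right n.le_succ)).trans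
        simpa [S] using (hf n.le_succ).symm
      have h : ∀ n, IsClosed (S n) := fun n =>
        (IsNoetherianRing.isClosed_ideal (maximalIdeal 𝒪[v.adicCompletion L] ^ n)).vadd (f n)
      obtain ⟨x, hx⟩ :=
        (h 0).isCompact.nonempty_iInter_of_sequence_nonempty_isCompact_isClosed S hS
          (by simp [S]) h
      refine ⟨x, fun n ↦ ?_⟩
      obtain ⟨y, hy, rfl⟩ := Set.mem_iInter.mp hx n
      simpa [SModEq.sub_mem] using hy }

end

end Fermat.Agent.PT.Glob
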