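import Mathlib
import Fermat.Agent.PT.Glob.Core

/-!
# W3-PT / GLOB-SI, local inputs (helper74): the `v`-adic closure of the `p`-th powers

`L` a number field, `v` a finite place, `p : ℕ`.

* `h74s_IsLocalPowAt L p v b` : `b ∈ Lˣ` is `v`-adically approximable by `p`-th powers of `Lˣ`;
* `h74s_localPowSubgroup L p v : Subgroup Lˣ`;
* `h74s_localPow_le_localNorm` (LP-LE): if `[K : L] = p` then local `p`-th powers are local
  norms from `K`.
-/

set_option autoImplicit false

open NumberField IsDedekindDomain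

namespace Fermat.Agent.PT.Glob

noncomputable section

variable (L : Type) [Field L] [NumberField L]

/-- `b` is `v`-adically close to `y ^ p`, at precision `n + 1`. -/
def h74s_PowApprox (p : ℕ) (v : HeightOneSpectrum (𝓞 L)) (n : ℕ) (b y : Lˣ) : Prop :=
  v.valuation L ((b : L) / (y : L) ^ p - 1) ≤ WithZero.exp (-((n : ℤ) + 1))

/-- `b ∈ Lˣ` is a local `p`-th power at the finite place `v` of `L`. -/
def h74s_IsLocalPowAt (p : ℕ) (v : HeightOneSpectrum (𝓞 L)) (b : Lˣ) : Prop :=
  ∀ n : ℕ, ∃ y : Lˣ, h74s_PowApprox L p v n b y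

variable {L} in
theorem h74s_powApprox_iff_normApprox (p : ℕ) (v : HeightOneSpectrum (𝓞 L)) (n : ℕ)
    (b y : Lˣ) : h74s_PowApprox L p v n b y ↔ NormApprox L L v n b (y ^ p) := by
  unfold h74s_PowApprox NormApprox
  rw [Algebra.norm_self, MonoidHom.id_apply, Units.val_pow_eq_pow_val]

/-- The subgroup of `Lˣ` of local `p`-th powers at `v`. -/
def h74s_localPowSubgroup (p : ℕ) (v : HeightOneSpectrum (𝓞 L)) : Subgroup Lˣ where
  carrier := {b | h74s_IsLocalPowAt L p v b}
  one_mem' := fun n => ⟨1, by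
    rw [h74s_powApprox_iff_normApprox, one_pow]
    exact normApprox_one v n⟩
  mul_mem' := fun {b b'} hb hb' n => by
    obtain ⟨y, hy⟩ := hb n
    obtain ⟨y', hy'⟩ := hb' n
    refine ⟨y * y', ?_⟩
    rw [h74s_powApprox_iff_normApprox] at hy hy' ⊢
    rw [mul_pow]
    exact hy.mul hy'
  inv_mem' := fun {b} hb n => by
    obtain ⟨y, hy⟩ := hb n
    refine ⟨y⁻¹, ?_⟩
    rw [h74s_powApprox_iff_normApprox] at hy ⊢
    rw [inv_pow]
    exact hy.inv

variable {L} in
@[simp] theorem h74s_mem_localPowSubgroup {p : ℕ} {v : HeightOneSpectrum (𝓞 L)} {b : Lˣ} :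
    b ∈ h74s_localPowSubgroup L p v ↔ h74s_IsLocalPowAt L p v b := Iff.rfl

variable {L} in
/-- Global `p`-th powers are local `p`-th powers. -/
theorem h74s_pow_mem_localPowSubgroup (p : ℕ) (v : HeightOneSpectrum (𝓞 L)) (y : Lˣ) :
    y ^ p ∈ h74s_localPowSubgroup L p v := by
  intro n
  refine ⟨y, ?_⟩
  unfold h74s_PowApprox
  rw [Units.val_pow_eq_pow_val, div_self (pow_ne_zero p y.ne_zero), sub_self, map_zero]
  exact zero_le

/-- (LP-LE) local `p`-th powers are local norms from an extension of degree `p`. -/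
theorem h74s_localPow_le_localNorm (K : Type) [Field K] [NumberField K] [Algebra L K]
    (p : ℕ) (hdeg : Module.finrank L K = p) (v : HeightOneSpectrum (𝓞 L)) :
    h74s_localPowSubgroup L p v ≤ localNormSubgroup L K v := by
  intro b hb n
  obtain ⟨y, hy⟩ := hb n
  refine ⟨Units.map (algebraMap L K : L →* K) y, ?_⟩
  unfold NormApprox
  unfold h74s_PowApprox at hy
  have h1 : Algebra.norm L ((Units.map (algebraMap L K : L →* K) y : Kˣ) : K) = (y : L) ^ p := by
    rw [Units.coe_map]
    change Algebra.norm L (algebraMap L K (y : L)) = _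
    rw [Algebra.norm_algebraMap, hdeg]
  rw [h1]
  exact hy

end

end Fermat.Agent.PT.Glob
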