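import Mathlib
import Fermat.Agent.PT.Loc.LFLocal
import Fermat.Agent.PT.Glob.SI.H74LocPow
import Fermat.Agent.PT.Glob.SI.H74LocField

/-!
# W3-PT / GLOB-SI, local inputs (helper74): the index of the local `p`-th powers (LP-IDX)

`L` a number field, `v` a finite place, `p` a prime.  Then

`h74s_index_localPow` : there is `e` with `v ^ e ∣ (p)` such that the subgroup of local `p`-th
powers at `v` has finite index `≤ p ^ 2 * #(𝓞 L ⧸ v ^ e)` in `Lˣ`.

Proof: the index of `(Eˣ) ^ p` in `Eˣ`, `E = v.adicCompletion L`, is `p * #(𝒪/𝔪^e) * #μ_p(E)`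
(helper34, `h34lf_index_pow_field`), `L` is dense in `E`, `𝒪/𝔪` is a quotient of `𝓞 L ⧸ v`.
-/

set_option autoImplicit false

open NumberField IsDedekindDomain IsLocalRing

open scoped Valued

namespace Fermat.Agent.PT.Glob

open Fermat.Agent.PT.Loc

noncomputable section

variable (L : Type) [Field L] [NumberField L] (v : HeightOneSpectrum (𝓞 L))

/-- The embedding `Lˣ → Eˣ`. -/
def h74s_unitsMap : Lˣ →* (v.adicCompletion L)ˣ :=
  Units.map (algebraMap L (v.adicCompletion L) : L →* v.adicCompletion L)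

@[simp] theorem h74s_unitsMap_coe (b : Lˣ) :
    ((h74s_unitsMap L v b : (v.adicCompletion L)ˣ) : v.adicCompletion L)
      = algebraMap L (v.adicCompletion L) (b : L) := rfl

/-- `‖t ^ p - 1‖ ≤ ‖t - 1‖` for a unit `t` of the valuation ring. -/
theorem h74s_valued_pow_sub_one_le {t : v.adicCompletion L} (ht : Valued.v t ≤ 1) (p : ℕ) :
    Valued.v (t ^ p - 1) ≤ Valued.v (t - 1) := by
  obtain ⟨c, hc⟩ := sub_dvd_pow_sub_pow (⟨t, ht⟩ : 𝒪[v.adicCompletion L]) 1 p
  have h1 : t ^ p - 1 = (t - 1) * (c : v.adicCompletion L) := by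
    have := congrArg (fun x : 𝒪[v.adicCompletion L] => (x : v.adicCompletion L)) hc
    simpa using this
  rw [h1, map_mul]
  calc Valued.v (t - 1) * Valued.v (c : v.adicCompletion L)
      ≤ Valued.v (t - 1) * 1 := mul_le_mul_right (show Valued.v (c : v.adicCompletion L) ≤ 1 from c.2) _
    _ = Valued.v (t - 1) := mul_one _

/-- An element of `Lˣ` which is a `p`-th power in the completion is a local `p`-th power. -/
theorem h74s_comap_le (p : ℕ) :
    (powMonoidHom p : (v.adicCompletion L)ˣ →* (v.adicCompletion L)ˣ).range.comap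
      (h74s_unitsMap L v) ≤ h74s_localPowSubgroup L p v := by
  intro b hb n
  rw [Subgroup.mem_comap, MonoidHom.mem_range] at hb
  obtain ⟨z, hz⟩ := hb
  have hz' : (z : v.adicCompletion L) ^ p = algebraMap L (v.adicCompletion L) (b : L) := by
    have := congrArg (fun u : (v.adicCompletion L)ˣ => (u : v.adicCompletion L)) hz
    simpa using this
  obtain ⟨π, hπ⟩ := v.valuation_exists_uniformizer L
  have hπ0 : π ≠ 0 := by
    intro h
    rw [h, map_zero] at hπ
    exact WithZero.exp_ne_zero.symm hπ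
  have hw0 : (z : v.adicCompletion L) * algebraMap L (v.adicCompletion L) (π ^ (n + 1)) ≠ 0 :=
    mul_ne_zero z.ne_zero ((map_ne_zero _).2 (pow_ne_zero _ hπ0))
  obtain ⟨k, hk⟩ := h74s_exists_approx L v (z : v.adicCompletion L) _ hw0
  rw [map_mul, h74s_valued_algebraMap, map_pow, hπ] at hk
  have hlt1 : (WithZero.exp (-1 : ℤ)) ^ (n + 1) ≤ (1 : WithZero (Multiplicative ℤ)) :=
    pow_le_one₀ zero_le (by
      rw [← WithZero.exp_zero, WithZero.exp_le_exp]
      omega)
  have hzpos : (0 : WithZero (Multiplicative ℤ)) < Valued.v (z : v.adicCompletion L) :=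
    (Valuation.pos_iff _).2 z.ne_zero
  have hk' : Valued.v ((z : v.adicCompletion L) - algebraMap L (v.adicCompletion L) k)
      < Valued.v (z : v.adicCompletion L) :=
    lt_of_lt_of_le hk (by
      calc Valued.v (z : v.adicCompletion L) * (WithZero.exp (-1 : ℤ)) ^ (n + 1)
          ≤ Valued.v (z : v.adicCompletion L) * 1 := mul_le_mul_right hlt1 _
        _ = Valued.v (z : v.adicCompletion L) := mul_one _)
  have hvk : Valued.v (algebraMap L (v.adicCompletion L) k)
      = Valued.v (z : v.adicCompletion L) := by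
    have e1 : algebraMap L (v.adicCompletion L) k = (z : v.adicCompletion L)
        - ((z : v.adicCompletion L) - algebraMap L (v.adicCompletion L) k) := by ring
    rw [e1]
    exact Valuation.map_sub_eq_of_lt_left _ hk'
  have hkE0 : algebraMap L (v.adicCompletion L) k ≠ 0 := by
    intro h
    rw [h, map_zero] at hvk
    exact hzpos.ne hvk
  have hk0 : k ≠ 0 := by
    intro h
    exact hkE0 (by rw [h, map_zero])
  refine ⟨Units.mk0 k hk0, ?_⟩
  unfold h74s_PowApprox
  rw [← h74s_valued_algebraMap, Units.val_mk0]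
  -- `t = z / k`
  set t : v.adicCompletion L :=
    (z : v.adicCompletion L) * (algebraMap L (v.adicCompletion L) k)⁻¹ with ht
  have hvt : Valued.v t = 1 := by
    rw [ht, map_mul, map_inv₀, hvk]
    exact mul_inv_cancel₀ hzpos.ne'
  have hvt1 : Valued.v (t - 1) ≤ WithZero.exp (-((n : ℤ) + 1)) := by
    have e2 : t - 1 = ((z : v.adicCompletion L) - algebraMap L (v.adicCompletion L) k)
        * (algebraMap L (v.adicCompletion L) k)⁻¹ := by
      rw [ht, sub_mul, mul_inv_cancel₀ hkE0]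
    rw [e2, map_mul, map_inv₀, hvk]
    have h3 : Valued.v ((z : v.adicCompletion L) - algebraMap L (v.adicCompletion L) k)
        * (Valued.v (z : v.adicCompletion L))⁻¹
        ≤ (Valued.v (z : v.adicCompletion L) * (WithZero.exp (-1 : ℤ)) ^ (n + 1))
          * (Valued.v (z : v.adicCompletion L))⁻¹ :=
      mul_le_mul_left hk.le _
    refine h3.trans (le_of_eq ?_)
    rw [mul_comm (Valued.v (z : v.adicCompletion L)), mul_assoc, mul_inv_cancel₀ hzpos.ne',
      mul_one, ← WithZero.exp_nsmul]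
    congr 1
    simp
  have e3 : algebraMap L (v.adicCompletion L) ((b : L) / k ^ p - 1) = t ^ p - 1 := by
    rw [map_sub, map_one, map_div₀, map_pow, ← hz', ht, mul_pow, inv_pow, div_eq_mul_inv]
  rw [e3]
  exact (h74s_valued_pow_sub_one_le L v hvt.le p).trans hvt1

/-- Elements of `𝔪 ^ e` have valuation `≤ exp (-e)`. -/
theorem h74s_valued_le_of_mem_pow {e : ℕ} {x : 𝒪[v.adicCompletion L]}
    (hx : x ∈ maximalIdeal 𝒪[v.adicCompletion L] ^ e) :
    Valued.v (x : v.adicCompletion L) ≤ WithZero.exp (-(e : ℤ)) := by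
  have hD := h74s_isDiscreteValuationRing L v
  obtain ⟨ϖ, hϖ⟩ := IsDiscreteValuationRing.exists_irreducible 𝒪[v.adicCompletion L]
  have hϖm : ϖ ∈ maximalIdeal 𝒪[v.adicCompletion L] := by
    rw [hϖ.maximalIdeal_eq]
    exact Ideal.mem_span_singleton_self ϖ
  have hϖ1 : Valued.v (ϖ : v.adicCompletion L) ≤ WithZero.exp (-1 : ℤ) := by
    have h1 := (h74s_mem_maximalIdeal L v ϖ).1 hϖm
    have h2 := (WithZero.lt_mul_exp_iff_le (x := Valued.v (ϖ : v.adicCompletion L))
      (y := WithZero.exp (-1 : ℤ)) WithZero.exp_ne_zero).1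
    apply h2
    rw [← WithZero.exp_add]
    simpa using h1
  rw [hϖ.maximalIdeal_eq, Ideal.span_singleton_pow, Ideal.mem_span_singleton'] at hx
  obtain ⟨y, rfl⟩ := hx
  have e1 : ((y * ϖ ^ e : 𝒪[v.adicCompletion L]) : v.adicCompletion L)
      = (y : v.adicCompletion L) * (ϖ : v.adicCompletion L) ^ e := by
    push_cast
    rfl
  rw [e1, map_mul, map_pow]
  calc Valued.v (y : v.adicCompletion L) * Valued.v (ϖ : v.adicCompletion L) ^ e
      ≤ 1 * (WithZero.exp (-1 : ℤ)) ^ e :=
        mul_le_mul' (show Valued.v (y : v.adicCompletion L) ≤ 1 from y.2)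
          (pow_le_pow_left₀ zero_le hϖ1 e)
    _ = WithZero.exp (-(e : ℤ)) := by
        rw [one_mul, ← WithZero.exp_nsmul]
        congr 1
        simp

/-- **LP-IDX**: the local `p`-th powers have finite index `≤ p ^ 2 * #(𝓞 L ⧸ v ^ e)`. -/
theorem h74s_index_localPow (p : ℕ) [Fact p.Prime] :
    ∃ e : ℕ, v.asIdeal ^ e ∣ Ideal.span {((p : ℕ) : 𝓞 L)} ∧
      (h74s_localPowSubgroup L p v).index ≠ 0 ∧
      (h74s_localPowSubgroup L p v).index ≤ p ^ 2 * Nat.card (𝓞 L ⧸ v.asIdeal ^ e) := by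
  have hD := h74s_isDiscreteValuationRing L v
  have hF := h74s_finite_residueField L v
  have hA := h74s_isAdicComplete L v
  have hp : p.Prime := Fact.out
  have hpE : ((p : ℕ) : v.adicCompletion L) ≠ 0 := by
    have h1 : ((p : ℕ) : v.adicCompletion L) = algebraMap L (v.adicCompletion L) (p : L) :=
      (map_natCast _ p).symm
    rw [h1]
    exact (map_ne_zero _).2 (by exact_mod_cast hp.ne_zero)
  have hp0 : ((p : ℕ) : 𝒪[v.adicCompletion L]) ≠ 0 := by
    intro h
    apply hpE
    have := congrArg (fun x : 𝒪[v.adicCompletion L] => (x : v.adicCompletion L)) h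
    simpa using this
  obtain ⟨e, he⟩ := h34lf_exists_span_eq_pow hp0
  refine ⟨e, ?_, ?_⟩
  · -- `v ^ e ∣ (p)`
    rw [← v.intValuation_le_pow_iff_dvd, ← v.valuation_of_algebraMap (K := L),
      ← h74s_valued_algebraMap]
    have h1 : ((p : ℕ) : 𝒪[v.adicCompletion L]) ∈ maximalIdeal 𝒪[v.adicCompletion L] ^ e := by
      rw [← he]
      exact Ideal.mem_span_singleton_self _
    have h2 := h74s_valued_le_of_mem_pow L v h1
    have h3 : algebraMap L (v.adicCompletion L) (algebraMap (𝓞 L) L ((p : ℕ) : 𝓞 L))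
        = ((((p : ℕ) : 𝒪[v.adicCompletion L])) : v.adicCompletion L) := by
      rw [map_natCast, map_natCast]
      rfl
    rw [h3]
    exact h2
  · have hidx := h34lf_index_pow_field (O := 𝒪[v.adicCompletion L]) (E := v.adicCompletion L) he
    have hidx0 := h34lf_index_pow_field_ne_zero (O := 𝒪[v.adicCompletion L])
      (E := v.adicCompletion L) he
    have hdvd1 : (h74s_localPowSubgroup L p v).index ∣
        ((powMonoidHom p : (v.adicCompletion L)ˣ →* (v.adicCompletion L)ˣ).range.comap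
          (h74s_unitsMap L v)).index :=
      Subgroup.index_dvd_of_le (h74s_comap_le L v p)
    have hdvd2 : ((powMonoidHom p : (v.adicCompletion L)ˣ →* (v.adicCompletion L)ˣ).range.comap
          (h74s_unitsMap L v)).index ∣
        (powMonoidHom p : (v.adicCompletion L)ˣ →* (v.adicCompletion L)ˣ).range.index := by
      rw [Subgroup.index_comap]
      exact Subgroup.relIndex_dvd_index_of_normal _ _
    have hdvd := hdvd1.trans hdvd2
    refine ⟨fun h0 => hidx0 (by rw [h0] at hdvd; exact zero_dvd_iff.1 hdvd), ?_⟩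
    refine (Nat.le_of_dvd (Nat.pos_of_ne_zero hidx0) hdvd).trans ?_
    rw [hidx]
    -- the kernel
    have hker : Nat.card (powMonoidHom p : (v.adicCompletion L)ˣ →* (v.adicCompletion L)ˣ).ker
        ≤ p := by
      have hne : NeZero p := ⟨hp.ne_zero⟩
      have h1 := card_rootsOfUnity (v.adicCompletion L) p
      have h2 : (powMonoidHom p : (v.adicCompletion L)ˣ →* (v.adicCompletion L)ˣ).ker
          = rootsOfUnity p (v.adicCompletion L) := by
        ext u
        rw [MonoidHom.mem_ker, mem_rootsOfUnity]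
        rfl
      rw [h2]
      exact h1
    -- the quotient
    have hquot : Nat.card (𝒪[v.adicCompletion L] ⧸ maximalIdeal 𝒪[v.adicCompletion L] ^ e)
        ≤ Nat.card (𝓞 L ⧸ v.asIdeal ^ e) := by
      have h1 := cardQuot_pow_of_prime (P := maximalIdeal 𝒪[v.adicCompletion L])
        (IsDiscreteValuationRing.not_a_field 𝒪[v.adicCompletion L]) (i := e)
      have h2 := cardQuot_pow_of_prime (P := v.asIdeal) v.ne_bot (i := e)
      rw [Submodule.cardQuot_apply, Submodule.cardQuot_apply] at h1 h2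
      rw [h1, h2]
      exact Nat.pow_le_pow_left (h74s_card_residueField_le L v) e
    calc p * (Nat.card (𝒪[v.adicCompletion L] ⧸ maximalIdeal 𝒪[v.adicCompletion L] ^ e) *
          Nat.card (powMonoidHom p : (v.adicCompletion L)ˣ →* (v.adicCompletion L)ˣ).ker)
        ≤ p * (Nat.card (𝓞 L ⧸ v.asIdeal ^ e) * p) :=
          Nat.mul_le_mul_left p (Nat.mul_le_mul hquot hker)
      _ = p ^ 2 * Nat.card (𝓞 L ⧸ v.asIdeal ^ e) := by ring

end

end Fermat.Agent.PT.Glob

namespace Fermat.Agent.PT.Glob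

noncomputable section

variable (L : Type) [Field L] [NumberField L]

/-- For prime powers `v ^ e v ∣ (p)` at distinct places, `∏ #(𝓞 L ⧸ v ^ e v) ≤ p ^ [L : ℚ]`. -/
theorem h74s_prod_card_le (p : ℕ) (T : Finset (HeightOneSpectrum (𝓞 L)))
    (e : HeightOneSpectrum (𝓞 L) → ℕ)
    (he : ∀ v ∈ T, v.asIdeal ^ e v ∣ Ideal.span {((p : ℕ) : 𝓞 L)}) (hp : 0 < p) :
    ∏ v ∈ T, Nat.card (𝓞 L ⧸ v.asIdeal ^ e v) ≤ p ^ Module.finrank ℚ L := by
  have h1 : ∀ v ∈ T, Nat.card (𝓞 L ⧸ v.asIdeal ^ e v) = Ideal.absNorm (v.asIdeal ^ e v) := by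
    intro v _
    rw [Ideal.absNorm_apply, Submodule.cardQuot_apply]
  rw [Finset.prod_congr rfl h1, ← map_prod]
  have h2 : (T.inf fun v => v.asIdeal ^ e v) = ∏ v ∈ T, v.asIdeal ^ e v :=
    IsDedekindDomain.inf_pow_eq_prod_of_prime T (fun v => v.asIdeal) e
      (fun v _ => v.prime) (fun v _ w _ hvw h => hvw (HeightOneSpectrum.ext h))
  have h3 : Ideal.span {((p : ℕ) : 𝓞 L)} ≤ ∏ v ∈ T, v.asIdeal ^ e v := by
    rw [← h2]
    apply Finset.le_inf
    intro v hv
    exact Ideal.dvd_iff_le.1 (he v hv)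
  have h4 := Ideal.absNorm_dvd_absNorm_of_le h3
  rw [Ideal.absNorm_span_natCast, RingOfIntegers.rank] at h4
  exact Nat.le_of_dvd (pow_pos hp _) h4

/-- **LP-PROD**: `∏_{v ∈ T} [Lˣ : local p-th powers at v] ≤ p ^ (2 #T + [L : ℚ])`, and every
factor is nonzero. -/
theorem h74s_prod_index_localPow (p : ℕ) [Fact p.Prime]
    (T : Finset (HeightOneSpectrum (𝓞 L))) :
    (∀ v ∈ T, (h74s_localPowSubgroup L p v).index ≠ 0) ∧
      ∏ v ∈ T, (h74s_localPowSubgroup L p v).index
        ≤ p ^ (2 * T.card + Module.finrank ℚ L) := by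
  have hp : p.Prime := Fact.out
  choose e he1 he2 he3 using fun v => h74s_index_localPow L v p
  refine ⟨fun v _ => he2 v, ?_⟩
  calc ∏ v ∈ T, (h74s_localPowSubgroup L p v).index
      ≤ ∏ v ∈ T, (p ^ 2 * Nat.card (𝓞 L ⧸ v.asIdeal ^ e v)) :=
        Finset.prod_le_prod' (fun v _ => he3 v)
    _ = p ^ (2 * T.card) * ∏ v ∈ T, Nat.card (𝓞 L ⧸ v.asIdeal ^ e v) := by
        rw [Finset.prod_mul_distrib, Finset.prod_const, ← pow_mul]
    _ ≤ p ^ (2 * T.card) * p ^ Module.finrank ℚ L :=
        Nat.mul_le_mul_left _ (h74s_prod_card_le L p T e (fun v _ => he1 v) hp.pos)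
    _ = p ^ (2 * T.card + Module.finrank ℚ L) := (pow_add _ _ _).symm

end

end Fermat.Agent.PT.Glob
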