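import Mathlib
import Fermat.Agent.PT.Glob.SI.Iface
import Fermat.Agent.PT.Glob.SI.H74LocIdx

/-!
# W3-PT / GLOB-SI, leaf SI-LPIDX (helper74)

`h74s_ifaceLPIdx : IfaceLPIdx` (unconditional): `∏_{v ∈ T} [Lˣ : P_v] ≤ p ^ (2 #T + [L : ℚ])`
and every index is finite, for `P_v = localPowSubgroup L p v`.
(The hypotheses `μ_p ⊆ L`, `3 ≤ p`, `T ⊇ {v ∣ p}` of the frozen statement are not used.)
-/

set_option autoImplicit false

open NumberField IsDedekindDomain

namespace Fermat.Agent.PT.Glob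

noncomputable section

theorem h74s_localPowSubgroup_eq (L : Type) [Field L] [NumberField L] (p : ℕ)
    (v : HeightOneSpectrum (𝓞 L)) :
    localPowSubgroup L p v = h74s_localPowSubgroup L p v := by
  ext b
  rw [mem_localPowSubgroup, h74s_mem_localPowSubgroup]
  rfl

/-- Single place form: finite index `≤ p ^ 2 * #(𝓞 L ⧸ v ^ e)`, `v ^ e ∣ (p)`. -/
theorem h74s_index_localPowSubgroup (L : Type) [Field L] [NumberField L]
    (v : HeightOneSpectrum (𝓞 L)) (p : ℕ) [Fact p.Prime] :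
    ∃ e : ℕ, v.asIdeal ^ e ∣ Ideal.span {((p : ℕ) : 𝓞 L)} ∧
      (localPowSubgroup L p v).index ≠ 0 ∧
      (localPowSubgroup L p v).index ≤ p ^ 2 * Nat.card (𝓞 L ⧸ v.asIdeal ^ e) := by
  rw [h74s_localPowSubgroup_eq]
  exact h74s_index_localPow L v p

/-- **SI-LPIDX**. -/
theorem h74s_ifaceLPIdx : IfaceLPIdx := by
  intro p hp _ L _ _ _ T _
  have hfact : Fact p.Prime := ⟨hp⟩
  have h := h74s_prod_index_localPow L p T
  simp only [← h74s_localPowSubgroup_eq] at h
  exact h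

end

end Fermat.Agent.PT.Glob
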