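import Mathlib
import Fermat.Agent.PT.Glob.SI.Iface

/-!
# W3-PT / GLOB-SI leaf NEWTON (helper89)

`h89n_ifaceNewton : IfaceNewton` : for a finite place `v ∤ p` of a number field `L`, every
`c ∈ Lˣ` with `v (c - 1) < 1` is a local `p`-th power at `v`, i.e. lies in the `v`-adic closure
of the `p`-th powers.

Proof: Newton iteration inside `L`.  If `c' = c / y ^ p = 1 + t` with `v t ≤ exp (-(n + 1))`,
put `z = 1 + t / p`; then `z ^ p = 1 + t + r (t / p) ^ 2` with `v r ≤ 1`, so
`v (c' / z ^ p - 1) ≤ (v t) ^ 2 ≤ exp (-(n + 2))`, and `c / (y z) ^ p = c' / z ^ p`.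
-/

set_option autoImplicit false

open NumberField IsDedekindDomain

namespace Fermat.Agent.PT.Glob

section

variable {L : Type} [Field L] [NumberField L]

/-- natural numbers are `v`-integral. -/
theorem h89n_val_natCast_le_one (v : HeightOneSpectrum (𝓞 L)) (m : ℕ) :
    v.valuation L (m : L) ≤ 1 := by
  have h := v.valuation_le_one (K := L) (m : 𝓞 L)
  simpa using h

/-- a natural number which is not in `v` is a `v`-unit. -/
theorem h89n_val_natCast_eq_one (v : HeightOneSpectrum (𝓞 L)) (m : ℕ)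
    (hm : (m : 𝓞 L) ∉ v.asIdeal) : v.valuation L (m : L) = 1 := by
  have h := (v.valuation_eq_one_iff_notMem (K := L) (r := (m : 𝓞 L))).mpr hm
  simpa using h

/-- binomial expansion to second order with a `v`-integral remainder. -/
theorem h89n_binom (v : HeightOneSpectrum (𝓞 L)) (s : L) (hs : v.valuation L s ≤ 1) (m : ℕ) :
    ∃ r : L, v.valuation L r ≤ 1 ∧ (1 + s) ^ m = 1 + (m : L) * s + r * s ^ 2 := by
  induction m with
  | zero => exact ⟨0, by simp, by simp⟩
  | succ m ih =>
    obtain ⟨r, hr, h⟩ := ih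
    refine ⟨(m : L) + r + r * s, ?_, ?_⟩
    · have h1 : v.valuation L ((m : L) + r) ≤ 1 :=
        (Valuation.map_add_le_max' _ _ _).trans (max_le (h89n_val_natCast_le_one v m) hr)
      have h2 : v.valuation L (r * s) ≤ 1 := by
        rw [map_mul]
        exact mul_le_one' hr hs
      exact (Valuation.map_add_le_max' _ _ _).trans (max_le h1 h2)
    · rw [pow_succ, h]
      push_cast
      ring

/-- an element of `ℤᵐ⁰` which is `< 1` is `≤ exp (-1)`. -/
theorem h89n_le_exp_neg_one {x : WithZero (Multiplicative ℤ)} (hx : x < 1) :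
    x ≤ WithZero.exp (-1 : ℤ) := by
  rcases eq_or_ne x 0 with rfl | hx0
  · exact zero_le
  have h1 : WithZero.exp (WithZero.log x) < WithZero.exp (0 : ℤ) := by
    rw [WithZero.exp_log hx0, WithZero.exp_zero]
    exact hx
  have h2 : WithZero.log x < 0 := WithZero.exp_lt_exp.mp h1
  rw [← WithZero.exp_log hx0, WithZero.exp_le_exp]
  omega

/-- **Newton step**: if `v (c - 1) ≤ exp (-(n + 1))` and `v ∤ p` there is a `v`-unit `z` with
`v (c / z ^ p - 1) ≤ exp (-(n + 2))`. -/
theorem h89n_step (p : ℕ) (v : HeightOneSpectrum (𝓞 L)) (hp : (p : 𝓞 L) ∉ v.asIdeal)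
    (n : ℕ) (c : L) (hc : CloseOne L v n c) :
    ∃ z : Lˣ, CloseOne L v (n + 1) (c / (z : L) ^ p) := by
  have hvp : v.valuation L (p : L) = 1 := h89n_val_natCast_eq_one v p hp
  have hp0 : (p : L) ≠ 0 := by
    intro h
    rw [h, map_zero] at hvp
    exact zero_ne_one hvp
  set t : L := c - 1 with ht
  have hvt : v.valuation L t ≤ WithZero.exp (-((n : ℤ) + 1)) := hc
  have hvt1 : v.valuation L t < 1 := hc.val_sub_lt_one
  set s : L := t / (p : L) with hs
  have hvs : v.valuation L s = v.valuation L t := by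
    rw [hs, map_div₀, hvp, div_one]
  have hvs1 : v.valuation L s < 1 := hvs ▸ hvt1
  have hvz : v.valuation L (1 + s) = 1 :=
    Valuation.map_one_add_of_lt (v := v.valuation L) (x := s) hvs1
  have hz0 : (1 + s : L) ≠ 0 := by
    intro h
    rw [h, map_zero] at hvz
    exact zero_ne_one hvz
  obtain ⟨r, hr, hbin⟩ := h89n_binom v s hvs1.le p
  have hps : (p : L) * s = t := by
    rw [hs]
    field_simp
  have hzp : (1 + s) ^ p = c + r * s ^ 2 := by
    rw [hbin, hps, ht]
    ring
  refine ⟨Units.mk0 (1 + s) hz0, ?_⟩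
  unfold CloseOne
  rw [Units.val_mk0]
  have hzp0 : ((1 + s) ^ p : L) ≠ 0 := pow_ne_zero _ hz0
  have key : c / (1 + s) ^ p - 1 = -(r * s ^ 2) / (1 + s) ^ p := by
    field_simp
    rw [hzp]
    ring
  rw [key, map_div₀, map_pow, hvz, one_pow, div_one, Valuation.map_neg, map_mul, map_pow, hvs]
  calc v.valuation L r * v.valuation L t ^ 2
      ≤ 1 * WithZero.exp (-((n : ℤ) + 1)) ^ 2 :=
        mul_le_mul' hr (pow_le_pow_left' hvt 2)
    _ = WithZero.exp (2 • (-((n : ℤ) + 1))) := by
        rw [one_mul, ← WithZero.exp_nsmul]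
    _ ≤ WithZero.exp (-(((n + 1 : ℕ) : ℤ) + 1)) := by
        rw [WithZero.exp_le_exp]
        push_cast
        simp only [nsmul_eq_mul]
        push_cast
        nlinarith [Int.natCast_nonneg n]

/-- **NEWTON**: approximation of `c ≡ 1 mod v` by `p`-th powers to any precision. -/
theorem h89n_newton (p : ℕ) (v : HeightOneSpectrum (𝓞 L)) (hp : (p : 𝓞 L) ∉ v.asIdeal)
    (c : L) (hc : v.valuation L (c - 1) < 1) (n : ℕ) :
    ∃ y : Lˣ, CloseOne L v n (c / (y : L) ^ p) := by
  induction n with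
  | zero =>
    refine ⟨1, ?_⟩
    unfold CloseOne
    simpa using h89n_le_exp_neg_one hc
  | succ n ih =>
    obtain ⟨y, hy⟩ := ih
    obtain ⟨z, hz⟩ := h89n_step p v hp n _ hy
    refine ⟨y * z, ?_⟩
    have h : c / ((y * z : Lˣ) : L) ^ p = c / (y : L) ^ p / (z : L) ^ p := by
      rw [Units.val_mul, mul_pow, div_div]
    rw [h]
    exact hz

end

/-- **SI-NEWTON.** -/
theorem h89n_ifaceNewton : IfaceNewton := by
  intro p _ L _ _ v hp c hc
  rw [mem_localPowSubgroup]
  exact fun n => h89n_newton p v hp (c : L) hc n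

end Fermat.Agent.PT.Glob
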