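import Mathlib
import Fermat.Agent.PT.Glob.SI.Iface
import Fermat.Agent.PT.Units.Kummer

/-!
# W3-PT / PT-GLOB / GLOB-SI leaf SI-FBASM (helper8)

`h8fb_ifaceFBAsm : IfaceFBAsm`, i.e. `IfaceAuxPrime → IfaceRes → IfaceNewton → IfaceFB`.

Notation: `E = E_T` the `T`-units, `Q_v = (Lˣ)^p · U_v^{(1)}` (`h8fb_Q`, the `p`-th powers
mod `v`), `A = ⟨a⟩ (Lˣ)^p` (`h8fb_A`).

* counting (`h8fb_exists_outside`): `[E : E^p] = p^(n+1)` (`SU_index_sunit_pow`,
  `n = rank + #T`), `[A ∩ E : E^p] ≤ p`, `[E : E ∩ Q_v] ≤ p` (RES); so for `#T' < n` there is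
  `u ∈ E ∩ ⋂_{v ∈ T'} Q_v` outside `A`;
* induction (`h8fb_chain`): AUX applied to such a `u` gives a new place `v`; surjectivity onto
  `∏_{v ∈ T'} U_v / Q_v` is kept by forward substitution (RES at the new place).
-/

set_option autoImplicit false
set_option linter.unusedSectionVars false

open NumberField IsDedekindDomain

namespace Fermat.Agent.PT.Glob

noncomputable section

/-! ## Pure group theory: a cyclic quotient killed by `p` has order at most `p` -/

theorem h8fb_relIndex_le {G : Type*} [CommGroup G] (H K : Subgroup G) (c : G) (p : ℕ)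
    (hp : 0 < p) (hc : c ∈ K) (hcp : c ^ p ∈ H) (h : ∀ x ∈ K, ∃ i : ℕ, x / c ^ i ∈ H) :
    H.relIndex K ≠ 0 ∧ H.relIndex K ≤ p := by
  classical
  let f : Fin p → K ⧸ H.subgroupOf K := fun i =>
    QuotientGroup.mk (⟨c ^ (i : ℕ), K.pow_mem hc _⟩ : K)
  have hf : Function.Surjective f := by
    intro y
    induction y using QuotientGroup.induction_on with
    | H x =>
      obtain ⟨i, hi⟩ := h x.1 x.2
      refine ⟨⟨i % p, Nat.mod_lt _ hp⟩, ?_⟩
      show QuotientGroup.mk (⟨c ^ (i % p), K.pow_mem hc _⟩ : K) = QuotientGroup.mk x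
      rw [QuotientGroup.eq, Subgroup.mem_subgroupOf]
      have e : ((⟨c ^ (i % p), K.pow_mem hc _⟩ : K)⁻¹ * x : K).1
          = x.1 / c ^ i * (c ^ p) ^ (i / p) := by
        have h1 : c ^ i = c ^ (i % p) * (c ^ p) ^ (i / p) := by
          rw [← pow_mul, ← pow_add, Nat.mod_add_div]
        show (c ^ (i % p))⁻¹ * x.1 = x.1 / c ^ i * (c ^ p) ^ (i / p)
        rw [h1]
        rw [div_eq_mul_inv, mul_inv, mul_assoc, mul_assoc, inv_mul_cancel, mul_one, mul_comm]
      rw [e]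
      exact H.mul_mem hi (H.pow_mem hcp _)
  have hfin : Finite (K ⧸ H.subgroupOf K) := Finite.of_surjective f hf
  have hle : Nat.card (K ⧸ H.subgroupOf K) ≤ Nat.card (Fin p) :=
    Nat.card_le_card_of_surjective f hf
  rw [Nat.card_fin] at hle
  refine ⟨?_, hle⟩
  exact Nat.card_pos.ne'

/-! ## Elements close to `1` and `p`-th powers modulo `v` -/

section Q

variable {L : Type} [Field L] [NumberField L]

theorem h8fb_near_mul (v : HeightOneSpectrum (𝓞 L)) {c c' : L}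
    (h : v.valuation L (c - 1) < 1) (h' : v.valuation L (c' - 1) < 1) :
    v.valuation L (c * c' - 1) < 1 := by
  have key : c * c' - 1 = (c - 1) * (c' - 1) + ((c - 1) + (c' - 1)) := by ring
  rw [key]
  have h1 : v.valuation L ((c - 1) * (c' - 1)) < 1 := by
    rw [map_mul]
    calc v.valuation L (c - 1) * v.valuation L (c' - 1)
        ≤ v.valuation L (c - 1) * 1 := mul_le_mul' le_rfl h'.le
      _ = v.valuation L (c - 1) := mul_one _
      _ < 1 := h
  have h2 : v.valuation L ((c - 1) + (c' - 1)) < 1 := Valuation.map_add_lt _ h h'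
  exact Valuation.map_add_lt _ h1 h2

theorem h8fb_near_val (v : HeightOneSpectrum (𝓞 L)) {c : L}
    (h : v.valuation L (c - 1) < 1) : v.valuation L c = 1 := by
  have := Valuation.map_one_add_of_lt (v := v.valuation L) (x := c - 1) h
  simpa using this

theorem h8fb_near_inv (v : HeightOneSpectrum (𝓞 L)) {c : L}
    (h : v.valuation L (c - 1) < 1) : v.valuation L (c⁻¹ - 1) < 1 := by
  have hval := h8fb_near_val v h
  have hc0 : c ≠ 0 := by
    rintro rfl
    simp at hval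
  have key : c⁻¹ - 1 = -(c - 1) * c⁻¹ := by
    field_simp
    ring
  rw [key, map_mul, Valuation.map_neg, map_inv₀, hval, inv_one, mul_one]
  exact h

/-- The `p`-th powers modulo `v`: `(Lˣ)^p · U_v^{(1)}`. -/
def h8fb_Q (p : ℕ) (v : HeightOneSpectrum (𝓞 L)) : Subgroup Lˣ where
  carrier := {u | ∃ x : Lˣ, v.valuation L ((u : L) / (x : L) ^ p - 1) < 1}
  one_mem' := ⟨1, by simp⟩
  mul_mem' := by
    rintro u u' ⟨x, hx⟩ ⟨x', hx'⟩
    refine ⟨x * x', ?_⟩
    have e : ((u * u' : Lˣ) : L) / ((x * x' : Lˣ) : L) ^ p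
        = ((u : L) / (x : L) ^ p) * ((u' : L) / (x' : L) ^ p) := by
      rw [Units.val_mul, Units.val_mul, mul_pow]
      field_simp
    rw [e]
    exact h8fb_near_mul v hx hx'
  inv_mem' := by
    rintro u ⟨x, hx⟩
    refine ⟨x⁻¹, ?_⟩
    have e : ((u⁻¹ : Lˣ) : L) / ((x⁻¹ : Lˣ) : L) ^ p = ((u : L) / (x : L) ^ p)⁻¹ := by
      rw [Units.val_inv_eq_inv_val, Units.val_inv_eq_inv_val, inv_pow]
      field_simp
    rw [e]
    exact h8fb_near_inv v hx

theorem h8fb_mem_Q {p : ℕ} {v : HeightOneSpectrum (𝓞 L)} {u : Lˣ} :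
    u ∈ h8fb_Q p v ↔ ∃ x : Lˣ, v.valuation L ((u : L) / (x : L) ^ p - 1) < 1 := Iff.rfl

theorem h8fb_pow_mem_Q (p : ℕ) (v : HeightOneSpectrum (𝓞 L)) (y : Lˣ) : y ^ p ∈ h8fb_Q p v := by
  refine ⟨y, ?_⟩
  rw [Units.val_pow_eq_pow_val, div_self (pow_ne_zero _ y.ne_zero)]
  simp

/-- `⟨a⟩ (Lˣ)^p`. -/
def h8fb_A (p : ℕ) (hp : 0 < p) (a : Lˣ) : Subgroup Lˣ where
  carrier := {u | ∃ (i : ℕ) (x : Lˣ), u = a ^ i * x ^ p}
  one_mem' := ⟨0, 1, by simp⟩
  mul_mem' := by
    rintro u u' ⟨i, x, rfl⟩ ⟨j, y, rfl⟩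
    refine ⟨i + j, x * y, ?_⟩
    rw [pow_add, mul_pow]
    exact mul_mul_mul_comm _ _ _ _
  inv_mem' := by
    rintro u ⟨i, x, rfl⟩
    refine ⟨(p - 1) * i, (a ^ i)⁻¹ * x⁻¹, ?_⟩
    have h1 : a ^ (p * i) = a ^ ((p - 1) * i) * a ^ i := by
      rw [← pow_add]
      congr 1
      have : p = (p - 1) + 1 := by omega
      nth_rewrite 1 [this]
      ring
    have h2 : ((a ^ i)⁻¹ * x⁻¹) ^ p = (a ^ (p * i))⁻¹ * (x ^ p)⁻¹ := by
      rw [mul_pow, inv_pow, inv_pow, ← pow_mul, mul_comm i p]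
    rw [h2, h1]
    rw [mul_inv, mul_inv]
    have h3 : a ^ ((p - 1) * i) * ((a ^ ((p - 1) * i))⁻¹ * (a ^ i)⁻¹ * (x ^ p)⁻¹)
        = (a ^ i)⁻¹ * (x ^ p)⁻¹ := by
      rw [← mul_assoc, ← mul_assoc, mul_inv_cancel, one_mul]
    rw [h3]

theorem h8fb_mem_A {p : ℕ} {hp : 0 < p} {a u : Lˣ} :
    u ∈ h8fb_A p hp a ↔ ∃ (i : ℕ) (x : Lˣ), u = a ^ i * x ^ p := Iff.rfl

end Q

/-! ## Counting in the `T`-units -/

section Count

variable {L : Type} [Field L] [NumberField L]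

/-- `T`-units are saturated in `Lˣ`. -/
theorem h8fb_sat (S : Set (HeightOneSpectrum (𝓞 L))) (p : ℕ) (hp : p ≠ 0) (y : Lˣ)
    (hy : y ^ p ∈ S.unit L) : y ∈ S.unit L := by
  intro v hv
  have h1 : (v.valuation L (y : L)) ^ p = 1 := by
    have := Set.unit_valuation_eq_one (S := S) (K := L) ⟨y ^ p, hy⟩ hv
    rwa [Units.val_pow_eq_pow_val, map_pow] at this
  exact (pow_eq_one_iff.1 h1).resolve_right hp

theorem h8fb_unit_val {S : Set (HeightOneSpectrum (𝓞 L))} {u : Lˣ} (hu : u ∈ S.unit L)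
    {v : HeightOneSpectrum (𝓞 L)} (hv : v ∉ S) : v.valuation L (u : L) = 1 :=
  Set.unit_valuation_eq_one (S := S) (K := L) ⟨u, hu⟩ hv

/-- `[E_T : E_T^p] = p^(rank + #T + 1)`, in relative-index form inside `Lˣ`. -/
theorem h8fb_index_pow (p : ℕ) [hp : Fact p.Prime] (T : Finset (HeightOneSpectrum (𝓞 L)))
    (ζ : L) (hζ : IsPrimitiveRoot ζ p) :
    ((((T : Set (HeightOneSpectrum (𝓞 L))).unit L).map (powMonoidHom p : Lˣ →* Lˣ)).relIndex
      ((T : Set (HeightOneSpectrum (𝓞 L))).unit L)) = p ^ (Units.rank L + T.card + 1) := by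
  classical
  have h := Fermat.Agent.PT.Units.SU_index_sunit_pow L (T : Set (HeightOneSpectrum (𝓞 L))) p ζ hζ
  have hcard : Nat.card (T : Set (HeightOneSpectrum (𝓞 L))) = T.card := by
    rw [Nat.card_eq_fintype_card]
    simp
  rw [hcard] at h
  rw [← h]
  set E := (T : Set (HeightOneSpectrum (𝓞 L))).unit L with hE
  have e1 : Subgroup.toAddSubgroup (powMonoidHom p : E →* E).range
      = (Fermat.Agent.S14.HQ.nrm (1 : AddMonoid.End (Additive E)) p).range := by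
    ext x
    constructor
    · rintro ⟨y, hy⟩
      refine ⟨Additive.ofMul y, ?_⟩
      rw [Fermat.Agent.PT.Units.SU_nrm_one_eq]
      exact congrArg Additive.ofMul hy
    · rintro ⟨y, hy⟩
      rw [Fermat.Agent.PT.Units.SU_nrm_one_eq] at hy
      exact ⟨y.toMul, congrArg Additive.toMul hy⟩
  have e2 : (E.map (powMonoidHom p : Lˣ →* Lˣ)).subgroupOf E = (powMonoidHom p : E →* E).range := by
    ext x
    rw [Subgroup.mem_subgroupOf]
    constructor
    · rintro ⟨y, hy, hyx⟩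
      refine ⟨⟨y, hy⟩, ?_⟩
      apply Subtype.ext
      exact hyx
    · rintro ⟨y, hy⟩
      refine ⟨y.1, y.2, ?_⟩
      exact congrArg Subtype.val hy
  rw [← e1, Subgroup.index_toAddSubgroup, ← e2]
  rfl

end Count

/-! ## RES in index form, and the counting step -/

section Main

variable {L : Type} [Field L] [NumberField L]

/-- RES in index form: `[E : E ∩ Q_v] ≤ p` if `E` consists of units at `v`. -/
theorem h8fb_relIndex_Q (hRes : IfaceRes) (p : ℕ) (hp : p.Prime)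
    (hζ : ∃ ζ : L, IsPrimitiveRoot ζ p) (v : HeightOneSpectrum (𝓞 L))
    (hv : (p : 𝓞 L) ∉ v.asIdeal) (E : Subgroup Lˣ)
    (hE : ∀ u ∈ E, v.valuation L (u : L) = 1) :
    (h8fb_Q p v).relIndex E ≠ 0 ∧ (h8fb_Q p v).relIndex E ≤ p := by
  by_cases h : E ≤ h8fb_Q p v
  · rw [Subgroup.relIndex_eq_one.2 h]
    exact ⟨one_ne_zero, hp.one_lt.le⟩
  · obtain ⟨c, hcE, hcQ⟩ := SetLike.not_le_iff_exists.1 h
    refine h8fb_relIndex_le (h8fb_Q p v) E c p hp.pos hcE (h8fb_pow_mem_Q p v c) ?_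
    intro x hx
    obtain ⟨i, y, hy⟩ := hRes p hp L hζ v hv c x (hE c hcE) (hE x hx) (fun h' => hcQ h')
    refine ⟨i, y, ?_⟩
    have e : ((x / c ^ i : Lˣ) : L) / (y : L) ^ p = (x : L) / ((c : L) ^ i * (y : L) ^ p) := by
      rw [Units.val_div_eq_div_val, Units.val_pow_eq_pow_val, div_div]
    rw [e]
    exact hy

/-- The counting step: if `#T' < rank + #T` there is a `T`-unit which is a `p`-th power modulo
every `v ∈ T'` but does not lie in `⟨a⟩ (Lˣ)^p`. -/
theorem h8fb_exists_outside (hRes : IfaceRes) (p : ℕ) (hp : p.Prime)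
    (hζ : ∃ ζ : L, IsPrimitiveRoot ζ p) (T T' : Finset (HeightOneSpectrum (𝓞 L)))
    (hdisj : Disjoint T T') (hT' : ∀ v ∈ T', (p : 𝓞 L) ∉ v.asIdeal) (a : Lˣ)
    (ha : a ∈ (T : Set (HeightOneSpectrum (𝓞 L))).unit L)
    (hcard : T'.card < Units.rank L + T.card) :
    ∃ u ∈ (T : Set (HeightOneSpectrum (𝓞 L))).unit L,
      (∀ v ∈ T', u ∈ h8fb_Q p v) ∧ u ∉ h8fb_A p hp.pos a := by
  classical
  have : Fact p.Prime := ⟨hp⟩
  obtain ⟨ζ, hζ'⟩ := hζ
  set E := (T : Set (HeightOneSpectrum (𝓞 L))).unit L with hEdef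
  set n := Units.rank L + T.card with hn
  set PE := E.map (powMonoidHom p : Lˣ →* Lˣ) with hPE
  have hidx : PE.relIndex E = p ^ (n + 1) := h8fb_index_pow p T ζ hζ'
  set AE := h8fb_A p hp.pos a ⊓ E with hAE
  have hPEle : PE ≤ AE := by
    rintro _ ⟨y, hy, rfl⟩
    refine ⟨⟨0, y, ?_⟩, E.pow_mem hy p⟩
    simp
  have hAEle : AE ≤ E := inf_le_right
  have haAE : a ∈ AE := ⟨⟨1, 1, by simp⟩, ha⟩
  have h1 : PE.relIndex AE ≠ 0 ∧ PE.relIndex AE ≤ p := by
    refine h8fb_relIndex_le PE AE a p hp.pos haAE ⟨a, ha, rfl⟩ ?_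
    rintro x ⟨⟨i, y, hxy⟩, hxE⟩
    refine ⟨i, y, ?_, ?_⟩
    · apply h8fb_sat _ p hp.ne_zero
      have : y ^ p = x / a ^ i := by
        rw [hxy]
        rw [mul_div_assoc, mul_comm, div_mul_cancel]
      rw [this]
      exact E.div_mem hxE (E.pow_mem ha i)
    · show y ^ p = x / a ^ i
      rw [hxy]
      rw [mul_div_assoc, mul_comm, div_mul_cancel]
  have h2 : PE.relIndex AE * AE.relIndex E = PE.relIndex E :=
    Subgroup.relIndex_mul_relIndex PE AE E hPEle hAEle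
  have h3 : p ^ n ≤ AE.relIndex E := by
    rw [hidx, pow_succ] at h2
    have h4 : p ^ n * p ≤ p * AE.relIndex E := by
      rw [← h2]
      exact Nat.mul_le_mul_right _ h1.2
    have h5 : p * p ^ n ≤ p * AE.relIndex E := by
      rw [mul_comm]
      exact h4
    exact Nat.le_of_mul_le_mul_left h5 hp.pos
  -- the intersection of the `Q_v`
  set X : Subgroup Lˣ := ⨅ v : T', h8fb_Q p v.1 with hX
  have hEv : ∀ v ∈ T', ∀ u ∈ E, v.valuation L (u : L) = 1 := by
    intro v hv u hu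
    refine h8fb_unit_val hu ?_
    intro hvT
    exact (Finset.disjoint_left.1 hdisj) (Finset.mem_coe.1 hvT) hv
  have hQ : ∀ v : T', (h8fb_Q p v.1).relIndex E ≠ 0 ∧ (h8fb_Q p v.1).relIndex E ≤ p :=
    fun v => h8fb_relIndex_Q hRes p hp ⟨ζ, hζ'⟩ v.1 (hT' v.1 v.2) E (hEv v.1 v.2)
  have hX0 : X.relIndex E ≠ 0 := Subgroup.relIndex_iInf_ne_zero fun v => (hQ v).1
  have hXle : X.relIndex E ≤ p ^ T'.card := by
    refine (Subgroup.relIndex_iInf_le (fun v : T' => h8fb_Q p v.1)).trans ?_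
    have := Finset.prod_le_pow_card (Finset.univ : Finset T')
      (fun v : T' => (h8fb_Q p v.1).relIndex E) p (fun v _ => (hQ v).2)
    simpa using this
  by_contra hcon
  push Not at hcon
  have hle : X ⊓ E ≤ AE := by
    rintro u ⟨huX, huE⟩
    refine ⟨hcon u huE ?_, huE⟩
    intro v hv
    exact (Subgroup.mem_iInf.1 huX) ⟨v, hv⟩
  have h6' : (X ⊓ E).relIndex E = X.relIndex E := Subgroup.inf_relIndex_right X E
  have h6 : AE.relIndex E ≤ (X ⊓ E).relIndex E :=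
    Subgroup.relIndex_le_of_le_left hle (by rw [h6']; exact hX0)
  rw [h6'] at h6
  have h7 : p ^ T'.card < p ^ n := Nat.pow_lt_pow_right hp.one_lt hcard
  omega

/-! ## The induction -/

/-- The invariant of the induction: `T'` is disjoint from `T`, prime to `p`, `a` is a `p`-th
power modulo every `v ∈ T'`, and the `T`-units surject onto `∏_{v ∈ T'} U_v / Q_v`. -/
def h8fb_Good (p : ℕ) (T : Finset (HeightOneSpectrum (𝓞 L))) (a : Lˣ)
    (T' : Finset (HeightOneSpectrum (𝓞 L))) : Prop :=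
  Disjoint T T' ∧ (∀ v ∈ T', (p : 𝓞 L) ∉ v.asIdeal ∧ a ∈ h8fb_Q p v) ∧
    ∀ c : HeightOneSpectrum (𝓞 L) → Lˣ, (∀ v ∈ T', v.valuation L (c v : L) = 1) →
      ∃ u ∈ (T : Set (HeightOneSpectrum (𝓞 L))).unit L, ∀ v ∈ T', u / c v ∈ h8fb_Q p v

theorem h8fb_chain (hAux : IfaceAuxPrime) (hRes : IfaceRes) (p : ℕ) (hp : p.Prime)
    (hp3 : 3 ≤ p) (hζ : ∃ ζ : L, IsPrimitiveRoot ζ p)
    (T : Finset (HeightOneSpectrum (𝓞 L))) (a : Lˣ)
    (ha : a ∈ (T : Set (HeightOneSpectrum (𝓞 L))).unit L) :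
    ∀ j, j ≤ Units.rank L + T.card →
      ∃ T' : Finset (HeightOneSpectrum (𝓞 L)), T'.card = j ∧ h8fb_Good p T a T' := by
  classical
  intro j
  induction j with
  | zero =>
    intro _
    refine ⟨∅, rfl, Finset.disjoint_empty_right _, ?_, ?_⟩
    · intro v hv
      simp at hv
    · intro c _
      refine ⟨1, one_mem _, ?_⟩
      intro v hv
      simp at hv
  | succ j ih =>
    intro hj
    obtain ⟨T', hcard, hdisj, hT', hsurj⟩ := ih (by omega)
    obtain ⟨u, huE, huQ, huA⟩ := h8fb_exists_outside hRes p hp hζ T T' hdisj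
      (fun v hv => (hT' v hv).1) a ha (by omega)
    obtain ⟨v, hvT₀, hvp, hva, hvu, haQ, huQv⟩ :=
      hAux p hp hp3 L hζ a u (fun i x h => huA ⟨i, x, h⟩) (T ∪ T')
    have hvT : v ∉ T := fun h => hvT₀ (Finset.mem_union_left _ h)
    have hvT' : v ∉ T' := fun h => hvT₀ (Finset.mem_union_right _ h)
    refine ⟨insert v T', ?_, ?_, ?_, ?_⟩
    · rw [Finset.card_insert_of_notMem hvT', hcard]
    · rw [Finset.disjoint_insert_right]
      exact ⟨hvT, hdisj⟩
    · intro w hw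
      rcases Finset.mem_insert.1 hw with h | h
      · rw [h]
        exact ⟨hvp, haQ⟩
      · exact hT' w h
    · intro c hc
      obtain ⟨u₀, hu₀E, hu₀⟩ := hsurj c (fun w hw => hc w (Finset.mem_insert_of_mem hw))
      have hcv : v.valuation L (c v : L) = 1 := hc v (Finset.mem_insert_self _ _)
      have hu₀v : v.valuation L (u₀ : L) = 1 :=
        h8fb_unit_val hu₀E (fun h => hvT (Finset.mem_coe.1 h))
      have hc' : v.valuation L ((c v / u₀ : Lˣ) : L) = 1 := by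
        rw [Units.val_div_eq_div_val, map_div₀, hcv, hu₀v, div_one]
      obtain ⟨i, x, hx⟩ := hRes p hp L hζ v hvp u (c v / u₀) hvu hc' huQv
      have hmem : (c v / u₀) / u ^ i ∈ h8fb_Q p v := by
        refine ⟨x, ?_⟩
        have e : (((c v / u₀) / u ^ i : Lˣ) : L) / (x : L) ^ p
            = ((c v / u₀ : Lˣ) : L) / ((u : L) ^ i * (x : L) ^ p) := by
          rw [Units.val_div_eq_div_val (c v / u₀) (u ^ i), Units.val_pow_eq_pow_val, div_div]
        rw [e]
        exact hx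
      refine ⟨u₀ * u ^ i, Subgroup.mul_mem _ hu₀E (Subgroup.pow_mem _ huE i), ?_⟩
      intro w hw
      rcases Finset.mem_insert.1 hw with h | h
      · rw [h]
        have e : u₀ * u ^ i / c v = ((c v / u₀) / u ^ i)⁻¹ := by
          rw [inv_div, div_div_eq_mul_div, mul_comm]
        rw [e]
        exact (h8fb_Q p v).inv_mem hmem
      · have e : u₀ * u ^ i / c w = (u₀ / c w) * u ^ i := (div_mul_eq_mul_div _ _ _).symm
        rw [e]
        exact (h8fb_Q p w).mul_mem (hu₀ w h) ((h8fb_Q p w).pow_mem (huQ w h) i)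

/-- **SI-FBASM.** -/
theorem h8fb_ifaceFBAsm : IfaceFBAsm := by
  intro hAux hRes hNewton p hp hp3 L _ _ hζ T _ a ha _
  obtain ⟨T', hcard, hdisj, hT', hsurj⟩ :=
    h8fb_chain hAux hRes p hp hp3 hζ T a ha _ le_rfl
  refine ⟨T', hdisj, hcard, ?_, ?_⟩
  · intro v hv
    obtain ⟨hvp, x, hx⟩ := hT' v hv
    have h1 : a / x ^ p ∈ localPowSubgroup L p v := by
      apply hNewton p hp L v hvp
      rw [Units.val_div_eq_div_val, Units.val_pow_eq_pow_val]
      exact hx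
    have h2 := (localPowSubgroup L p v).mul_mem h1 (pow_mem_localPowSubgroup p v x)
    rwa [div_mul_cancel] at h2
  · intro c hc
    obtain ⟨u, huE, hu⟩ := hsurj c hc
    refine ⟨u, huE, fun v hv => ?_⟩
    obtain ⟨x, hx⟩ := hu v hv
    refine ⟨x, ?_⟩
    have e : ((u / c v : Lˣ) : L) / (x : L) ^ p = (u : L) / ((c v : L) * (x : L) ^ p) := by
      rw [Units.val_div_eq_div_val, div_div]
    rw [← e]
    exact hx

end Main

end

end Fermat.Agent.PT.Glob
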