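import Mathlib
import Fermat.Agent.PT.Glob.Core
import Fermat.Agent.PT.Glob.SI.Iface
import Fermat.Agent.PT.Units.SUnitHerbrand

/-!
# W3-PT / PT-GLOB / GLOB-SI, leaf SI-NORMUNIF (helper42): `IfaceNormUnif`

`T` admissible for `K / L`, `v ∉ T` with `N_v = ⊤` (every element of `Lˣ` is a local norm at
`v`).  Then there is `z ∈ Kˣ` whose norm is a uniformizer at `v` and a unit at all other places
outside `T`.

Proof: a uniformizer `π` of `v` (trivial `T`-class group of `L`) is `v`-adically close to a norm
`N y`, so `v (N y) = exp (-1)`.  The valuations of `y` at the places `W` of `K` not above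
`T ∪ {v}` are killed by the generators `x_W` given by the trivial class group of `K`:
`z = y · ∏_W x_W ^ ord_W y`.  The valuation of a norm is computed by
`W (N z) = ∏_σ (σ⁻¹ W) z` (`h42nu_norm_unit`).
-/

set_option autoImplicit false

open NumberField IsDedekindDomain

namespace Fermat.Agent.PT.Glob

open Fermat.Agent.PT.Units

section

variable {L K : Type} [Field L] [NumberField L] [Field K] [NumberField K] [Algebra L K]

omit [NumberField L] [NumberField K] in
/-- Membership in `placesAbove`. -/
theorem h42nu_mem_placesAbove (T : Set (HeightOneSpectrum (𝓞 L)))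
    (W : HeightOneSpectrum (𝓞 K)) : W ∈ placesAbove L K T ↔ W.under (𝓞 L) ∈ T := by
  constructor
  · rintro ⟨v, hv, h⟩
    have : W.under (𝓞 L) = v := HeightOneSpectrum.ext h
    rw [this]
    exact hv
  · intro h
    exact ⟨W.under (𝓞 L), h, rfl⟩

/-- If `z` is a unit at all places of `K` above `v'`, its norm is a unit at `v'`. -/
theorem h42nu_norm_unit [IsGalois L K] (z : K) (v' : HeightOneSpectrum (𝓞 L))
    (h : ∀ W : HeightOneSpectrum (𝓞 K), W.under (𝓞 L) = v' → W.valuation K z = 1) :
    v'.valuation L (Algebra.norm L z) = 1 := by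
  obtain ⟨W, hW⟩ := SU_exists_above (K := L) (L := K) v'
  obtain ⟨e, he, hval⟩ := SU_valuation_up (K := L) (L := K) W (Algebra.norm L z)
  rw [hW] at hval
  have hprod : W.valuation K (algebraMap L K (Algebra.norm L z)) = 1 := by
    rw [Algebra.norm_eq_prod_automorphisms, map_prod]
    refine Finset.prod_eq_one fun σ _ => ?_
    rw [SU_valuation_gal]
    apply h
    rw [SU_pull_under, hW]
  rw [hprod] at hval
  exact SU_pow_eq_one he hval.symm

/-- The set of places where a nonzero element is not a unit is finite. -/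
theorem h42nu_finite_ne_one (y : Kˣ) :
    {W : HeightOneSpectrum (𝓞 K) | W.valuation K (y : K) ≠ 1}.Finite := by
  have h1 := HeightOneSpectrum.Support.finite (𝓞 K) (y : K)
  have h2 := HeightOneSpectrum.Support.finite (𝓞 K) ((y⁻¹ : Kˣ) : K)
  refine (h1.union h2).subset ?_
  intro W hW
  rcases lt_or_gt_of_ne hW with h | h
  · right
    show 1 < W.valuation K ((y⁻¹ : Kˣ) : K)
    rw [Units.val_inv_eq_inv_val, map_inv₀]
    have h0 : W.valuation K (y : K) ≠ 0 := by
      rw [Ne, map_eq_zero]
      exact y.ne_zero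
    exact (one_lt_inv₀ (zero_lt_iff.mpr h0)).mpr h
  · left
    exact h

end

/-- **(SI-NORMUNIF)** -/
theorem h42nu_normUnif : IfaceNormUnif := by
  classical
  intro p _ _ L K _ _ _ _ _ _ _ T hT v hvT hN
  -- a uniformizer of `v`
  obtain ⟨π, hπ, -⟩ := hT.classL v (by simpa using hvT)
  -- approximate it by a norm
  have hmem : π ∈ localNormSubgroup L K v := by
    rw [hN]
    exact Subgroup.mem_top _
  obtain ⟨y, hy⟩ := hmem 0
  have hNy0 : Algebra.norm L (y : K) ≠ 0 := by
    rw [Ne, Algebra.norm_eq_zero_iff]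
    exact y.ne_zero
  have hNy : v.valuation L (Algebra.norm L (y : K)) = WithZero.exp (-1 : ℤ) := by
    unfold NormApprox at hy
    have hlt : v.valuation L ((π : L) / Algebra.norm L (y : K) - 1) < 1 :=
      lt_of_le_of_lt hy (exp_neg_succ_lt_one 0)
    have h1 : v.valuation L ((π : L) / Algebra.norm L (y : K)) = 1 := by
      have := Valuation.map_one_add_of_lt (v := v.valuation L) hlt
      simpa using this
    rw [map_div₀, hπ] at h1
    have h0 : v.valuation L (Algebra.norm L (y : K)) ≠ 0 := by
      rw [Ne, map_eq_zero]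
      exact hNy0
    exact ((div_eq_one_iff_eq h0).mp h1).symm
  -- the places above `T`
  set PT : Set (HeightOneSpectrum (𝓞 K)) :=
    placesAbove L K (T : Set (HeightOneSpectrum (𝓞 L))) with hPT
  have hPTmem : ∀ W : HeightOneSpectrum (𝓞 K), W ∈ PT ↔ W.under (𝓞 L) ∈ T := by
    intro W
    rw [hPT, h42nu_mem_placesAbove]
    simp
  -- the bad places of `y`
  set B : Finset (HeightOneSpectrum (𝓞 K)) :=
    (h42nu_finite_ne_one y).toFinset.filter (fun W => W ∉ PT ∧ W.under (𝓞 L) ≠ v) with hB
  have hBmem : ∀ W, W ∈ B ↔ W.valuation K (y : K) ≠ 1 ∧ W ∉ PT ∧ W.under (𝓞 L) ≠ v := by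
    intro W
    rw [hB, Finset.mem_filter, Set.Finite.mem_toFinset]
    rfl
  -- generators of the primes outside `PT`
  have hX : ∀ W : HeightOneSpectrum (𝓞 K), ∃ x : Kˣ, W ∉ PT →
      (W.valuation K (x : K) = WithZero.exp (-1 : ℤ) ∧
        ∀ W' : HeightOneSpectrum (𝓞 K), W' ∉ PT → W' ≠ W → W'.valuation K (x : K) = 1) := by
    intro W
    by_cases hW : W ∈ PT
    · exact ⟨1, fun h => absurd hW h⟩
    · obtain ⟨x, hx⟩ := hT.classK W hW
      exact ⟨x, fun _ => hx⟩
  choose X hX using hX
  -- the exponents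
  set n : HeightOneSpectrum (𝓞 K) → ℤ := fun W => SU_ord K W (Additive.ofMul y) with hn
  have hny : ∀ W, WithZero.exp (n W) = W.valuation K (y : K) := fun W => SU_exp_ord K W y
  -- the correction factor
  set t : Kˣ := ∏ W ∈ B, (X W) ^ (n W) with ht
  have htK : (t : K) = ∏ W ∈ B, ((X W : Kˣ) : K) ^ (n W) := by
    rw [ht, Units.coe_prod]
    refine Finset.prod_congr rfl fun W _ => ?_
    rw [Units.val_zpow_eq_zpow_val]
  have hval_t : ∀ W' : HeightOneSpectrum (𝓞 K),
      W'.valuation K (t : K) = ∏ W ∈ B, (W'.valuation K ((X W : Kˣ) : K)) ^ (n W) := by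
    intro W'
    rw [htK, map_prod]
    refine Finset.prod_congr rfl fun W _ => ?_
    rw [map_zpow₀]
  -- valuations of `t` outside `B`
  have ht_out : ∀ W' : HeightOneSpectrum (𝓞 K), W' ∉ PT → W' ∉ B →
      W'.valuation K (t : K) = 1 := by
    intro W' hW' hW'B
    rw [hval_t]
    refine Finset.prod_eq_one fun W hW => ?_
    have hWB := (hBmem W).mp hW
    have hne : W' ≠ W := by
      rintro rfl
      exact hW'B hW
    rw [(hX W hWB.2.1).2 W' hW' hne, one_zpow]
  -- valuations of `t` on `B`
  have ht_in : ∀ W' : HeightOneSpectrum (𝓞 K), W' ∈ B →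
      W'.valuation K (y : K) * W'.valuation K (t : K) = 1 := by
    intro W' hW'B
    have hW' := (hBmem W').mp hW'B
    rw [hval_t, Finset.prod_eq_single W']
    · rw [(hX W' hW'.2.1).1, ← hny W', ← WithZero.exp_zsmul, ← WithZero.exp_add]
      rw [← WithZero.exp_zero]
      congr 1
      simp
    · intro W hW hne
      have hWB := (hBmem W).mp hW
      rw [(hX W hWB.2.1).2 W' hW'.2.1 (Ne.symm hne), one_zpow]
    · intro h
      exact absurd hW'B h
  -- the element `z`
  refine ⟨y * t, ?_, ?_⟩
  · -- the valuation at `v`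
    have hvt : v.valuation L (Algebra.norm L (t : K)) = 1 := by
      refine h42nu_norm_unit (t : K) v fun W hW => ?_
      have hWPT : W ∉ PT := by
        rw [hPTmem, hW]
        exact hvT
      refine ht_out W hWPT ?_
      intro hWB
      exact ((hBmem W).mp hWB).2.2 hW
    rw [Units.val_mul, map_mul, map_mul, hNy, hvt, mul_one]
  · intro v' hv'T hv'
    refine h42nu_norm_unit ((y * t : Kˣ) : K) v' fun W hW => ?_
    have hWPT : W ∉ PT := by
      rw [hPTmem, hW]
      exact hv'T
    have hWv : W.under (𝓞 L) ≠ v := by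
      rw [hW]
      exact hv'
    rw [Units.val_mul, map_mul]
    by_cases hWB : W ∈ B
    · exact ht_in W hWB
    · have hy1 : W.valuation K (y : K) = 1 := by
        by_contra hne
        exact hWB ((hBmem W).mpr ⟨hne, hWPT, hWv⟩)
      rw [hy1, ht_out W hWPT hWB, mul_one]

end Fermat.Agent.PT.Glob
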