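import Mathlib
import Fermat.Agent.Cheb.Cyclic
import Fermat.Agent.PT.Glob.Core
import Fermat.Agent.PT.Glob.SI.Iface
import Fermat.Agent.PT.Glob.SI.H24Res
import Fermat.Agent.PT.Glob.SI.H42NormUnif
import Fermat.Agent.PT.Units.SUnitHerbrand

/-!
# W3-PT / PT-GLOB / GLOB-SI, leaf SI-AUX, part B (helper42): the auxiliary prime

`h42ax_core`: let `K₁ / L` be a finite extension of number fields, `ζ ∈ L` a primitive `p`-th
root of unity, `a, u ∈ Lˣ`, `α ∈ K₁` with `α ^ p = a`, and assume that `u` is not a `p`-th power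
in `K₁`.  Then outside any finite set there is a place `v` of `L`, `v ∤ p`, with `a`, `u` units
at `v`, `a` a `p`-th power mod `v` and `u` not a `p`-th power mod `v`.

Proof: `K₂ = K₁(u^{1/p})` is cyclic of degree `p` over `K₁`; weak Chebotarev
(`Fermat.Agent.Cheb.exists_degOne_isInert`) gives a prime `w` of `K₁` of absolute degree one
which is inert in `K₂`; `v = w ∩ L`.  The residue fields of `v` and `w` coincide, so
`a = α ^ p` is a `p`-th power mod `v`.  If `u ≡ x ^ p mod v` then `β ≡ μ x mod W`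
(`β ^ p = u`, `μ ^ p = 1`, `W` the prime of `K₂` above `w`); a `σ ∈ Gal(K₂/K₁)` with
`σ β = μ' β`, `μ' ≠ 1`, fixes `W` and `μ x`, so `(μ' - 1) β ∈ W`, hence `p ∈ W`: contradiction.
-/

set_option autoImplicit false
set_option linter.unusedSectionVars false
set_option linter.style.haveILetI false

open NumberField IsDedekindDomain Polynomial

namespace Fermat.Agent.PT.Glob

open Fermat.Agent.PT.Units Fermat.Agent.Cheb

section up

variable {K L : Type} [Field K] [NumberField K] [Field L] [NumberField L] [Algebra K L]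

/-- valuations of elements of the base field at a prime above: `= 1`. -/
theorem h42ax_val_up_eq_one (w : HeightOneSpectrum (𝓞 L)) (x : K) :
    w.valuation L (algebraMap K L x) = 1 ↔ (w.under (𝓞 K)).valuation K x = 1 := by
  obtain ⟨e, he, h⟩ := SU_valuation_up (K := K) (L := L) w x
  rw [h]
  constructor
  · intro h1
    exact SU_pow_eq_one he h1
  · intro h1
    rw [h1, one_pow]

/-- valuations of elements of the base field at a prime above: `< 1`. -/
theorem h42ax_val_up_lt_one (w : HeightOneSpectrum (𝓞 L)) (x : K) :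
    w.valuation L (algebraMap K L x) < 1 ↔ (w.under (𝓞 K)).valuation K x < 1 := by
  obtain ⟨e, he, h⟩ := SU_valuation_up (K := K) (L := L) w x
  rw [h]
  exact pow_lt_one_iff he

/-- membership of a rational integer in a prime and in the prime below. -/
theorem h42ax_natCast_mem_under (w : HeightOneSpectrum (𝓞 L)) (n : ℕ) :
    (n : 𝓞 K) ∈ (w.under (𝓞 K)).asIdeal ↔ (n : 𝓞 L) ∈ w.asIdeal := by
  rw [HeightOneSpectrum.under_asIdeal, Ideal.under_def, Ideal.mem_comap, map_natCast]

/-- an inert prime has exactly one prime above it. -/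
theorem h42ax_inert_unique [IsGalois K L] (w : HeightOneSpectrum (𝓞 K)) (hwi : IsInert K L w)
    (W W' : HeightOneSpectrum (𝓞 L)) (hW : W.under (𝓞 K) = w) (hW' : W'.under (𝓞 K) = w) :
    W = W' := by
  have := w.isMaximal
  have h := Ideal.ncard_primesOver_mul_ramificationIdxIn_mul_inertiaDegIn w.asIdeal (𝓞 L)
    Gal(L/K)
  rw [IsGalois.card_aut_eq_finrank, hwi.1, hwi.2, one_mul] at h
  have hpos : 0 < Module.finrank K L := Module.finrank_pos
  have h1 : (w.asIdeal.primesOver (𝓞 L)).ncard = 1 := by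
    have : (w.asIdeal.primesOver (𝓞 L)).ncard * Module.finrank K L = 1 * Module.finrank K L := by
      rw [h, one_mul]
    exact Nat.eq_of_mul_eq_mul_right hpos this
  obtain ⟨P, hP⟩ := Set.ncard_eq_one.mp h1
  have hmem : ∀ V : HeightOneSpectrum (𝓞 L), V.under (𝓞 K) = w → V.asIdeal = P := by
    intro V hV
    have hVm : V.asIdeal ∈ w.asIdeal.primesOver (𝓞 L) := by
      refine ⟨V.isPrime, ⟨?_⟩⟩
      rw [← hV]
      rfl
    rw [hP] at hVm
    exact hVm
  exact HeightOneSpectrum.ext ((hmem W hW).trans (hmem W' hW').symm)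

/-- a prime of absolute degree one has the same residue field as the prime below. -/
theorem h42ax_degOne_surj (w : HeightOneSpectrum (𝓞 L)) (hw : IsDegOne L w) (z : 𝓞 L) :
    ∃ x : 𝓞 K, algebraMap (𝓞 K) (𝓞 L) x - z ∈ w.asIdeal := by
  classical
  set Q := 𝓞 L ⧸ w.asIdeal with hQ
  have hcard : Nat.card Q = Ideal.absNorm w.asIdeal := by
    rw [Ideal.absNorm_apply, Submodule.cardQuot_apply]
  have hprime : (Nat.card Q).Prime := by
    rw [hcard]
    exact hw
  haveI : Finite Q := Nat.finite_of_card_ne_zero hprime.ne_zero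
  let φ : 𝓞 K →+* Q := (Ideal.Quotient.mk w.asIdeal).comp (algebraMap (𝓞 K) (𝓞 L))
  have hdvd : Nat.card φ.range.toAddSubgroup ∣ Nat.card Q :=
    AddSubgroup.card_addSubgroup_dvd_card _
  have hne1 : Nat.card φ.range.toAddSubgroup ≠ 1 := by
    intro h1
    have hbot : φ.range.toAddSubgroup = ⊥ := AddSubgroup.card_eq_one.mp h1
    have h1mem : (1 : Q) ∈ φ.range.toAddSubgroup := ⟨1, map_one φ⟩
    rw [hbot, AddSubgroup.mem_bot] at h1mem
    have hsub : Subsingleton Q := subsingleton_of_zero_eq_one h1mem.symm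
    have : Nat.card Q = 1 := Nat.card_eq_one_iff_unique.mpr ⟨hsub, ⟨0⟩⟩
    rw [this] at hprime
    exact Nat.not_prime_one hprime
  have heq : Nat.card φ.range.toAddSubgroup = Nat.card Q :=
    ((Nat.dvd_prime hprime).mp hdvd).resolve_left hne1
  have htop : φ.range.toAddSubgroup = ⊤ := AddSubgroup.card_eq_iff_eq_top _ |>.mp heq
  have hz : Ideal.Quotient.mk w.asIdeal z ∈ φ.range.toAddSubgroup := by
    rw [htop]
    exact AddSubgroup.mem_top _
  obtain ⟨x, hx⟩ := hz
  refine ⟨x, ?_⟩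
  rw [← Ideal.Quotient.eq]
  exact hx

/-- **residue degree one**: if `a = α ^ p` with `α` in `L` and `w` is a prime of `L` of absolute
degree one at which `a` is a unit, then `a` is a `p`-th power modulo the prime of `K` below `w`. -/
theorem h42ax_pow_mod (p : ℕ) (w : HeightOneSpectrum (𝓞 L)) (hw : IsDegOne L w)
    (a : Kˣ) (α : L) (hα : α ^ p = algebraMap K L (a : K)) (hp : p ≠ 0)
    (hwa : w.valuation L (algebraMap K L (a : K)) = 1) :
    ∃ x : Kˣ, (w.under (𝓞 K)).valuation K ((a : K) / (x : K) ^ p - 1) < 1 := by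
  have hwα : w.valuation L α = 1 := by
    refine SU_pow_eq_one hp ?_
    rw [← map_pow, hα]
    exact hwa
  obtain ⟨z, hz⟩ := h24sr_exists_int (v := w) α hwα.le
  obtain ⟨x0, hx0⟩ := h42ax_degOne_surj (K := K) w hw z
  have hc1 : h24sr_Cong w (algebraMap (𝓞 L) L (algebraMap (𝓞 K) (𝓞 L) x0))
      (algebraMap (𝓞 L) L z) := by
    unfold h24sr_Cong
    rw [← map_sub, HeightOneSpectrum.valuation_lt_one_iff_mem]
    exact hx0
  have hc2 : h24sr_Cong w (algebraMap K L (algebraMap (𝓞 K) K x0)) α := by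
    have : algebraMap K L (algebraMap (𝓞 K) K x0) =
        algebraMap (𝓞 L) L (algebraMap (𝓞 K) (𝓞 L) x0) := rfl
    rw [this]
    exact h24sr_cong_trans hc1 hz
  have hc3 := h24sr_cong_pow hc2 hwα p
  rw [hα, ← map_pow] at hc3
  unfold h24sr_Cong at hc3
  rw [← map_sub, h42ax_val_up_lt_one] at hc3
  have hva : (w.under (𝓞 K)).valuation K (a : K) = 1 := (h42ax_val_up_eq_one w _).mp hwa
  have hc4 : h24sr_Cong (w.under (𝓞 K)) ((algebraMap (𝓞 K) K x0) ^ p) (a : K) := hc3
  have hvx : (w.under (𝓞 K)).valuation K ((algebraMap (𝓞 K) K x0) ^ p) = 1 :=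
    h24sr_val_eq_one_of_cong hc4 hva
  have hx0ne : algebraMap (𝓞 K) K x0 ≠ 0 := by
    intro h
    rw [h, zero_pow hp, map_zero] at hvx
    exact zero_ne_one hvx
  refine ⟨Units.mk0 _ hx0ne, ?_⟩
  rw [Units.val_mk0, h24sr_div_sub_one hvx]
  exact h24sr_cong_symm hc4

/-- a `p`-th root of unity `η ≠ 1` is not congruent to `1` modulo a prime not above `p`. -/
theorem h42ax_root_not_cong (p : ℕ) (W : HeightOneSpectrum (𝓞 L)) (η : L) (hη : η ^ p = 1)
    (hη1 : η ≠ 1) (hW : W.valuation L (η - 1) < 1) : (p : 𝓞 L) ∈ W.asIdeal := by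
  have hsum : ∑ i ∈ Finset.range p, η ^ i = 0 := by
    have h := mul_geom_sum η p
    rw [hη, sub_self] at h
    rcases mul_eq_zero.mp h with h0 | h0
    · exact absurd (sub_eq_zero.mp h0) hη1
    · exact h0
  have hcong : h24sr_Cong W η 1 := hW
  have hpow : ∀ i : ℕ, W.valuation L (1 - η ^ i) < 1 := by
    intro i
    have h := h24sr_cong_pow hcong (map_one _) i
    rw [one_pow] at h
    unfold h24sr_Cong at h
    rwa [Valuation.map_sub_swap] at h
  have hp : (p : L) = ∑ i ∈ Finset.range p, (1 - η ^ i) := by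
    rw [Finset.sum_sub_distrib, hsum, sub_zero]
    simp
  have hlt : W.valuation L (p : L) < 1 := by
    rw [hp]
    exact Valuation.map_sum_lt _ one_ne_zero fun i _ => hpow i
  have hcast : (p : L) = algebraMap (𝓞 L) L (p : 𝓞 L) := by
    rw [map_natCast]
  rw [hcast, HeightOneSpectrum.valuation_lt_one_iff_mem] at hlt
  exact hlt

/-- **the Frobenius argument**: at an inert prime `w ∤ p` of a Kummer extension
`L = K(β)`, `β ^ p = u`, the element `u` is not a `p`-th power modulo `w`. -/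
theorem h42ax_not_pow_mod (p : ℕ) (hp : p.Prime) [IsGalois K L]
    (ζ : K) (hζ : IsPrimitiveRoot ζ p) (u : K) (β : L) (hβ : β ^ p = algebraMap K L u)
    (σ : Gal(L/K)) (hσ : σ β ≠ β) (w : HeightOneSpectrum (𝓞 K)) (hwi : IsInert K L w)
    (hwp : (p : 𝓞 K) ∉ w.asIdeal) (hwu : w.valuation K u = 1)
    (x : K) (hx : w.valuation K (u - x ^ p) < 1) : False := by
  classical
  haveI : NeZero p := ⟨hp.ne_zero⟩
  obtain ⟨W, hW⟩ := SU_exists_above (K := K) (L := L) w
  have hWu : W.valuation L (algebraMap K L u) = 1 := by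
    rw [h42ax_val_up_eq_one, hW]
    exact hwu
  have hWβ : W.valuation L β = 1 := by
    refine SU_pow_eq_one hp.ne_zero ?_
    rw [← map_pow, hβ]
    exact hWu
  have hβ0 : β ≠ 0 := by
    rintro rfl
    rw [map_zero] at hWβ
    exact zero_ne_one hWβ
  set x' : L := algebraMap K L x with hx'
  -- step 1
  have h1 : W.valuation L (β ^ p - x' ^ p) < 1 := by
    have : β ^ p - x' ^ p = algebraMap K L (u - x ^ p) := by
      rw [hβ, hx', map_sub, map_pow]
    rw [this, h42ax_val_up_lt_one, hW]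
    exact hx
  -- step 2
  have hζL : IsPrimitiveRoot (algebraMap K L ζ) p :=
    hζ.map_of_injective (algebraMap K L).injective
  have hprod := hζL.pow_sub_pow_eq_prod_sub_mul β x' hp.pos
  obtain ⟨μ, hμmem, hμ⟩ : ∃ μ ∈ nthRootsFinset p (1 : L), W.valuation L (β - μ * x') < 1 := by
    by_contra hcon
    simp only [not_exists, not_and, not_lt] at hcon
    rw [hprod, map_prod] at h1
    have : (1 : WithZero (Multiplicative ℤ)) ≤
        ∏ μ ∈ nthRootsFinset p (1 : L), W.valuation L (β - μ * x') :=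
      Finset.one_le_prod' fun μ hμ => hcon μ hμ
    exact absurd h1 (not_lt.mpr this)
  -- step 3
  have hμp : μ ^ p = 1 := ((mem_nthRootsFinset hp.pos 1).mp hμmem)
  obtain ⟨i, -, hi⟩ := hζL.eq_pow_of_pow_eq_one hμp
  have hσμ : σ (μ * x') = μ * x' := by
    rw [← hi, hx', ← map_pow, ← map_mul]
    exact σ.commutes _
  -- step 4
  have hpull : SU_pull σ W = W :=
    h42ax_inert_unique w hwi _ _ (by rw [SU_pull_under, hW]) hW
  have h4 : W.valuation L (σ β - μ * x') < 1 := by
    have : σ β - μ * x' = σ (β - μ * x') := by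
      rw [map_sub, hσμ]
    rw [this, SU_valuation_gal, hpull]
    exact hμ
  -- step 5
  have h5 : W.valuation L (σ β - β) < 1 := by
    have : σ β - β = (σ β - μ * x') - (β - μ * x') := by ring
    rw [this]
    exact Valuation.map_sub_lt _ h4 hμ
  -- step 6
  set η : L := σ β / β with hη
  have hηβ : σ β = η * β := by
    rw [hη, div_mul_cancel₀ _ hβ0]
  have hηp : η ^ p = 1 := by
    rw [hη, div_pow, ← map_pow, hβ]
    rw [σ.commutes, div_self]
    rw [← hβ]
    exact pow_ne_zero _ hβ0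
  have hη1 : η ≠ 1 := by
    intro h
    apply hσ
    rw [hηβ, h, one_mul]
  -- step 7
  have h7 : W.valuation L (η - 1) < 1 := by
    have : σ β - β = (η - 1) * β := by
      rw [hηβ]
      ring
    rw [this, map_mul, hWβ, mul_one] at h5
    exact h5
  -- steps 8, 9
  have h9 := h42ax_root_not_cong p W η hηp hη1 h7
  apply hwp
  rw [← hW, h42ax_natCast_mem_under]
  exact h9

/-- the primes above a finite set are finite in number. -/
theorem h42ax_finite_above (T₀ : Finset (HeightOneSpectrum (𝓞 K))) :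
    {w : HeightOneSpectrum (𝓞 L) | w.under (𝓞 K) ∈ T₀}.Finite := by
  have h : Finite (SU_above K L (T₀ : Set (HeightOneSpectrum (𝓞 K)))) :=
    SU_finite_above (K := K) (L := L) (T₀ : Set (HeightOneSpectrum (𝓞 K)))
  exact Set.finite_coe_iff.mp h

end up

/-- **the auxiliary prime, abstract form** (`K₂ / K₁` a given Kummer layer). -/
theorem h42ax_core_abs (p : ℕ) (hp : p.Prime) (L K1 K2 : Type) [Field L] [NumberField L]
    [Field K1] [NumberField K1] [Field K2] [NumberField K2] [Algebra L K1] [Algebra K1 K2]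
    [IsGalois K1 K2] [IsCyclic Gal(K2/K1)]
    (ζ : L) (hζ : IsPrimitiveRoot ζ p) (a u : Lˣ) (α : K1)
    (hα : α ^ p = algebraMap L K1 (a : L)) (β : K2)
    (hβ : β ^ p = algebraMap K1 K2 (algebraMap L K1 (u : L))) (σ : Gal(K2/K1)) (hσ : σ β ≠ β)
    (T₀ : Finset (HeightOneSpectrum (𝓞 L))) :
    ∃ v : HeightOneSpectrum (𝓞 L), v ∉ T₀ ∧ (p : 𝓞 L) ∉ v.asIdeal ∧
        v.valuation L (a : L) = 1 ∧ v.valuation L (u : L) = 1 ∧
        (∃ x : Lˣ, v.valuation L ((a : L) / (x : L) ^ p - 1) < 1) ∧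
        ¬ ∃ x : Lˣ, v.valuation L ((u : L) / (x : L) ^ p - 1) < 1 := by
  classical
  have hp0 : (p : K1) ≠ 0 := Nat.cast_ne_zero.mpr hp.ne_zero
  set a' : K1ˣ := Units.map (algebraMap L K1 : L →* K1) a with ha'
  set u' : K1ˣ := Units.map (algebraMap L K1 : L →* K1) u with hu'
  set T : Set (HeightOneSpectrum (𝓞 K1)) :=
    {w | w.under (𝓞 L) ∈ T₀} ∪ {w | w.valuation K1 ((Units.mk0 (p : K1) hp0 : K1ˣ) : K1) ≠ 1} ∪
      {w | w.valuation K1 (a' : K1) ≠ 1} ∪ {w | w.valuation K1 (u' : K1) ≠ 1} with hT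
  have hTfin : T.Finite :=
    (((h42ax_finite_above T₀).union (h42nu_finite_ne_one _)).union
      (h42nu_finite_ne_one a')).union (h42nu_finite_ne_one u')
  obtain ⟨w, hwT, hw1, hwi⟩ := exists_degOne_isInert K1 K2 T hTfin
  have hw_T₀ : w.under (𝓞 L) ∉ T₀ := fun h => hwT (Or.inl (Or.inl (Or.inl h)))
  have hw_p : w.valuation K1 (p : K1) = 1 := by
    by_contra h
    exact hwT (Or.inl (Or.inl (Or.inr h)))
  have hw_a : w.valuation K1 (algebraMap L K1 (a : L)) = 1 := by
    by_contra h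
    exact hwT (Or.inl (Or.inr h))
  have hw_u : w.valuation K1 (algebraMap L K1 (u : L)) = 1 := by
    by_contra h
    exact hwT (Or.inr h)
  have hwp : (p : 𝓞 K1) ∉ w.asIdeal := by
    intro h
    have hcast : algebraMap (𝓞 K1) K1 (p : 𝓞 K1) = (p : K1) := map_natCast _ _
    have h' : w.valuation K1 (algebraMap (𝓞 K1) K1 (p : 𝓞 K1)) < 1 :=
      (HeightOneSpectrum.valuation_lt_one_iff_mem w _).mpr h
    rw [hcast, hw_p] at h'
    exact lt_irrefl _ h'
  have hva : (w.under (𝓞 L)).valuation L (a : L) = 1 := (h42ax_val_up_eq_one w _).mp hw_a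
  have hvu : (w.under (𝓞 L)).valuation L (u : L) = 1 := (h42ax_val_up_eq_one w _).mp hw_u
  refine ⟨w.under (𝓞 L), hw_T₀, ?_, hva, hvu, ?_, ?_⟩
  · rw [h42ax_natCast_mem_under]
    exact hwp
  · exact h42ax_pow_mod p w hw1 a α hα hp.ne_zero hw_a
  · rintro ⟨x, hx⟩
    -- `x` is a unit at `v`
    have hx1 : (w.under (𝓞 L)).valuation L ((u : L) / (x : L) ^ p) = 1 := by
      have := Valuation.map_one_add_of_lt (v := (w.under (𝓞 L)).valuation L) hx
      simpa using this
    have hvx : (w.under (𝓞 L)).valuation L ((x : L) ^ p) = 1 := by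
      rw [map_div₀, hvu] at hx1
      have h0 : (w.under (𝓞 L)).valuation L ((x : L) ^ p) ≠ 0 := by
        rw [Ne, map_eq_zero]
        exact pow_ne_zero _ x.ne_zero
      rw [div_eq_iff h0, one_mul] at hx1
      exact hx1.symm
    have hcong : h24sr_Cong (w.under (𝓞 L)) (u : L) ((x : L) ^ p) :=
      (h24sr_div_sub_one hvx).mp hx
    have hcong' : w.valuation K1 (algebraMap L K1 (u : L) - (algebraMap L K1 (x : L)) ^ p) < 1 := by
      rw [← map_pow, ← map_sub, h42ax_val_up_lt_one]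
      exact hcong
    exact h42ax_not_pow_mod p hp (algebraMap L K1 ζ)
      (hζ.map_of_injective (algebraMap L K1).injective) (algebraMap L K1 (u : L)) β hβ σ hσ w hwi
      hwp hw_u (algebraMap L K1 (x : L)) hcong'

/-- **the auxiliary prime, splitting field form.** -/
theorem h42ax_core_sf (p : ℕ) (hp : p.Prime) (L K1 K2 : Type) [Field L] [NumberField L]
    [Field K1] [NumberField K1] [Field K2] [Algebra L K1] [Algebra K1 K2]
    (ζ : L) (hζ : IsPrimitiveRoot ζ p) (a u : Lˣ) (α : K1)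
    (hα : α ^ p = algebraMap L K1 (a : L)) (hu : ∀ γ : K1, γ ^ p ≠ algebraMap L K1 (u : L))
    [IsSplittingField K1 K2 (X ^ p - C (algebraMap L K1 (u : L)))]
    (T₀ : Finset (HeightOneSpectrum (𝓞 L))) :
    ∃ v : HeightOneSpectrum (𝓞 L), v ∉ T₀ ∧ (p : 𝓞 L) ∉ v.asIdeal ∧
        v.valuation L (a : L) = 1 ∧ v.valuation L (u : L) = 1 ∧
        (∃ x : Lˣ, v.valuation L ((a : L) / (x : L) ^ p - 1) < 1) ∧
        ¬ ∃ x : Lˣ, v.valuation L ((u : L) / (x : L) ^ p - 1) < 1 := by
  classical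
  haveI : NeZero p := ⟨hp.ne_zero⟩
  have hirr : Irreducible (X ^ p - C (algebraMap L K1 (u : L)) : K1[X]) :=
    X_pow_sub_C_irreducible_of_prime hp hu
  have hζ1 : IsPrimitiveRoot (algebraMap L K1 ζ) p :=
    hζ.map_of_injective (algebraMap L K1).injective
  have hζ1' : (primitiveRoots p K1).Nonempty :=
    ⟨algebraMap L K1 ζ, (mem_primitiveRoots hp.pos).mpr hζ1⟩
  haveI : FiniteDimensional K1 K2 :=
    Polynomial.IsSplittingField.finiteDimensional K2 (X ^ p - C (algebraMap L K1 (u : L)))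
  haveI : NumberField K2 := NumberField.of_module_finite K1 K2
  haveI : IsGalois K1 K2 := isGalois_of_isSplittingField_X_pow_sub_C hζ1' hirr K2
  haveI : IsCyclic Gal(K2/K1) := isCyclic_of_isSplittingField_X_pow_sub_C hζ1' hirr K2
  set β : K2 := rootOfSplitsXPowSubC hp.pos (algebraMap L K1 (u : L)) K2 with hβdef
  have hβ : β ^ p = algebraMap K1 K2 (algebraMap L K1 (u : L)) :=
    rootOfSplitsXPowSubC_pow (algebraMap L K1 (u : L)) K2
  have hβ0 : β ≠ 0 := by
    intro h
    rw [h, zero_pow hp.ne_zero] at hβ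
    have h0 : algebraMap L K1 (u : L) = 0 :=
      (algebraMap K1 K2).injective (by rw [← hβ, map_zero])
    have h1 : (u : L) = 0 := (algebraMap L K1).injective (by rw [h0, map_zero])
    exact u.ne_zero h1
  set σ : Gal(K2/K1) := (autEquivZmod hirr K2 hζ1).symm (Multiplicative.ofAdd ((1 : ℕ) : ZMod p))
    with hσdef
  have hσβ : σ β = (algebraMap L K1 ζ) ^ 1 • β :=
    autEquivZmod_symm_apply_natCast hirr K2 hβ hζ1 1
  have hσ : σ β ≠ β := by
    rw [hσβ, pow_one, Algebra.smul_def]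
    intro h
    have h1 : algebraMap K1 K2 (algebraMap L K1 ζ) = 1 := by
      have := mul_right_cancel₀ hβ0 (h.trans (one_mul β).symm)
      exact this
    have h2 : algebraMap L K1 ζ = 1 := (algebraMap K1 K2).injective (by rw [h1, map_one])
    exact hζ1.ne_one hp.one_lt h2
  exact h42ax_core_abs p hp L K1 K2 ζ hζ a u α hα β hβ σ hσ T₀

/-- **(SI-AUX, part B) the auxiliary prime.** -/
theorem h42ax_core (p : ℕ) (hp : p.Prime) (L K1 : Type) [Field L] [NumberField L]
    [Field K1] [NumberField K1] [Algebra L K1]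
    (ζ : L) (hζ : IsPrimitiveRoot ζ p) (a u : Lˣ) (α : K1)
    (hα : α ^ p = algebraMap L K1 (a : L)) (hu : ∀ γ : K1, γ ^ p ≠ algebraMap L K1 (u : L))
    (T₀ : Finset (HeightOneSpectrum (𝓞 L))) :
    ∃ v : HeightOneSpectrum (𝓞 L), v ∉ T₀ ∧ (p : 𝓞 L) ∉ v.asIdeal ∧
        v.valuation L (a : L) = 1 ∧ v.valuation L (u : L) = 1 ∧
        (∃ x : Lˣ, v.valuation L ((a : L) / (x : L) ^ p - 1) < 1) ∧
        ¬ ∃ x : Lˣ, v.valuation L ((u : L) / (x : L) ^ p - 1) < 1 := by
  have hirr : Irreducible (X ^ p - C (algebraMap L K1 (u : L)) : K1[X]) :=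
    X_pow_sub_C_irreducible_of_prime hp hu
  have hζ1' : (primitiveRoots p K1).Nonempty :=
    ⟨algebraMap L K1 ζ, (mem_primitiveRoots hp.pos).mpr
      (hζ.map_of_injective (algebraMap L K1).injective)⟩
  haveI : Fact (Irreducible (X ^ p - C (algebraMap L K1 (u : L)) : K1[X])) := ⟨hirr⟩
  haveI := isSplittingField_AdjoinRoot_X_pow_sub_C hζ1' hirr
  exact h42ax_core_sf p hp L K1 (AdjoinRoot (X ^ p - C (algebraMap L K1 (u : L)) : K1[X]))
    ζ hζ a u α hα hu T₀

end Fermat.Agent.PT.Glob
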