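import Mathlib
import Fermat.Agent.PT.Glob.H96KKumBasic

/-!
# W3-PT / GLOB-SI, leaf SI-AUX (second seat helper6), part 1: Kummer separation in `ℚ̄`

`F ⊆ ℚ̄` a field containing a primitive `p`-th root of unity `ζ`, `α ^ p, β ^ p ∈ F`.  If
`β ^ p ∉ ⟨α ^ p⟩ · (Fˣ) ^ p`, there is `τ ∈ G_F` fixing `α` and moving `β`.
-/

set_option autoImplicit false

namespace Fermat.Agent.PT.Glob

open Fermat.Agent.Bridge Fermat.Agent.PT.Bridge

/-- Exponents of a `p`-th root of unity only matter modulo `p`. -/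
theorem h6a_pow_mod {ζ : Qb} {p : ℕ} (hζ : ζ ^ p = 1) (x : ℕ) : ζ ^ (x % p) = ζ ^ x := by
  conv_rhs => rw [← Nat.mod_add_div x p]
  rw [pow_add, pow_mul, hζ, one_pow, mul_one]

/-- An additive function on a subgroup is compatible with powers. -/
theorem h6a_kum_pow {n : ℕ} {κ : GQ → ZMod n} {U : Subgroup GQ}
    (hadd : ∀ g ∈ U, ∀ h ∈ U, κ (g * h) = κ g + κ h) (τ : GQ) (hτ : τ ∈ U) (m : ℕ) :
    κ (τ ^ m) = (m : ZMod n) * κ τ := by
  have h1 : κ 1 = 0 := by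
    have := hadd 1 U.one_mem 1 U.one_mem
    rw [mul_one] at this
    exact left_eq_add.mp this
  induction m with
  | zero => simp [h1]
  | succ m ih =>
    rw [pow_succ, hadd _ (U.pow_mem hτ m) _ hτ, ih]
    push_cast
    ring

/-- **Kummer separation.** -/
theorem h6a_exists_tau (p : ℕ) (hp : p.Prime) (F : IntermediateField ℚ Qb) (ζ α β : Qb)
    (hζF : ζ ∈ F) (hζ : IsPrimitiveRoot ζ p) (hα : α ≠ 0) (hβ : β ≠ 0) (hαp : α ^ p ∈ F)
    (hβp : β ^ p ∈ F)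
    (hker : ∀ (i : ℕ) (x : Qb), x ∈ F → x ≠ 0 → β ^ p ≠ (α ^ p) ^ i * x ^ p) :
    ∃ τ : GQ, τ ∈ F.fixingSubgroup ∧ τ α = α ∧ τ β ≠ β := by
  haveI : NeZero p := ⟨hp.ne_zero⟩
  haveI : Fact p.Prime := ⟨hp⟩
  obtain ⟨hα1, hα2, -, -⟩ := h96k_kKumBasic p F ζ α hζF hζ hα hαp
  obtain ⟨hβ1, hβ2, -, hβ4⟩ := h96k_kKumBasic p F ζ β hζF hζ hβ hβp
  by_contra hcon
  push Not at hcon
  have hzero : ∀ {B : Qb}, B ≠ 0 → ∀ τ : GQ, τ B = B → kumQ p ζ B τ = 0 := by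
    intro B hB τ h
    have := h96k_kumQ_eq_natCast hζ hB (g := τ) (i := 0) (by simpa using h)
    simpa using this
  have hk : ∀ τ ∈ F.fixingSubgroup, kumQ p ζ α τ = 0 → kumQ p ζ β τ = 0 := by
    intro τ hτ h0
    have h1 : τ α = α := by
      rw [hα1 τ hτ, h0]
      simp
    exact hzero hβ τ (hcon τ hτ h1)
  by_cases hall : ∀ τ ∈ F.fixingSubgroup, kumQ p ζ α τ = 0
  · have hβF : β ∈ F := hβ4.mp (fun τ hτ => hk τ hτ (hall τ hτ))
    exact hker 0 β hβF hβ (by simp)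
  · push Not at hall
    obtain ⟨τ₀, hτ₀, he₀⟩ := hall
    -- the proportionality constant
    have hprop : ∀ τ ∈ F.fixingSubgroup,
        kumQ p ζ β τ = (kumQ p ζ β τ₀ * (kumQ p ζ α τ₀)⁻¹) * kumQ p ζ α τ := by
      intro τ hτ
      set m : ZMod p := kumQ p ζ α τ * (kumQ p ζ α τ₀)⁻¹ with hm
      have hτ' : τ * τ₀ ^ (-m).val ∈ F.fixingSubgroup :=
        Subgroup.mul_mem _ hτ (Subgroup.pow_mem _ hτ₀ _)
      have hpow : ∀ κ : GQ → ZMod p,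
          (∀ g ∈ F.fixingSubgroup, ∀ h ∈ F.fixingSubgroup, κ (g * h) = κ g + κ h) →
          κ (τ * τ₀ ^ (-m).val) = κ τ - m * κ τ₀ := by
        intro κ hκ
        rw [hκ _ hτ _ (Subgroup.pow_mem _ hτ₀ _), h6a_kum_pow hκ τ₀ hτ₀, ZMod.natCast_val,
          ZMod.cast_id]
        ring
      have h1 : kumQ p ζ α (τ * τ₀ ^ (-m).val) = 0 := by
        rw [hpow _ hα2, hm, mul_assoc, inv_mul_cancel₀ he₀, mul_one, sub_self]
      have h2 := hk _ hτ' h1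
      rw [hpow _ hβ2] at h2
      rw [sub_eq_zero.mp h2, hm]
      ring
    set c : ZMod p := kumQ p ζ β τ₀ * (kumQ p ζ α τ₀)⁻¹ with hc
    -- `B' = β / α ^ c` is fixed by `G_F`
    have hζp : ζ ^ p = 1 := hζ.pow_eq_one
    have hB'0 : β * (α ^ c.val)⁻¹ ≠ 0 := mul_ne_zero hβ (inv_ne_zero (pow_ne_zero _ hα))
    have hB'p : (β * (α ^ c.val)⁻¹) ^ p ∈ F := by
      have e : (β * (α ^ c.val)⁻¹) ^ p = β ^ p * ((α ^ p) ^ c.val)⁻¹ := by
        rw [mul_pow, inv_pow, ← pow_mul, ← pow_mul, mul_comm c.val p]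
      rw [e]
      exact F.mul_mem hβp (F.inv_mem (pow_mem hαp c.val))
    have hfix : ∀ τ ∈ F.fixingSubgroup, τ (β * (α ^ c.val)⁻¹) = β * (α ^ c.val)⁻¹ := by
      intro τ hτ
      have e1 : ζ ^ (kumQ p ζ β τ).val = ζ ^ ((kumQ p ζ α τ).val * c.val) := by
        rw [hprop τ hτ, ZMod.val_mul, h6a_pow_mod hζp, mul_comm]
      rw [map_mul, map_inv₀, map_pow, hβ1 τ hτ, hα1 τ hτ, e1, mul_pow, ← pow_mul]
      have hz0 : ζ ^ ((kumQ p ζ α τ).val * c.val) ≠ 0 :=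
        pow_ne_zero _ (hζ.ne_zero hp.ne_zero)
      have hα0 : α ^ c.val ≠ 0 := pow_ne_zero _ hα
      field_simp
    obtain ⟨-, -, -, hB4⟩ := h96k_kKumBasic p F ζ (β * (α ^ c.val)⁻¹) hζF hζ hB'0 hB'p
    have hB'F : β * (α ^ c.val)⁻¹ ∈ F := hB4.mp (fun τ hτ => hzero hB'0 τ (hfix τ hτ))
    refine hker c.val (β * (α ^ c.val)⁻¹) hB'F hB'0 ?_
    rw [mul_pow, inv_pow, ← pow_mul, ← pow_mul, mul_comm c.val p]
    have hα0 : α ^ (p * c.val) ≠ 0 := pow_ne_zero _ hα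
    field_simp

end Fermat.Agent.PT.Glob
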