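import Mathlib
import Fermat.Agent.PT.Glob.SI.H6AuxKum
import Fermat.Agent.Cheb.Final
import Fermat.Agent.Cheb.Compare
import Fermat.Agent.Bridge.Restrict
import Fermat.Agent.S29.CycChar
import Fermat.Agent.S54.FrobValuation

/-!
# W3-PT / GLOB-SI, leaf SI-AUX (second seat helper6), part 2: the auxiliary Frobenius in `ℚ̄`

* `h6a_exists_frob` : in the situation of `h6a_exists_tau` there is, outside any finite set of
  primes, a Frobenius element `σ` (at a valuation subring `A` of `ℚ̄` over `ℓ`) which fixes `F`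
  and `α` and moves `β` (weak Chebotarev over `ℚ`, `Cheb.WC_exists_isFrobeniusAt_pow`).
* `h6a_exists_nat` : an element of `A` fixed by a Frobenius element is congruent to a natural
  number modulo the maximal ideal.
* `h6a_pow_sub_pow_mem` : `x ≡ y ⇒ x ^ m ≡ y ^ m`.
* `h6a_not_pth` : if `σ` moves `β` (`β ^ p` a unit), `β ^ p` is not congruent to `x ^ p` for any
  `σ`-fixed `x`.
-/

set_option autoImplicit false

namespace Fermat.Agent.PT.Glob

open Fermat.Agent.Bridge Fermat.Agent.PT.Bridge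

/-- Powers of an automorphism fixing `x` fix `x`. -/
theorem h6a_pow_apply_fix (τ : GQ) {x : Qb} (h : τ x = x) (n : ℕ) : (τ ^ n) x = x := by
  induction n with
  | zero => rfl
  | succ n ih =>
    rw [pow_succ]
    show (τ ^ n) (τ x) = x
    rw [h, ih]

/-- Powers of an automorphism acting on `β` through a root of unity. -/
theorem h6a_pow_apply_kum (τ : GQ) {ζ β : Qb} {j : ℕ} (hζ : τ ζ = ζ) (hβ : τ β = ζ ^ j * β)
    (n : ℕ) : (τ ^ n) β = ζ ^ (j * n) * β := by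
  induction n with
  | zero => simp
  | succ n ih =>
    rw [pow_succ]
    show (τ ^ n) (τ β) = _
    rw [hβ, map_mul, map_pow, h6a_pow_apply_fix τ hζ n, ih]
    ring

/-- **The auxiliary Frobenius element.** -/
theorem h6a_exists_frob (p : ℕ) (hp : p.Prime) (F : IntermediateField ℚ Qb)
    [FiniteDimensional ℚ F] (ζ α β : Qb)
    (hζF : ζ ∈ F) (hζ : IsPrimitiveRoot ζ p) (hα : α ≠ 0) (hβ : β ≠ 0) (hαp : α ^ p ∈ F)
    (hβp : β ^ p ∈ F)
    (hker : ∀ (i : ℕ) (x : Qb), x ∈ F → x ≠ 0 → β ^ p ≠ (α ^ p) ^ i * x ^ p)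
    (S : Finset ℕ) :
    ∃ (ℓ : ℕ) (A : ValuationSubring Qb) (σ : GQ), ℓ.Prime ∧ ℓ ∉ S ∧ A.LiesOverPrime ℓ ∧
      A.IsFrobeniusAt σ ℓ ∧ (∀ x ∈ F, σ x = x) ∧ σ α = α ∧
      ∃ j : ℕ, ¬ p ∣ j ∧ σ β = ζ ^ j * β := by
  haveI : NeZero p := ⟨hp.ne_zero⟩
  obtain ⟨τ, hτF, hτα, hτβ⟩ := h6a_exists_tau p hp F ζ α β hζF hζ hα hβ hαp hβp hker
  have hτfix : ∀ x ∈ F, τ x = x := fun x hx =>
    (IntermediateField.mem_fixingSubgroup_iff F τ).mp hτF x hx
  obtain ⟨hβ1, -, -, -⟩ := h96k_kKumBasic p F ζ β hζF hζ hβ hβp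
  set j : ℕ := (kumQ p ζ β τ).val with hj
  have hτβ' : τ β = ζ ^ j * β := hβ1 τ hτF
  have hζp : ζ ^ p = 1 := hζ.pow_eq_one
  have hζ0 : ζ ≠ 0 := hζ.ne_zero hp.ne_zero
  -- `ζ ^ m * β = β ↔ p ∣ m`
  have hdvd : ∀ m : ℕ, ζ ^ m * β = β → p ∣ m := by
    intro m hm
    have h1 : ζ ^ m = 1 := by
      have := mul_right_cancel₀ hβ (hm.trans (one_mul β).symm)
      exact this
    exact (hζ.pow_eq_one_iff_dvd m).mp h1
  have hpj : ¬ p ∣ j := by
    intro hdj
    apply hτβ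
    obtain ⟨c, hc⟩ := hdj
    rw [hτβ', hc, pow_mul, hζp, one_pow, one_mul]
  -- the Galois closure
  have : Algebra.IsAlgebraic ℚ Qb := AlgebraicClosure.isAlgebraic ℚ
  have : IsAlgClosure ℚ Qb := ⟨inferInstance, inferInstance⟩
  have : Normal ℚ Qb := IsAlgClosure.normal ℚ Qb
  let L₁ : IntermediateField ℚ Qb := IntermediateField.adjoin ℚ ({α, β} : Set Qb)
  have hL₁fin : FiniteDimensional ℚ L₁ :=
    IntermediateField.finiteDimensional_adjoin (fun x _ => (Algebra.IsIntegral.isIntegral x))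
  let L₂ : IntermediateField ℚ Qb := F ⊔ L₁
  have hL₂fin : FiniteDimensional ℚ L₂ := IntermediateField.finiteDimensional_sup F L₁
  let N : IntermediateField ℚ Qb := IntermediateField.normalClosure ℚ L₂ Qb
  have hNfin : FiniteDimensional ℚ N := normalClosure.is_finiteDimensional ℚ L₂ Qb
  have hNnormal : Normal ℚ N := normalClosure.normal ℚ L₂ Qb
  have hNgal : IsGalois ℚ N := ⟨⟩
  have hLN : L₂ ≤ N := IntermediateField.le_normalClosure L₂
  have hFN : F ≤ N := le_trans le_sup_left hLN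
  have hαN : α ∈ N := hLN (le_sup_right (a := F)
    (IntermediateField.subset_adjoin ℚ _ (Set.mem_insert _ _)))
  have hβN : β ∈ N := hLN (le_sup_right (a := F)
    (IntermediateField.subset_adjoin ℚ _ (Set.mem_insert_of_mem _ rfl)))
  obtain ⟨ℓ, A, σ, k, hℓ, hℓS, hA, hσ, -, hcop, hσN⟩ :=
    Fermat.Agent.Cheb.WC_exists_isFrobeniusAt_pow N τ S
  refine ⟨ℓ, A, σ, hℓ, hℓS, hA, hσ, ?_, ?_, j * k, ?_, ?_⟩
  · intro x hx
    rw [hσN x (hFN hx)]
    exact h6a_pow_apply_fix τ (hτfix x hx) k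
  · rw [hσN α hαN]
    exact h6a_pow_apply_fix τ hτα k
  · -- `p ∤ j * k`
    intro hd
    rcases (Nat.Prime.dvd_mul hp).mp hd with h | h
    · exact hpj h
    · -- `p ∣ orderOf (τ | N)`
      have ho : p ∣ orderOf (AlgEquiv.restrictNormalHom N τ) := by
        have h1 : AlgEquiv.restrictNormalHom N (τ ^ orderOf (AlgEquiv.restrictNormalHom N τ))
            = 1 := by
          rw [map_pow, pow_orderOf_eq_one]
        have h2 := Fermat.Agent.Cheb.G2_fixes_of_restrictNormalHom_eq_one N _ h1 β hβN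
        rw [h6a_pow_apply_kum τ (hτfix ζ hζF) hτβ'] at h2
        rcases (Nat.Prime.dvd_mul hp).mp (hdvd _ h2) with h3 | h3
        · exact absurd h3 hpj
        · exact h3
      have h1 : p ∣ Nat.gcd k (orderOf (AlgEquiv.restrictNormalHom N τ)) :=
        Nat.dvd_gcd h ho
      rw [Nat.Coprime] at hcop
      rw [hcop] at h1
      exact hp.one_lt.ne' (Nat.dvd_one.mp h1)
  · rw [hσN β hβN]
    exact h6a_pow_apply_kum τ (hτfix ζ hζF) hτβ' k

/-! ## Residue computations at a valuation subring of `ℚ̄` -/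

theorem h6a_nonunits_add (A : ValuationSubring Qb) {x y : Qb} (hx : x ∈ A.nonunits)
    (hy : y ∈ A.nonunits) : x + y ∈ A.nonunits := by
  rw [A.mem_nonunits_iff] at hx hy ⊢
  exact Valuation.map_add_lt _ hx hy

theorem h6a_nonunits_sub (A : ValuationSubring Qb) {x y : Qb} (hx : x ∈ A.nonunits)
    (hy : y ∈ A.nonunits) : x - y ∈ A.nonunits := by
  rw [A.mem_nonunits_iff] at hx hy ⊢
  exact Valuation.map_sub_lt _ hx hy

theorem h6a_nonunits_mul (A : ValuationSubring Qb) {x y : Qb} (hx : x ∈ A)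
    (hy : y ∈ A.nonunits) : x * y ∈ A.nonunits := by
  rw [A.mem_nonunits_iff] at hy ⊢
  rw [map_mul]
  calc A.valuation x * A.valuation y ≤ 1 * A.valuation y :=
        mul_le_mul_left ((A.valuation_le_one_iff x).mpr hx) _
    _ = A.valuation y := one_mul _
    _ < 1 := hy

/-- `x ≡ y ⇒ x ^ m ≡ y ^ m` modulo the maximal ideal. -/
theorem h6a_pow_sub_pow_mem (A : ValuationSubring Qb) {x y : Qb} (hx : x ∈ A) (hy : y ∈ A)
    (h : x - y ∈ A.nonunits) (m : ℕ) : x ^ m - y ^ m ∈ A.nonunits := by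
  induction m with
  | zero =>
    simp only [pow_zero, sub_self]
    rw [A.mem_nonunits_iff, map_zero]
    exact zero_lt_one
  | succ m ih =>
    have e : x ^ (m + 1) - y ^ (m + 1) = x ^ m * (x - y) + y * (x ^ m - y ^ m) := by ring
    rw [e]
    exact h6a_nonunits_add A (h6a_nonunits_mul A (pow_mem hx m) h) (h6a_nonunits_mul A hy ih)

/-- A product of elements of `A` lying in the maximal ideal has a factor in the maximal
ideal. -/
theorem h6a_prod_mem_nonunits (A : ValuationSubring Qb) {ι : Type*} (s : Finset ι)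
    (f : ι → Qb) (hf : ∀ i ∈ s, f i ∈ A) (h : ∏ i ∈ s, f i ∈ A.nonunits) :
    ∃ i ∈ s, f i ∈ A.nonunits := by
  by_contra hcon
  push Not at hcon
  have h1 : ∀ i ∈ s, A.valuation (f i) = 1 := by
    intro i hi
    have h2 : A.valuation (f i) ≤ 1 := (A.valuation_le_one_iff _).mpr (hf i hi)
    have h3 : ¬ A.valuation (f i) < 1 := fun h' => hcon i hi (A.mem_nonunits_iff.mpr h')
    exact le_antisymm h2 (not_lt.mp h3)
  rw [A.mem_nonunits_iff, map_prod, Finset.prod_congr rfl h1, Finset.prod_const_one] at h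
  exact lt_irrefl _ h

/-- An element of `A` fixed by a Frobenius element is congruent to a natural number. -/
theorem h6a_exists_nat (A : ValuationSubring Qb) {ℓ : ℕ} (hℓ : ℓ.Prime)
    (hA : A.LiesOverPrime ℓ) {σ : GQ} (hσ : A.IsFrobeniusAt σ ℓ) {x : Qb} (hx : x ∈ A)
    (hσx : σ x = x) : ∃ n : ℕ, x - (n : Qb) ∈ A.nonunits := by
  haveI : Fact ℓ.Prime := ⟨hℓ⟩
  have h1 : x - x ^ ℓ ∈ A.nonunits := by
    have := Fermat.Agent.S29.CycChar.frobenius_sub_mem A hσ hx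
    rwa [hσx] at this
  -- `x ^ ℓ - x = ∏_{n < ℓ} (x - n) + ℓ * (...)`: use the residue field
  have hℓ0 : ((ℓ : ℕ) : IsLocalRing.ResidueField A) = 0 := by
    have h2 : ((ℓ : ℕ) : IsLocalRing.ResidueField A) = IsLocalRing.residue A ((ℓ : ℕ) : A) := by
      rw [map_natCast]
    rw [h2, IsLocalRing.residue_eq_zero_iff, ← ValuationSubring.coe_mem_nonunits_iff]
    have e : ((((ℓ : ℕ) : A) : A) : Qb) = ((ℓ : ℕ) : Qb) := by push_cast; rfl
    rw [e]
    exact hA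
  haveI : CharP (IsLocalRing.ResidueField A) ℓ := (CharP.charP_iff_prime_eq_zero hℓ).mpr hℓ0
  set r : IsLocalRing.ResidueField A := IsLocalRing.residue A ⟨x, hx⟩ with hr
  have hrℓ : r ^ ℓ = r := by
    have h3 : IsLocalRing.residue A (⟨x, hx⟩ - ⟨x, hx⟩ ^ ℓ) = 0 := by
      rw [IsLocalRing.residue_eq_zero_iff, ← ValuationSubring.coe_mem_nonunits_iff]
      simpa using h1
    rw [map_sub, map_pow, sub_eq_zero] at h3
    exact h3.symm
  have hbot : r ∈ (⊥ : Subfield (IsLocalRing.ResidueField A)) :=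
    (Subfield.mem_bot_iff_pow_eq_self (IsLocalRing.ResidueField A) ℓ).mpr hrℓ
  rw [← ZMod.fieldRange_castHom_eq_bot ℓ, RingHom.mem_fieldRange] at hbot
  obtain ⟨a, ha⟩ := hbot
  refine ⟨a.val, ?_⟩
  have h4 : IsLocalRing.residue A (⟨x, hx⟩ - ((a.val : ℕ) : A)) = 0 := by
    rw [map_sub, map_natCast, ← hr, ← ha, sub_eq_zero]
    simp
  rw [IsLocalRing.residue_eq_zero_iff, ← ValuationSubring.coe_mem_nonunits_iff] at h4
  have e : (((⟨x, hx⟩ - ((a.val : ℕ) : A) : A) : A) : Qb) = x - ((a.val : ℕ) : Qb) := by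
    push_cast
    rfl
  rw [e] at h4
  exact h4

/-- If `σ` (in the decomposition group of `A`, `A` over `ℓ ≠ p`) multiplies the unit `β` by a
nontrivial `p`-th root of unity, then `β ^ p` is not congruent to `x ^ p` for a `σ`-fixed
`x ∈ A`. -/
theorem h6a_not_pth (A : ValuationSubring Qb) {ℓ p : ℕ} (hℓ : ℓ.Prime) (hp : p.Prime)
    (hne : ℓ ≠ p) (hA : A.LiesOverPrime ℓ) {σ : GQ} (hσ : σ ∈ A.decompositionSubgroup ℚ)
    {ζ : Qb} (hζ : IsPrimitiveRoot ζ p) (hσζ : σ ζ = ζ) {β : Qb} (hβ : A.valuation β = 1)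
    {j : ℕ} (hj : ¬ p ∣ j) (hσβ : σ β = ζ ^ j * β) {x : Qb} (hx : x ∈ A) (hσx : σ x = x) :
    β ^ p - x ^ p ∉ A.nonunits := by
  haveI : NeZero p := ⟨hp.ne_zero⟩
  intro hmem
  have hβA : β ∈ A := (A.valuation_le_one_iff β).mp hβ.le
  have hζint : IsIntegral ℤ ζ := by
    refine ⟨Polynomial.X ^ p - 1, Polynomial.monic_X_pow_sub_C (1 : ℤ) hp.ne_zero, ?_⟩
    simp [hζ.pow_eq_one]
  have hζA : ζ ∈ A := Fermat.Agent.S54.mem_valuationSubring_of_isIntegral A hζint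
  rw [hζ.pow_sub_pow_eq_prod_sub_mul β x hp.pos] at hmem
  obtain ⟨ξ, hξ, hξmem⟩ := h6a_prod_mem_nonunits A _ (fun ξ => β - ξ * x) (by
    intro ξ hξ
    have hξp : ξ ^ p = 1 := (Polynomial.mem_nthRootsFinset hp.pos (1 : Qb)).mp hξ
    obtain ⟨i, -, rfl⟩ := hζ.eq_pow_of_pow_eq_one hξp
    exact sub_mem hβA (mul_mem (pow_mem hζA i) hx)) hmem
  have hξp : ξ ^ p = 1 := (Polynomial.mem_nthRootsFinset hp.pos (1 : Qb)).mp hξ
  obtain ⟨i, -, rfl⟩ := hζ.eq_pow_of_pow_eq_one hξp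
  -- `c = ζ ^ i * x` is fixed by `σ` and `β ≡ c`
  have hσc : σ (ζ ^ i * x) = ζ ^ i * x := by rw [map_mul, map_pow, hσζ, hσx]
  have h1 : σ (β - ζ ^ i * x) ∈ A.nonunits :=
    (Fermat.Agent.Bridge.mem_nonunits_of_mem_decomp hσ).mpr hξmem
  have h2 : σ β - β ∈ A.nonunits := by
    have e : σ β - β = σ (β - ζ ^ i * x) - (β - ζ ^ i * x) := by
      rw [map_sub, hσc]
      ring
    rw [e]
    exact h6a_nonunits_sub A h1 hξmem
  rw [hσβ] at h2
  have h3 : ζ ^ j - 1 ∈ A.nonunits := by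
    rw [A.mem_nonunits_iff] at h2 ⊢
    have e : ζ ^ j * β - β = (ζ ^ j - 1) * β := by ring
    rw [e, map_mul, hβ, mul_one] at h2
    exact h2
  have h4 : ζ ^ j = 1 :=
    Fermat.Agent.S29.CycChar.eq_of_sub_mem_nonunits A hp hℓ hne hA
      (by rw [← pow_mul, mul_comm, pow_mul, hζ.pow_eq_one, one_pow]) (one_pow p) h3
  exact hj ((hζ.pow_eq_one_iff_dvd j).mp h4)

end Fermat.Agent.PT.Glob
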