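import Mathlib
import Fermat.Agent.PT.Glob.SI.Iface
import Fermat.Agent.Cheb.Cyclic
import Fermat.Agent.PT.Units.SUnitHerbrand

/-!
# W3-PT / PT-GLOB / GLOB-SI, leaf SI-AUX: the auxiliary prime (helper7, second seat)

`h7ax_ifaceAuxPrime : IfaceAuxPrime`.  For a number field `L ∋ ζ_p` and `a, u ∈ Lˣ` with
`u ∉ ⟨a⟩ · (Lˣ)^p` there is, outside any finite set, a prime `v ∤ p` of `L` at which `a`, `u` are
units, `a` is a `p`-th power modulo `v` and `u` is not.

Proof.  Put `K1 = L(a^(1/p))` (or `K1 = L` if `a` is a `p`-th power in `L`).  By Kummer theory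
(`h7ax_kummer_indep`) `u` is not a `p`-th power in `K1`, so `K2 = K1(u^(1/p))` is cyclic of degree
`p` over `K1`.  Weak Chebotarev for cyclic extensions (`Fermat.Agent.Cheb.exists_degOne_isInert`)
gives a prime `w` of `K1` of absolute degree one, inert in `K2`, outside any finite set; let `v`
be the prime of `L` below `w`.  As the residue field of `w` is the prime field, `a^(1/p)` is
congruent to a natural number modulo `w`, so `a` is a `p`-th power modulo `v`.  If `u` were a
`p`-th power modulo `v`, then `u^(1/p) / x` would be congruent to a `p`-th root of unity modulo the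
only prime `W` of `K2` above `w`; applying a generator of `Gal(K2/K1)` (which preserves `W`) we
get `ζ ≡ 1` modulo `W`, so `W ∣ p`.
-/

set_option autoImplicit false
set_option linter.style.haveILetI false

open NumberField IsDedekindDomain Polynomial
open Fermat.Agent.PT.Units

namespace Fermat.Agent.PT.Glob

noncomputable section

section ValUp

variable {L K : Type} [Field L] [NumberField L] [Field K] [NumberField K] [Algebra L K]

/-- valuations above and below: `< 1`. -/
theorem h7ax_val_lt_one_iff (w : HeightOneSpectrum (𝓞 K)) (x : L) :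
    w.valuation K (algebraMap L K x) < 1 ↔ (w.under (𝓞 L)).valuation L x < 1 := by
  haveI hlo : w.asIdeal.LiesOver (w.under (𝓞 L)).asIdeal := ⟨rfl⟩
  have h := HeightOneSpectrum.valuation_liesOver K (w.under (𝓞 L)) w x
  have he : (w.under (𝓞 L)).asIdeal.ramificationIdx' w.asIdeal ≠ 0 :=
    Ideal.IsDedekindDomain.ramificationIdx'_ne_zero_of_liesOver w.asIdeal (w.under (𝓞 L)).ne_bot
  rw [← h]
  exact pow_lt_one_iff he

/-- valuations above and below: `= 1`. -/
theorem h7ax_val_eq_one_iff (w : HeightOneSpectrum (𝓞 K)) (x : L) :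
    w.valuation K (algebraMap L K x) = 1 ↔ (w.under (𝓞 L)).valuation L x = 1 := by
  haveI hlo : w.asIdeal.LiesOver (w.under (𝓞 L)).asIdeal := ⟨rfl⟩
  have h := HeightOneSpectrum.valuation_liesOver K (w.under (𝓞 L)) w x
  have he : (w.under (𝓞 L)).asIdeal.ramificationIdx' w.asIdeal ≠ 0 :=
    Ideal.IsDedekindDomain.ramificationIdx'_ne_zero_of_liesOver w.asIdeal (w.under (𝓞 L)).ne_bot
  rw [← h]
  exact pow_eq_one_iff_left he

end ValUp

section DegOne

variable {K : Type} [Field K] [NumberField K]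

/-- at a prime of degree one every integer is congruent to a natural number. -/
theorem h7ax_exists_nat_of_degOne (w : HeightOneSpectrum (𝓞 K))
    (hw : Fermat.Agent.Cheb.IsDegOne K w) (r : 𝓞 K) :
    ∃ n : ℕ, r - (n : 𝓞 K) ∈ w.asIdeal := by
  classical
  unfold Fermat.Agent.Cheb.IsDegOne at hw
  haveI : Finite (𝓞 K ⧸ w.asIdeal) := Ideal.finiteQuotientOfFreeOfNeBot w.asIdeal w.ne_bot
  haveI : Fintype (𝓞 K ⧸ w.asIdeal) := Fintype.ofFinite _
  have hcard : Fintype.card (𝓞 K ⧸ w.asIdeal) = Ideal.absNorm w.asIdeal := by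
    rw [Ideal.absNorm_apply, Submodule.cardQuot_apply, Nat.card_eq_fintype_card]
  let e := ZMod.ringEquivOfPrime (𝓞 K ⧸ w.asIdeal) hw hcard
  obtain ⟨z, hz⟩ := e.surjective (Ideal.Quotient.mk w.asIdeal r)
  haveI : NeZero (Ideal.absNorm w.asIdeal) := ⟨hw.ne_zero⟩
  refine ⟨z.val, ?_⟩
  rw [← Ideal.Quotient.eq, ← hz, map_natCast]
  conv_lhs => rw [← ZMod.natCast_zmod_val z]
  rw [map_natCast]

/-- at a prime of degree one every `w`-integral element is congruent to a natural number. -/
theorem h7ax_exists_nat_val (w : HeightOneSpectrum (𝓞 K))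
    (hw : Fermat.Agent.Cheb.IsDegOne K w) (y : K) (hy : w.valuation K y ≤ 1) :
    ∃ n : ℕ, w.valuation K (y - (n : K)) < 1 := by
  obtain ⟨r, hr⟩ := w.exists_valuation_sub_lt_of_integer (K := K) hy 1
  obtain ⟨n, hn⟩ := h7ax_exists_nat_of_degOne w hw r
  refine ⟨n, ?_⟩
  have h1 : w.valuation K (algebraMap (𝓞 K) K (r - (n : 𝓞 K))) < 1 :=
    (w.valuation_lt_one_iff_mem (K := K) _).2 hn
  have h2 : y - (n : K) = (y - algebraMap (𝓞 K) K r) + algebraMap (𝓞 K) K (r - (n : 𝓞 K)) := by
    rw [map_sub, map_natCast]; ring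
  rw [h2]
  refine Valuation.map_add_lt _ ?_ h1
  rw [Valuation.map_sub_swap]
  simpa using hr

end DegOne

section Inert

variable {K1 K2 : Type} [Field K1] [NumberField K1] [Field K2] [NumberField K2] [Algebra K1 K2]
  [IsGalois K1 K2]

/-- above an inert prime there is only one prime. -/
theorem h7ax_ncard_of_inert (w : HeightOneSpectrum (𝓞 K1))
    (hw : Fermat.Agent.Cheb.IsInert K1 K2 w) :
    (w.asIdeal.primesOver (𝓞 K2)).ncard = 1 := by
  have := w.isMaximal
  have h := Ideal.ncard_primesOver_mul_ramificationIdxIn_mul_inertiaDegIn w.asIdeal (𝓞 K2)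
    Gal(K2/K1)
  rw [IsGalois.card_aut_eq_finrank, hw.1, hw.2, one_mul] at h
  have hpos : 0 < Module.finrank K1 K2 := Module.finrank_pos
  exact Nat.eq_of_mul_eq_mul_right hpos (by rw [h, one_mul])

/-- the valuation at the prime above an inert prime is Galois invariant. -/
theorem h7ax_val_gal_of_inert (W : HeightOneSpectrum (𝓞 K2))
    (hw : Fermat.Agent.Cheb.IsInert K1 K2 (W.under (𝓞 K1))) (σ : Gal(K2/K1)) (x : K2) :
    W.valuation K2 (σ x) = W.valuation K2 x := by
  rw [SU_valuation_gal]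
  have hW : SU_pull σ W = W := by
    obtain ⟨P, hP⟩ := Set.ncard_eq_one.1 (h7ax_ncard_of_inert (W.under (𝓞 K1)) hw)
    have h1 : W.asIdeal ∈ (W.under (𝓞 K1)).asIdeal.primesOver (𝓞 K2) :=
      ⟨W.isPrime, ⟨rfl⟩⟩
    have h2 : (SU_pull σ W).asIdeal ∈ (W.under (𝓞 K1)).asIdeal.primesOver (𝓞 K2) := by
      refine ⟨(SU_pull σ W).isPrime, ⟨?_⟩⟩
      have := SU_pull_under σ W
      exact (congrArg HeightOneSpectrum.asIdeal this).symm
    rw [hP, Set.mem_singleton_iff] at h1 h2
    exact HeightOneSpectrum.ext (h2.trans h1.symm)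
  rw [hW]

end Inert

section Kummer

variable {L K1 : Type} [Field L] [Field K1] [Algebra L K1]

/-- **Kummer independence** (one step): if `K1` is the splitting field of the irreducible
polynomial `X ^ p - a` over `L ∋ ζ_p`, an element of `L` which is a `p`-th power in `K1` is of
the form `a ^ i * x ^ p`. -/
theorem h7ax_kummer_indep {p : ℕ} (hp : p.Prime) {ζ : L} (hζ : IsPrimitiveRoot ζ p) (a u : Lˣ)
    (H : Irreducible (X ^ p - C (a : L))) [IsSplittingField L K1 (X ^ p - C (a : L))]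
    {α : K1} (hα : α ^ p = algebraMap L K1 (a : L))
    (hu : ∀ (i : ℕ) (x : Lˣ), u ≠ a ^ i * x ^ p) (y : K1) :
    y ^ p ≠ algebraMap L K1 (u : L) := by
  intro hy
  haveI : NeZero p := ⟨hp.ne_zero⟩
  have hζn : (primitiveRoots p L).Nonempty := ⟨ζ, (mem_primitiveRoots hp.pos).2 hζ⟩
  haveI : IsGalois L K1 := isGalois_of_isSplittingField_X_pow_sub_C hζn H K1
  haveI : FiniteDimensional L K1 := Polynomial.IsSplittingField.finiteDimensional K1 (X ^ p - C (a : L))
  have hζ' : IsPrimitiveRoot (algebraMap L K1 ζ) p :=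
    hζ.map_of_injective (algebraMap L K1).injective
  have hy0 : y ≠ 0 := by
    rintro rfl
    rw [zero_pow hp.ne_zero] at hy
    exact u.ne_zero ((map_eq_zero (algebraMap L K1)).1 hy.symm)
  have hα0 : α ≠ 0 := by
    rintro rfl
    rw [zero_pow hp.ne_zero] at hα
    exact a.ne_zero ((map_eq_zero (algebraMap L K1)).1 hα.symm)
  set e := autEquivZmod H K1 hζ with he
  set σ : Gal(K1/L) := e.symm (Multiplicative.ofAdd (1 : ZMod p)) with hσ
  have hσα : σ α = algebraMap L K1 ζ * α := by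
    have := autEquivZmod_symm_apply_natCast H K1 hα hζ 1
    rw [Nat.cast_one, pow_one, Algebra.smul_def] at this
    exact this
  -- `σ y = ζ ^ m * y`
  have h1 : (σ y / y) ^ p = 1 := by
    rw [div_pow, ← map_pow, hy, AlgEquiv.commutes, div_self]
    rw [← hy]; exact pow_ne_zero _ hy0
  obtain ⟨m, -, hm⟩ := hζ'.eq_pow_of_pow_eq_one h1
  have hσy : σ y = algebraMap L K1 ζ ^ m * y := by
    rw [hm]; field_simp
  -- `z = y / α ^ m` is fixed by `σ`
  have hσz : σ (y / α ^ m) = y / α ^ m := by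
    rw [map_div₀, map_pow, hσy, hσα, mul_pow]
    have hζ0 : algebraMap L K1 ζ ≠ 0 := hζ'.ne_zero hp.ne_zero
    field_simp
  -- hence by the whole group
  have hall : ∀ τ : Gal(K1/L), τ (y / α ^ m) = y / α ^ m := by
    intro τ
    have hτ : τ = σ ^ (Multiplicative.toAdd (e τ)).val := by
      apply e.injective
      rw [map_pow, hσ, MulEquiv.apply_symm_apply, ← ofAdd_nsmul, nsmul_eq_mul, mul_one,
        ZMod.natCast_zmod_val]
      rfl
    rw [hτ]
    generalize (Multiplicative.toAdd (e τ)).val = k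
    induction k with
    | zero => simp
    | succ k ih => rw [pow_succ, AlgEquiv.mul_apply, hσz, ih]
  obtain ⟨x₀, hx₀⟩ := (IsGalois.mem_range_algebraMap_iff_fixed (F := L) (E := K1) _).2 hall
  have hx0 : x₀ ≠ 0 := by
    rintro rfl
    rw [map_zero] at hx₀
    exact div_ne_zero hy0 (pow_ne_zero _ hα0) hx₀.symm
  have hyx : y = α ^ m * algebraMap L K1 x₀ := by
    rw [hx₀]; field_simp
  have hfin : algebraMap L K1 (u : L) = algebraMap L K1 ((a : L) ^ m * x₀ ^ p) := by
    rw [← hy, hyx, mul_pow, ← pow_mul, mul_comm m p, pow_mul, hα, map_mul, map_pow, map_pow]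
  have hfin' := (algebraMap L K1).injective hfin
  refine hu m (Units.mk0 x₀ hx0) ?_
  apply Units.ext
  rw [hfin']
  simp

end Kummer

section Aux

variable {K : Type} [Field K] [NumberField K]

/-- the set of primes at which a nonzero element is not a unit is finite. -/
theorem h7ax_finite_ne_one (x : K) (hx : x ≠ 0) :
    {w : HeightOneSpectrum (𝓞 K) | w.valuation K x ≠ 1}.Finite := by
  have h1 := HeightOneSpectrum.Support.finite (𝓞 K) x
  have h2 := HeightOneSpectrum.Support.finite (𝓞 K) x⁻¹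
  refine (h1.union h2).subset ?_
  intro w hw
  rcases lt_or_gt_of_ne hw with hlt | hgt
  · right
    show 1 < w.valuation K x⁻¹
    rw [map_inv₀]
    exact (one_lt_inv₀ (by rw [Valuation.pos_iff]; exact hx)).2 hlt
  · left
    exact hgt

/-- a root of unity has valuation one. -/
theorem h7ax_val_root {p : ℕ} (hp : p ≠ 0) (w : HeightOneSpectrum (𝓞 K)) {μ : K}
    (hμ : μ ^ p = 1) : w.valuation K μ = 1 := by
  have : w.valuation K μ ^ p = 1 := by rw [← map_pow, hμ, map_one]
  exact (pow_eq_one_iff_left hp).1 this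

/-- if `ζ - 1` is not a unit at `w` for a primitive `p`-th root of unity `ζ`, then `p` is not a
unit at `w`. -/
theorem h7ax_val_p_lt_one {p : ℕ} (hp : p.Prime) (w : HeightOneSpectrum (𝓞 K)) {ζ : K}
    (hζ : IsPrimitiveRoot ζ p) (h : w.valuation K (ζ - 1) < 1) :
    w.valuation K (p : K) < 1 := by
  obtain ⟨n, rfl⟩ := Nat.exists_eq_succ_of_ne_zero hp.ne_zero
  obtain ⟨m, rfl⟩ := Nat.exists_eq_succ_of_ne_zero (n := n) (by
    rintro rfl
    exact hp.ne_one rfl)
  have hprod := hζ.prod_one_sub_pow_eq_order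
  rw [Finset.prod_range_succ'] at hprod
  have hcast : ((m + 1 + 1 : ℕ) : K) = ((m + 1 : ℕ) : K) + 1 := by push_cast; ring
  rw [hcast, ← hprod, map_mul]
  have h1 : w.valuation K (1 - ζ ^ (0 + 1)) < 1 := by
    rw [zero_add, pow_one, Valuation.map_sub_swap]; exact h
  have h2 : w.valuation K (∏ k ∈ Finset.range m, (1 - ζ ^ (k + 1 + 1))) ≤ 1 := by
    rw [map_prod]
    refine Finset.prod_le_one' fun k _ => ?_
    refine Valuation.map_sub_le (v := w.valuation K) (by rw [map_one]) ?_
    rw [map_pow, h7ax_val_root hp.ne_zero w hζ.pow_eq_one, one_pow]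
  calc _ ≤ 1 * w.valuation K (1 - ζ ^ (0 + 1)) := mul_le_mul' h2 le_rfl
    _ < 1 := by rw [one_mul]; exact h1

/-- if `t ^ p` is congruent to `1` at `w`, then `t` is congruent to a `p`-th root of unity. -/
theorem h7ax_exists_root_close {p : ℕ} (hp : p.Prime) (w : HeightOneSpectrum (𝓞 K)) {ζ : K}
    (hζ : IsPrimitiveRoot ζ p) (t : K) (h : w.valuation K (t ^ p - 1) < 1) :
    ∃ i : ℕ, w.valuation K (t - ζ ^ i) < 1 := by
  have hfac : t ^ p - 1 = ∏ i ∈ Finset.range p, (t - ζ ^ i) := by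
    have := X_pow_sub_C_eq_prod hζ hp.pos (one_pow p)
    have h2 := congrArg (Polynomial.eval t) this
    simpa [Polynomial.eval_prod] using h2
  by_contra hne
  push Not at hne
  rw [hfac, map_prod] at h
  exact absurd (Finset.one_le_prod' fun i _ => hne i) (not_le.2 h)

end Aux

section Main

variable {L K1 K2 : Type} [Field L] [NumberField L] [Field K1] [NumberField K1] [Field K2]
  [NumberField K2] [Algebra L K1] [Algebra K1 K2] [IsGalois K1 K2] [IsCyclic Gal(K2/K1)]

/-- the auxiliary prime, abstract form: `K1 ∋ α = a^(1/p)`, `K2 = K1(β)`, `β = u^(1/p)`,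
`K2 / K1` cyclic with an automorphism `σ`, `σ β = ζ β`. -/
theorem h7ax_core {p : ℕ} (hp : p.Prime) {ζ : L} (hζ : IsPrimitiveRoot ζ p) (a u : Lˣ)
    (α : K1) (hα : α ^ p = algebraMap L K1 (a : L))
    (β : K2) (hβ : β ^ p = algebraMap K1 K2 (algebraMap L K1 (u : L)))
    (σ : Gal(K2/K1)) (hσ : σ β = algebraMap K1 K2 (algebraMap L K1 ζ) * β)
    (T₀ : Finset (HeightOneSpectrum (𝓞 L))) :
    ∃ v : HeightOneSpectrum (𝓞 L), v ∉ T₀ ∧ (p : 𝓞 L) ∉ v.asIdeal ∧
      v.valuation L (a : L) = 1 ∧ v.valuation L (u : L) = 1 ∧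
      (∃ x : Lˣ, v.valuation L ((a : L) / (x : L) ^ p - 1) < 1) ∧
      ¬ ∃ x : Lˣ, v.valuation L ((u : L) / (x : L) ^ p - 1) < 1 := by
  classical
  have hp0 : (p : L) ≠ 0 := Nat.cast_ne_zero.2 hp.ne_zero
  -- uniformizers
  have hunif : ∀ v₀ : HeightOneSpectrum (𝓞 L), ∃ π : L, v₀.valuation L π = WithZero.exp (-1 : ℤ) :=
    fun v₀ => v₀.valuation_exists_uniformizer L
  choose π hπ using hunif
  have hπ0 : ∀ v₀, π v₀ ≠ 0 := by
    intro v₀ h0
    have := hπ v₀
    rw [h0, map_zero] at this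
    exact WithZero.exp_ne_zero this.symm
  have hinj : Function.Injective (algebraMap L K1) := (algebraMap L K1).injective
  -- the excluded set
  set T : Set (HeightOneSpectrum (𝓞 K1)) :=
    ({w | w.valuation K1 (algebraMap L K1 (p : L)) ≠ 1} ∪
      {w | w.valuation K1 (algebraMap L K1 (a : L)) ≠ 1} ∪
      {w | w.valuation K1 (algebraMap L K1 (u : L)) ≠ 1}) ∪
      ⋃ v₀ ∈ T₀, {w | w.valuation K1 (algebraMap L K1 (π v₀)) ≠ 1} with hTdef
  have hT : T.Finite := by
    refine Set.Finite.union (Set.Finite.union (Set.Finite.union ?_ ?_) ?_) ?_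
    · exact h7ax_finite_ne_one _ (fun h => hp0 (hinj (h.trans (map_zero _).symm)))
    · exact h7ax_finite_ne_one _ (fun h => a.ne_zero (hinj (h.trans (map_zero _).symm)))
    · exact h7ax_finite_ne_one _ (fun h => u.ne_zero (hinj (h.trans (map_zero _).symm)))
    · refine Set.Finite.biUnion T₀.finite_toSet fun v₀ _ => ?_
      exact h7ax_finite_ne_one _ (fun h => hπ0 v₀ (hinj (h.trans (map_zero _).symm)))
  obtain ⟨w, hwT, hdeg, hinert⟩ := Fermat.Agent.Cheb.exists_degOne_isInert K1 K2 T hT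
  have hwp : w.valuation K1 (algebraMap L K1 (p : L)) = 1 := by
    by_contra h
    exact hwT (Or.inl (Or.inl (Or.inl h)))
  have hwa : w.valuation K1 (algebraMap L K1 (a : L)) = 1 := by
    by_contra h
    exact hwT (Or.inl (Or.inl (Or.inr h)))
  have hwu : w.valuation K1 (algebraMap L K1 (u : L)) = 1 := by
    by_contra h
    exact hwT (Or.inl (Or.inr h))
  have hwπ : ∀ v₀ ∈ T₀, w.valuation K1 (algebraMap L K1 (π v₀)) = 1 := by
    intro v₀ hv₀
    by_contra h
    exact hwT (Or.inr (Set.mem_biUnion hv₀ h))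
  have hva : (w.under (𝓞 L)).valuation L (a : L) = 1 := (h7ax_val_eq_one_iff w _).1 hwa
  have hvu : (w.under (𝓞 L)).valuation L (u : L) = 1 := (h7ax_val_eq_one_iff w _).1 hwu
  have hvp : (w.under (𝓞 L)).valuation L (p : L) = 1 := (h7ax_val_eq_one_iff w _).1 hwp
  refine ⟨w.under (𝓞 L), ?_, ?_, hva, hvu, ?_, ?_⟩
  · -- `v ∉ T₀`
    intro hv
    have h1 := (h7ax_val_eq_one_iff w _).1 (hwπ _ hv)
    rw [hπ] at h1
    have : (WithZero.exp (-1 : ℤ) : WithZero (Multiplicative ℤ)) < 1 := by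
      rw [← WithZero.exp_zero, WithZero.exp_lt_exp]; omega
    exact this.ne h1
  · -- `v ∤ p`
    intro hmem
    have h2 : (w.under (𝓞 L)).valuation L (algebraMap (𝓞 L) L (p : 𝓞 L)) < 1 :=
      ((w.under (𝓞 L)).valuation_lt_one_iff_mem (K := L) (p : 𝓞 L)).2 hmem
    rw [map_natCast, hvp] at h2
    exact lt_irrefl _ h2
  · -- `a` is a `p`-th power mod `v`
    have hwα : w.valuation K1 α = 1 := by
      have : w.valuation K1 α ^ p = 1 := by rw [← map_pow, hα, hwa]
      exact (pow_eq_one_iff_left hp.ne_zero).1 this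
    obtain ⟨n, hn⟩ := h7ax_exists_nat_val w hdeg α hwα.le
    have hwn : w.valuation K1 (n : K1) = 1 := by
      have h1 : w.valuation K1 ((n : K1) - α) < w.valuation K1 α := by
        rw [hwα, Valuation.map_sub_swap]; exact hn
      rw [Valuation.map_eq_of_sub_lt _ h1, hwα]
    -- `α ^ p - n ^ p` is small
    have hsmall : w.valuation K1 (α ^ p - (n : K1) ^ p) < 1 := by
      have hfac : α ^ p - (n : K1) ^ p =
          (α - (n : K1)) * ∑ i ∈ Finset.range p, α ^ i * (n : K1) ^ (p - 1 - i) :=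
        ((Commute.all α (n : K1)).mul_geom_sum₂ p).symm
      rw [hfac, map_mul]
      have hsum : w.valuation K1 (∑ i ∈ Finset.range p, α ^ i * (n : K1) ^ (p - 1 - i)) ≤ 1 := by
        refine Valuation.map_sum_le _ fun i _ => ?_
        rw [map_mul, map_pow, map_pow, hwα, hwn, one_pow, one_pow, one_mul]
      calc _ ≤ w.valuation K1 (α - (n : K1)) * 1 := mul_le_mul' le_rfl hsum
        _ < 1 := by rw [mul_one]; exact hn
    have hsmall' : (w.under (𝓞 L)).valuation L ((a : L) - (n : L) ^ p) < 1 := by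
      rw [← h7ax_val_lt_one_iff w, map_sub, map_pow, map_natCast, ← hα]
      exact hsmall
    have hvn : (w.under (𝓞 L)).valuation L (n : L) = 1 := by
      rw [← h7ax_val_eq_one_iff w, map_natCast]; exact hwn
    have hn0 : (n : L) ≠ 0 := by
      intro h0
      rw [h0, map_zero] at hvn
      exact zero_ne_one hvn
    refine ⟨Units.mk0 (n : L) hn0, ?_⟩
    have : (a : L) / ((Units.mk0 (n : L) hn0 : Lˣ) : L) ^ p - 1 =
        ((a : L) - (n : L) ^ p) / (n : L) ^ p := by
      rw [Units.val_mk0]; field_simp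
    rw [this, map_div₀, map_pow, hvn, one_pow, div_one]
    exact hsmall'
  · -- `u` is not a `p`-th power mod `v`
    rintro ⟨x, hx⟩
    -- the prime `W` above `w`
    obtain ⟨P, hP⟩ := Set.ncard_eq_one.1 (h7ax_ncard_of_inert (K2 := K2) w hinert)
    have hPmem : P ∈ w.asIdeal.primesOver (𝓞 K2) := by rw [hP]; exact Set.mem_singleton _
    haveI hPprime : P.IsPrime := hPmem.1
    haveI hPlies : P.LiesOver w.asIdeal := hPmem.2
    have hPbot : P ≠ ⊥ := Ideal.ne_bot_of_liesOver_of_ne_bot w.ne_bot P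
    set W : HeightOneSpectrum (𝓞 K2) := ⟨P, hPprime, hPbot⟩ with hWdef
    have hWw : W.under (𝓞 K1) = w := by
      apply HeightOneSpectrum.ext
      exact (hPlies.over).symm
    have hinert' : Fermat.Agent.Cheb.IsInert K1 K2 (W.under (𝓞 K1)) := by rw [hWw]; exact hinert
    -- valuations at `W` of elements of `L`
    have hlt : ∀ c : L, (w.under (𝓞 L)).valuation L c < 1 →
        W.valuation K2 (algebraMap K1 K2 (algebraMap L K1 c)) < 1 := by
      intro c hc
      rw [h7ax_val_lt_one_iff W, hWw, h7ax_val_lt_one_iff w]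
      exact hc
    have heq : ∀ c : L, (w.under (𝓞 L)).valuation L c = 1 →
        W.valuation K2 (algebraMap K1 K2 (algebraMap L K1 c)) = 1 := by
      intro c hc
      rw [h7ax_val_eq_one_iff W, hWw, h7ax_val_eq_one_iff w]
      exact hc
    set ζ2 : K2 := algebraMap K1 K2 (algebraMap L K1 ζ) with hζ2def
    have hζ2 : IsPrimitiveRoot ζ2 p :=
      (hζ.map_of_injective (algebraMap L K1).injective).map_of_injective
        (algebraMap K1 K2).injective
    set x2 : K2 := algebraMap K1 K2 (algebraMap L K1 (x : L)) with hx2def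
    have hx2 : x2 ≠ 0 := by
      intro h0
      have := (algebraMap K1 K2).injective (h0.trans (map_zero _).symm)
      exact x.ne_zero (hinj (this.trans (map_zero _).symm))
    have ht : (β / x2) ^ p - 1 =
        algebraMap K1 K2 (algebraMap L K1 ((u : L) / (x : L) ^ p - 1)) := by
      rw [div_pow, hβ, map_sub, map_sub, map_div₀, map_div₀, map_pow, map_pow, map_one, map_one]
    have hWt : W.valuation K2 ((β / x2) ^ p - 1) < 1 := by rw [ht]; exact hlt _ hx
    have hWt1 : W.valuation K2 (β / x2) = 1 := by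
      have h1 : W.valuation K2 ((β / x2) ^ p) = 1 := by
        have h2 : W.valuation K2 ((β / x2) ^ p - 1) < W.valuation K2 (1 : K2) := by
          rw [map_one]; exact hWt
        rw [Valuation.map_eq_of_sub_lt _ h2, map_one]
      rw [map_pow] at h1
      exact (pow_eq_one_iff_left hp.ne_zero).1 h1
    obtain ⟨i, hi⟩ := h7ax_exists_root_close hp W hζ2 (β / x2) hWt
    have hσζ : σ ζ2 = ζ2 := σ.commutes _
    have hσx : σ x2 = x2 := σ.commutes _
    have hσt : σ (β / x2 - ζ2 ^ i) = ζ2 * (β / x2) - ζ2 ^ i := by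
      rw [map_sub, map_div₀, map_pow, hσ, hσζ, hσx, mul_div_assoc]
    have hi' : W.valuation K2 (ζ2 * (β / x2) - ζ2 ^ i) < 1 := by
      rw [← hσt, h7ax_val_gal_of_inert W hinert' σ]; exact hi
    have hdiff : W.valuation K2 ((ζ2 - 1) * (β / x2)) < 1 := by
      have : (ζ2 - 1) * (β / x2) = (ζ2 * (β / x2) - ζ2 ^ i) - (β / x2 - ζ2 ^ i) := by ring
      rw [this]
      exact Valuation.map_sub_lt _ hi' hi
    rw [map_mul, hWt1, mul_one] at hdiff
    have hWp := h7ax_val_p_lt_one hp W hζ2 hdiff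
    have hWp1 : W.valuation K2 (algebraMap K1 K2 (algebraMap L K1 (p : L))) = 1 := heq _ hvp
    rw [map_natCast, map_natCast] at hWp1
    rw [hWp1] at hWp
    exact lt_irrefl _ hWp

end Main

section Final

/-- the auxiliary prime, given a number field `K1 ⊇ L` in which `a` is a `p`-th power and `u` is
not. -/
theorem h7ax_of_field {L K1 : Type} [Field L] [NumberField L] [Field K1] [NumberField K1]
    [Algebra L K1] {p : ℕ} (hp : p.Prime) {ζ : L} (hζ : IsPrimitiveRoot ζ p) (a u : Lˣ)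
    (α : K1) (hα : α ^ p = algebraMap L K1 (a : L))
    (hu : ∀ y : K1, y ^ p ≠ algebraMap L K1 (u : L))
    (T₀ : Finset (HeightOneSpectrum (𝓞 L))) :
    ∃ v : HeightOneSpectrum (𝓞 L), v ∉ T₀ ∧ (p : 𝓞 L) ∉ v.asIdeal ∧
      v.valuation L (a : L) = 1 ∧ v.valuation L (u : L) = 1 ∧
      (∃ x : Lˣ, v.valuation L ((a : L) / (x : L) ^ p - 1) < 1) ∧
      ¬ ∃ x : Lˣ, v.valuation L ((u : L) / (x : L) ^ p - 1) < 1 := by
  haveI : NeZero p := ⟨hp.ne_zero⟩
  have H : Irreducible (X ^ p - C (algebraMap L K1 (u : L))) :=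
    X_pow_sub_C_irreducible_of_prime hp hu
  haveI := Fact.mk H
  have hζ1 : IsPrimitiveRoot (algebraMap L K1 ζ) p :=
    hζ.map_of_injective (algebraMap L K1).injective
  have hζn : (primitiveRoots p K1).Nonempty := ⟨_, (mem_primitiveRoots hp.pos).2 hζ1⟩
  haveI : IsSplittingField K1 (AdjoinRoot (X ^ p - C (algebraMap L K1 (u : L))))
      (X ^ p - C (algebraMap L K1 (u : L))) :=
    isSplittingField_AdjoinRoot_X_pow_sub_C hζn H
  haveI : FiniteDimensional K1 (AdjoinRoot (X ^ p - C (algebraMap L K1 (u : L)))) :=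
    IsSplittingField.finiteDimensional _ (X ^ p - C (algebraMap L K1 (u : L)))
  haveI : NumberField (AdjoinRoot (X ^ p - C (algebraMap L K1 (u : L)))) :=
    NumberField.of_module_finite K1 _
  haveI : IsGalois K1 (AdjoinRoot (X ^ p - C (algebraMap L K1 (u : L)))) :=
    isGalois_of_isSplittingField_X_pow_sub_C hζn H _
  haveI : IsCyclic Gal((AdjoinRoot (X ^ p - C (algebraMap L K1 (u : L))))/K1) :=
    isCyclic_of_isSplittingField_X_pow_sub_C hζn H _
  have hβ : (AdjoinRoot.root (X ^ p - C (algebraMap L K1 (u : L)))) ^ p =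
      algebraMap K1 (AdjoinRoot (X ^ p - C (algebraMap L K1 (u : L))))
        (algebraMap L K1 (u : L)) :=
    root_X_pow_sub_C_pow p _
  have hσ := autEquivZmod_symm_apply_natCast H
    (AdjoinRoot (X ^ p - C (algebraMap L K1 (u : L)))) hβ hζ1 1
  rw [pow_one, Algebra.smul_def] at hσ
  exact h7ax_core hp hζ a u α hα _ hβ _ hσ T₀

/-- **SI-AUX**: the auxiliary prime. -/
theorem h7ax_ifaceAuxPrime : IfaceAuxPrime := by
  intro p hp _ L _ _ ⟨ζ, hζ⟩ a u hu T₀
  by_cases hpow : ∃ b : L, b ^ p = (a : L)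
  · -- `a` is a `p`-th power in `L`: `K1 = L`
    obtain ⟨b, hb⟩ := hpow
    refine h7ax_of_field (K1 := L) hp hζ a u b hb ?_ T₀
    intro y hy
    have hy0 : y ≠ 0 := by
      rintro rfl
      rw [zero_pow hp.ne_zero] at hy
      exact u.ne_zero hy.symm
    refine hu 0 (Units.mk0 y hy0) ?_
    apply Units.ext
    rw [pow_zero, one_mul, Units.val_pow_eq_pow_val, Units.val_mk0]
    exact hy.symm
  · -- `K1 = L(a^(1/p))`
    push Not at hpow
    haveI : NeZero p := ⟨hp.ne_zero⟩
    have H : Irreducible (X ^ p - C (a : L)) := X_pow_sub_C_irreducible_of_prime hp hpow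
    haveI := Fact.mk H
    have hζn : (primitiveRoots p L).Nonempty := ⟨_, (mem_primitiveRoots hp.pos).2 hζ⟩
    haveI : IsSplittingField L (AdjoinRoot (X ^ p - C (a : L))) (X ^ p - C (a : L)) :=
      isSplittingField_AdjoinRoot_X_pow_sub_C hζn H
    haveI : FiniteDimensional L (AdjoinRoot (X ^ p - C (a : L))) :=
      IsSplittingField.finiteDimensional _ (X ^ p - C (a : L))
    haveI : NumberField (AdjoinRoot (X ^ p - C (a : L))) := NumberField.of_module_finite L _
    have hα : (AdjoinRoot.root (X ^ p - C (a : L))) ^ p =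
        algebraMap L (AdjoinRoot (X ^ p - C (a : L))) (a : L) :=
      root_X_pow_sub_C_pow p _
    exact h7ax_of_field (K1 := AdjoinRoot (X ^ p - C (a : L))) hp hζ a u _ hα
      (h7ax_kummer_indep hp hζ a u H hα hu) T₀

end Final

end

end Fermat.Agent.PT.Glob
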