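import Mathlib
import Fermat.Agent.PT.Glob.SI.Iface
import Fermat.Agent.PT.Glob.SI.H89Newton

/-!
# W3-PT / GLOB-SI leaf LN-SPLIT (helper89), elementary route

`h89s_ifaceLNSplit : IfaceLNSplit` : if `K = L(α)`, `α ^ p = a`, `[K : L] = p`, `μ_p ⊆ L` and
`a` is a local `p`-th power at the finite place `v` of `L` (any `v`, also above `p`), then
every element of `Lˣ` is a local norm at `v`.

No completions.  Ingredients:
* (H) `h89s_hensel` : for any finite place `v`, `v (c - 1) < v p ^ 2` implies that `c` is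
  `v`-adically approximable by `p`-th powers (Newton iteration `z = 1 + t / p`).
* (N) `h89s_norm_sub` : `N_{K/L} (y - β) = y ^ p - β ^ p` for `y ∈ L`, `β ^ p ∈ L`, `β ∉ L`.
* If `v b < v p ^ 2`, choose `x` with `c = a / x ^ p` very close to `1`, `β = α / x`, and `y`
  with `y ^ p` very close to `b + c`; then `N (y - β) = y ^ p - c` is close to `b`.  So all
  small elements are local norms; the local norms form a group, hence every element is one.
-/

set_option autoImplicit false

open NumberField IsDedekindDomain Polynomial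

namespace Fermat.Agent.PT.Glob

/-! ### Arithmetic in `ℤᵐ⁰` -/

section WZ

/-- a nonzero element of `ℤᵐ⁰` is `exp` of an integer. -/
theorem h89s_eq_exp {x : WithZero (Multiplicative ℤ)} (hx : x ≠ 0) :
    ∃ m : ℤ, x = WithZero.exp m := ⟨WithZero.log x, (WithZero.exp_log hx).symm⟩

/-- discreteness: `x < exp m` implies `x ≤ exp (m - 1)`. -/
theorem h89s_le_of_lt_exp {x : WithZero (Multiplicative ℤ)} {m : ℤ} (hx : x < WithZero.exp m) :
    x ≤ WithZero.exp (m - 1) := by
  rcases eq_or_ne x 0 with rfl | hx0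
  · exact zero_le
  obtain ⟨k, rfl⟩ := h89s_eq_exp hx0
  rw [WithZero.exp_lt_exp] at hx
  rw [WithZero.exp_le_exp]
  omega

end WZ

section Hensel

variable {L : Type} [Field L] [NumberField L]

/-- the order of a nonzero natural number at `v`. -/
theorem h89s_exists_ord (p : ℕ) (hp0 : (p : L) ≠ 0) (v : HeightOneSpectrum (𝓞 L)) :
    ∃ e : ℕ, v.valuation L (p : L) = WithZero.exp (-(e : ℤ)) := by
  have h0 : v.valuation L (p : L) ≠ 0 := (Valuation.ne_zero_iff _).mpr hp0
  obtain ⟨m, hm⟩ := h89s_eq_exp h0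
  have h1 : v.valuation L (p : L) ≤ 1 := h89n_val_natCast_le_one v p
  rw [hm, ← WithZero.exp_zero, WithZero.exp_le_exp] at h1
  refine ⟨(-m).toNat, ?_⟩
  rw [hm]
  congr 1
  omega

/-- **Newton step** at an arbitrary finite place. -/
theorem h89s_step (p e : ℕ) (v : HeightOneSpectrum (𝓞 L))
    (hvp : v.valuation L (p : L) = WithZero.exp (-(e : ℤ))) (k : ℕ) (c : L)
    (hc : v.valuation L (c - 1) ≤ WithZero.exp (-((2 * e + 1 + k : ℕ) : ℤ))) :
    ∃ z : Lˣ, v.valuation L (c / (z : L) ^ p - 1) ≤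
      WithZero.exp (-((2 * e + 1 + (k + 1) : ℕ) : ℤ)) := by
  have hp0 : (p : L) ≠ 0 := by
    intro h
    rw [h, map_zero] at hvp
    exact WithZero.exp_ne_zero hvp.symm
  set t : L := c - 1 with ht
  set s : L := t / (p : L) with hs
  have hvs : v.valuation L s ≤ WithZero.exp (-((e + 1 + k : ℕ) : ℤ)) := by
    rw [hs, map_div₀, hvp, div_eq_mul_inv, ← WithZero.exp_neg, neg_neg]
    calc v.valuation L t * WithZero.exp (e : ℤ)
        ≤ WithZero.exp (-((2 * e + 1 + k : ℕ) : ℤ)) * WithZero.exp (e : ℤ) :=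
          mul_le_mul' hc le_rfl
      _ = WithZero.exp (-((e + 1 + k : ℕ) : ℤ)) := by
          rw [← WithZero.exp_add]
          congr 1
          push_cast
          ring
  have hvs1 : v.valuation L s < 1 := by
    refine hvs.trans_lt ?_
    rw [← WithZero.exp_zero, WithZero.exp_lt_exp]
    push_cast
    omega
  have hvz : v.valuation L (1 + s) = 1 :=
    Valuation.map_one_add_of_lt (v := v.valuation L) (x := s) hvs1
  have hz0 : (1 + s : L) ≠ 0 := by
    intro h
    rw [h, map_zero] at hvz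
    exact zero_ne_one hvz
  obtain ⟨r, hr, hbin⟩ := h89n_binom v s hvs1.le p
  have hps : (p : L) * s = t := by
    rw [hs]
    field_simp
  have hzp : (1 + s) ^ p = c + r * s ^ 2 := by
    rw [hbin, hps, ht]
    ring
  refine ⟨Units.mk0 (1 + s) hz0, ?_⟩
  rw [Units.val_mk0]
  have hzp0 : ((1 + s) ^ p : L) ≠ 0 := pow_ne_zero _ hz0
  have key : c / (1 + s) ^ p - 1 = -(r * s ^ 2) / (1 + s) ^ p := by
    field_simp
    rw [hzp]
    ring
  rw [key, map_div₀, map_pow, hvz, one_pow, div_one, Valuation.map_neg, map_mul, map_pow]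
  calc v.valuation L r * v.valuation L s ^ 2
      ≤ 1 * WithZero.exp (-((e + 1 + k : ℕ) : ℤ)) ^ 2 :=
        mul_le_mul' hr (pow_le_pow_left' hvs 2)
    _ = WithZero.exp (2 • (-((e + 1 + k : ℕ) : ℤ))) := by
        rw [one_mul, ← WithZero.exp_nsmul]
    _ ≤ WithZero.exp (-((2 * e + 1 + (k + 1) : ℕ) : ℤ)) := by
        rw [WithZero.exp_le_exp]
        simp only [nsmul_eq_mul]
        push_cast
        nlinarith [Int.natCast_nonneg k]

/-- **(H) Hensel for `p`-th powers** at an arbitrary finite place: if `v (c - 1) < v p ^ 2`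
then `c` is approximable by `p`-th powers. -/
theorem h89s_hensel (p : ℕ) (hp0 : (p : L) ≠ 0) (v : HeightOneSpectrum (𝓞 L)) (c : L)
    (hc : v.valuation L (c - 1) < v.valuation L (p : L) ^ 2) (n : ℕ) :
    ∃ y : Lˣ, CloseOne L v n (c / (y : L) ^ p) := by
  obtain ⟨e, he⟩ := h89s_exists_ord p hp0 v
  have hc0 : v.valuation L (c - 1) ≤ WithZero.exp (-((2 * e + 1 + 0 : ℕ) : ℤ)) := by
    have h1 : v.valuation L (c - 1) < WithZero.exp (-(2 * (e : ℤ))) := by
      refine hc.trans_le (le_of_eq ?_)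
      rw [he, ← WithZero.exp_nsmul]
      congr 1
      simp only [nsmul_eq_mul]
      push_cast
      ring
    refine (h89s_le_of_lt_exp h1).trans (le_of_eq ?_)
    congr 1
    push_cast
    ring
  have key : ∀ k : ℕ, ∃ y : Lˣ, v.valuation L (c / (y : L) ^ p - 1) ≤
      WithZero.exp (-((2 * e + 1 + k : ℕ) : ℤ)) := by
    intro k
    induction k with
    | zero => exact ⟨1, by simpa using hc0⟩
    | succ k ih =>
      obtain ⟨y, hy⟩ := ih
      obtain ⟨z, hz⟩ := h89s_step p e v he k _ hy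
      refine ⟨y * z, ?_⟩
      have h : c / ((y * z : Lˣ) : L) ^ p = c / (y : L) ^ p / (z : L) ^ p := by
        rw [Units.val_mul, mul_pow, div_div]
      rw [h]
      exact hz
  obtain ⟨y, hy⟩ := key n
  refine ⟨y, hy.trans ?_⟩
  rw [WithZero.exp_le_exp]
  push_cast
  omega

end Hensel

/-! ### The norm of `y - β` -/

section Norm

variable {L K : Type} [Field L] [Field K] [Algebra L K] [FiniteDimensional L K]

omit [FiniteDimensional L K] in
/-- `c` is not a `p`-th power in `L` if `β ^ p = c`, `β ∉ L` and `μ_p ⊆ L`. -/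
theorem h89s_not_pow (p : ℕ) (hp : p.Prime) (ζ : L) (hζ : IsPrimitiveRoot ζ p) (β : K) (c : L)
    (hβ : β ^ p = algebraMap L K c) (hβL : ∀ x : L, algebraMap L K x ≠ β) (b : L) :
    b ^ p ≠ c := by
  intro hb
  have : NeZero p := ⟨hp.ne_zero⟩
  have hζK : IsPrimitiveRoot (algebraMap L K ζ) p := hζ.map_of_injective (algebraMap L K).injective
  rcases eq_or_ne b 0 with rfl | hb0
  · rw [zero_pow hp.ne_zero] at hb
    rw [← hb, map_zero] at hβ
    have h0 : β = 0 := pow_eq_zero_iff hp.ne_zero |>.mp hβ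
    exact hβL 0 (by rw [map_zero, h0])
  have hbK : algebraMap L K b ≠ 0 := (_root_.map_ne_zero _).mpr hb0
  have h1 : (β / algebraMap L K b) ^ p = 1 := by
    rw [div_pow, hβ, ← hb, map_pow, div_self (pow_ne_zero _ hbK)]
  obtain ⟨i, -, hi⟩ := hζK.eq_pow_of_pow_eq_one h1
  refine hβL (ζ ^ i * b) ?_
  rw [map_mul, map_pow, hi, div_mul_cancel₀ _ hbK]

/-- **(N)** the norm of `y - β`. -/
theorem h89s_norm_sub (p : ℕ) (hp : p.Prime) (hdeg : Module.finrank L K = p)
    (ζ : L) (hζ : IsPrimitiveRoot ζ p) (β : K) (c : L)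
    (hβ : β ^ p = algebraMap L K c) (hβL : ∀ x : L, algebraMap L K x ≠ β) (y : L) :
    Algebra.norm L (algebraMap L K y - β) = y ^ p - c := by
  have hirr : Irreducible (X ^ p - C c : L[X]) :=
    X_pow_sub_C_irreducible_of_prime hp (h89s_not_pow p hp ζ hζ β c hβ hβL)
  have hmon : (X ^ p - C c : L[X]).Monic := monic_X_pow_sub_C c hp.ne_zero
  have hmin : minpoly L β = X ^ p - C c := by
    refine (minpoly.eq_of_irreducible_of_monic hirr ?_ hmon).symm
    simp [hβ]
  set x : K := β - algebraMap L K y with hx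
  have hxint : IsIntegral L x := IsIntegral.of_finite L x
  have hminx : minpoly L x = (X ^ p - C c : L[X]).comp (X + C y) := by
    rw [hx, minpoly.sub_algebraMap, hmin]
  have hdegx : (minpoly L x).natDegree = p := by
    rw [hminx, natDegree_comp, natDegree_X_pow_sub_C, natDegree_X_add_C, mul_one]
  have hcoeff : (minpoly L x).coeff 0 = y ^ p - c := by
    rw [hminx, coeff_zero_eq_eval_zero, eval_comp]
    simp
  -- `L⟮x⟯ = K`
  have hfin1 : Module.finrank L (IntermediateField.adjoin L {x}) = p := by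
    rw [IntermediateField.adjoin.finrank hxint, hdegx]
  have hfin2 : Module.finrank (IntermediateField.adjoin L {x}) K = 1 := by
    have h := Module.finrank_mul_finrank L (IntermediateField.adjoin L {x}) K
    rw [hfin1, hdeg] at h
    exact Nat.eq_of_mul_eq_mul_left hp.pos (by rw [h, mul_one])
  have hnormx : Algebra.norm L x = (-1) ^ p * (y ^ p - c) := by
    rw [Algebra.norm_eq_norm_adjoin L x, hfin2, pow_one,
      ← IntermediateField.adjoin.powerBasis_gen hxint,
      Algebra.PowerBasis.norm_gen_eq_coeff_zero_minpoly,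
      IntermediateField.adjoin.powerBasis_gen hxint,
      IntermediateField.adjoin.powerBasis_dim hxint, hdegx,
      IntermediateField.minpoly_gen, hcoeff]
  have h2 : algebraMap L K y - β = algebraMap L K (-1) * x := by
    rw [hx, map_neg, map_one]
    ring
  rw [h2, map_mul, Algebra.norm_algebraMap, hdeg, hnormx, ← mul_assoc, ← mul_pow]
  simp

end Norm

/-! ### Local norms in the split case -/

section Split

variable {L K : Type} [Field L] [NumberField L] [Field K] [NumberField K] [Algebra L K]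

/-- there is an element of `Lˣ` of valuation `< 1`. -/
theorem h89s_exists_small (v : HeightOneSpectrum (𝓞 L)) :
    ∃ π : Lˣ, v.valuation L (π : L) < 1 := by
  obtain ⟨r, hr, hr0⟩ := Submodule.exists_mem_ne_zero_of_ne_bot v.ne_bot
  have h0 : algebraMap (𝓞 L) L r ≠ 0 := by
    intro h
    exact hr0 ((FaithfulSMul.algebraMap_injective (𝓞 L) L) (by rw [h, map_zero]))
  exact ⟨Units.mk0 _ h0, (v.valuation_lt_one_iff_mem (K := L) r).mpr hr⟩

/-- **small elements are local norms** (split case). -/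
theorem h89s_small (p : ℕ) (hp : p.Prime) (hdeg : Module.finrank L K = p)
    (ζ : L) (hζ : IsPrimitiveRoot ζ p) (v : HeightOneSpectrum (𝓞 L)) (α : K) (a : Lˣ)
    (hα : α ^ p = algebraMap L K (a : L)) (hαL : ∀ x : L, algebraMap L K x ≠ α)
    (ha : a ∈ localPowSubgroup L p v) (b : Lˣ)
    (hb : v.valuation L (b : L) < v.valuation L (p : L) ^ 2) :
    b ∈ localNormSubgroup L K v := by
  intro n
  have : FiniteDimensional L K := Module.finite_of_finrank_pos (by rw [hdeg]; exact hp.pos)
  have hp0 : (p : L) ≠ 0 := Nat.cast_ne_zero.mpr hp.ne_zero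
  have hvb0 : v.valuation L (b : L) ≠ 0 := (Valuation.ne_zero_iff _).mpr b.ne_zero
  obtain ⟨m, hm⟩ := h89s_eq_exp hvb0
  -- `c = a / x ^ p` close to `1`
  obtain ⟨x, hx⟩ := mem_localPowSubgroup.mp ha (-m).toNat
  obtain ⟨c, hc⟩ : ∃ c : L, c = (a : L) / (x : L) ^ p := ⟨_, rfl⟩
  rw [← hc] at hx
  have hx0 : (x : L) ≠ 0 := x.ne_zero
  have hxK : algebraMap L K (x : L) ≠ 0 := (_root_.map_ne_zero _).mpr hx0
  have hε : v.valuation L (c - 1) < v.valuation L (b : L) := by
    refine lt_of_le_of_lt hx ?_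
    rw [hm, WithZero.exp_lt_exp]
    omega
  -- `β = α / x`
  obtain ⟨β, hβdef⟩ : ∃ β : K, β = α / algebraMap L K (x : L) := ⟨_, rfl⟩
  have hβ : β ^ p = algebraMap L K c := by
    rw [hβdef, div_pow, hα, hc, map_div₀, map_pow]
  have hβL : ∀ z : L, algebraMap L K z ≠ β := by
    intro z hz
    refine hαL (z * (x : L)) ?_
    rw [map_mul, hz, hβdef, div_mul_cancel₀ _ hxK]
  -- `y ^ p` close to `b + c`
  have hsplit : (b : L) + c - 1 = (b : L) + (c - 1) := by ring
  have hτ : v.valuation L ((b : L) + c - 1) = v.valuation L (b : L) := by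
    rw [hsplit]
    exact Valuation.map_add_eq_of_lt_left _ hε
  have hτ' : v.valuation L ((b : L) + c - 1) < v.valuation L (p : L) ^ 2 := hτ ▸ hb
  obtain ⟨y, hy⟩ := h89s_hensel p hp0 v ((b : L) + c) hτ' ((-m).toNat + n + 1)
  have hy0 : ((y : L) ^ p) ≠ 0 := pow_ne_zero _ y.ne_zero
  have hvp1 : v.valuation L (p : L) ^ 2 ≤ 1 :=
    pow_le_one' (h89n_val_natCast_le_one v p) 2
  have hv1 : v.valuation L ((b : L) + c) = 1 := by
    have h1 : v.valuation L ((b : L) + c - 1) < 1 := lt_of_lt_of_le hτ' hvp1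
    have := Valuation.map_one_add_of_lt (v := v.valuation L) (x := (b : L) + c - 1) h1
    simpa using this
  have hvy : v.valuation L ((y : L) ^ p) = 1 := by
    have h1 := hy.val_eq_one
    rw [map_div₀, hv1, one_div, inv_eq_one] at h1
    exact h1
  -- the error term
  obtain ⟨d, hd⟩ : ∃ d : L, d = (y : L) ^ p - ((b : L) + c) := ⟨_, rfl⟩
  have hvd : v.valuation L d ≤ WithZero.exp (-((((-m).toNat + n + 1 : ℕ) : ℤ) + 1)) := by
    have h1 : d = -(((b : L) + c) / (y : L) ^ p - 1) * (y : L) ^ p := by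
      rw [hd]
      field_simp
      ring
    rw [h1, map_mul, Valuation.map_neg, hvy, mul_one]
    exact hy
  have hvd' : v.valuation L d < v.valuation L (b : L) := by
    refine lt_of_le_of_lt hvd ?_
    rw [hm, WithZero.exp_lt_exp]
    push_cast
    omega
  have hyc : (y : L) ^ p - c = (b : L) + d := by
    rw [hd]
    ring
  have hvyc : v.valuation L ((y : L) ^ p - c) = v.valuation L (b : L) := by
    rw [hyc]
    exact Valuation.map_add_eq_of_lt_left _ hvd'
  have hyc0 : (y : L) ^ p - c ≠ 0 := by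
    intro h
    rw [h, map_zero] at hvyc
    exact hvb0 hvyc.symm
  -- the norm
  have hN : Algebra.norm L (algebraMap L K (y : L) - β) = (y : L) ^ p - c :=
    h89s_norm_sub p hp hdeg ζ hζ β c hβ hβL (y : L)
  have hw0 : algebraMap L K (y : L) - β ≠ 0 := fun h => hβL (y : L) (sub_eq_zero.mp h)
  refine ⟨Units.mk0 _ hw0, ?_⟩
  unfold NormApprox
  rw [Units.val_mk0, hN]
  have key : (b : L) / ((y : L) ^ p - c) - 1 = -d / ((y : L) ^ p - c) := by
    field_simp
    rw [hyc]
    ring
  rw [key, map_div₀, Valuation.map_neg, hvyc, hm, div_eq_mul_inv, ← WithZero.exp_neg]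
  calc v.valuation L d * WithZero.exp (-m)
      ≤ WithZero.exp (-((((-m).toNat + n + 1 : ℕ) : ℤ) + 1)) * WithZero.exp (-m) :=
        mul_le_mul' hvd le_rfl
    _ = WithZero.exp (-((((-m).toNat + n + 1 : ℕ) : ℤ) + 1) + -m) := by
        rw [← WithZero.exp_add]
    _ ≤ WithZero.exp (-((n : ℤ) + 1)) := by
        rw [WithZero.exp_le_exp]
        push_cast
        omega

/-- **LN-SPLIT**, core statement. -/
theorem h89s_split (p : ℕ) (hp : p.Prime) (hdeg : Module.finrank L K = p)
    (ζ : L) (hζ : IsPrimitiveRoot ζ p) (v : HeightOneSpectrum (𝓞 L)) (α : K) (a : Lˣ)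
    (hα : α ^ p = algebraMap L K (a : L)) (hαL : ∀ x : L, algebraMap L K x ≠ α)
    (ha : a ∈ localPowSubgroup L p v) : localNormSubgroup L K v = ⊤ := by
  rw [eq_top_iff]
  intro b _
  have hp0 : (p : L) ≠ 0 := Nat.cast_ne_zero.mpr hp.ne_zero
  obtain ⟨e, he⟩ := h89s_exists_ord p hp0 v
  obtain ⟨π, hπ⟩ := h89s_exists_small v
  have hπ1 : v.valuation L (π : L) ≤ WithZero.exp (-1 : ℤ) := h89n_le_exp_neg_one hπ
  have hvb0 : v.valuation L (b : L) ≠ 0 := (Valuation.ne_zero_iff _).mpr b.ne_zero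
  obtain ⟨m, hm⟩ := h89s_eq_exp hvb0
  have hsq : v.valuation L (p : L) ^ 2 = WithZero.exp (-(2 * (e : ℤ))) := by
    rw [he, ← WithZero.exp_nsmul]
    congr 1
    simp only [nsmul_eq_mul]
    push_cast
    ring
  set k : ℕ := 2 * e + 1 + m.toNat with hk
  have hπk : v.valuation L ((π : L) ^ k) ≤ WithZero.exp (-(k : ℤ)) := by
    rw [map_pow]
    calc v.valuation L (π : L) ^ k ≤ WithZero.exp (-1 : ℤ) ^ k := pow_le_pow_left' hπ1 k
      _ = WithZero.exp (-(k : ℤ)) := by
          rw [← WithZero.exp_nsmul]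
          congr 1
          simp
  have h1 : π ^ k ∈ localNormSubgroup L K v := by
    refine h89s_small p hp hdeg ζ hζ v α a hα hαL ha (π ^ k) ?_
    rw [Units.val_pow_eq_pow_val, hsq]
    refine lt_of_le_of_lt hπk ?_
    rw [WithZero.exp_lt_exp, hk]
    push_cast
    omega
  have h2 : b * π ^ k ∈ localNormSubgroup L K v := by
    refine h89s_small p hp hdeg ζ hζ v α a hα hαL ha (b * π ^ k) ?_
    rw [Units.val_mul, Units.val_pow_eq_pow_val, map_mul, hsq, hm]
    calc WithZero.exp m * v.valuation L ((π : L) ^ k)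
        ≤ WithZero.exp m * WithZero.exp (-(k : ℤ)) := mul_le_mul' le_rfl hπk
      _ = WithZero.exp (m + -(k : ℤ)) := by rw [← WithZero.exp_add]
      _ < WithZero.exp (-(2 * (e : ℤ))) := by
          rw [WithZero.exp_lt_exp, hk]
          push_cast
          omega
  have h3 : b = b * π ^ k * (π ^ k)⁻¹ := by
    rw [mul_inv_cancel_right]
  rw [h3]
  exact Subgroup.mul_mem _ h2 (Subgroup.inv_mem _ h1)

end Split

/-- **SI-LNSPLIT.** -/
theorem h89s_ifaceLNSplit : IfaceLNSplit := by
  intro p hp _ L K _ _ _ _ _ _ hdeg hζ v α a hα hαL ha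
  obtain ⟨ζ, hζ⟩ := hζ
  exact h89s_split p hp hdeg ζ hζ v α a hα hαL ha

end Fermat.Agent.PT.Glob
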