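import Mathlib
import Fermat.Agent.PT.Glob.Core
import Fermat.Agent.PT.Glob.Adm
import Fermat.Agent.PT.Glob.FI.MainOf
import Fermat.Agent.PT.Glob.FI.H82UnitNormFinal
import Fermat.Agent.PT.Glob.SI.Iface
import Fermat.Agent.PT.Glob.SI.Final68
import Fermat.Agent.PT.Glob.SI.H74LPIdx
import Fermat.Agent.PT.Glob.SI.H74LNSplit
import Fermat.Agent.PT.Glob.SI.H59LNUnr
import Fermat.Agent.PT.Glob.SI.H89Newton
import Fermat.Agent.PT.Glob.SI.H24Res
import Fermat.Agent.PT.Glob.SI.H41Aux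
import Fermat.Agent.PT.Glob.SI.H8FBAsm
import Fermat.Agent.PT.Glob.SI.H25KumGen
import Fermat.Agent.PT.Glob.SI.H42NormUnif

/-!
# W3-PT / PT-GLOB : first and second inequality, Hasse norm theorem — UNCONDITIONAL (helper68)

Wiring of the landed leaves:
* `h68si_ifaceFB : IfaceFB` (helper8 FBAsm, helper41 AuxPrime, helper24 Res, helper89 Newton),
* `h68si_ifaceSI_of_FI : IfaceFI → IfaceSI`,
* `h68si_ifaceFI : IfaceFI` (helper64 `ifaceFI_of_unitNorm`, helper82 `h82u_fiUnitNorm_holds`),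
* `h68si_ifaceSI : IfaceSI`, `h68si_ifaceHN : IfaceHN` (Hasse norm theorem for cyclic Kummer
  layers of degree `p`), `h68si_ifaceNI : IfaceNI`.
-/

set_option autoImplicit false

namespace Fermat.Agent.PT.Glob

theorem h68si_ifaceLNUnr : IfaceLNUnr :=
  h59u_lnUnr_of h89n_ifaceNewton h74s_ifaceLNSplit h24sr_ifaceRes

theorem h68si_ifaceFB : IfaceFB :=
  h8fb_ifaceFBAsm h41a_auxPrime h24sr_ifaceRes h89n_ifaceNewton

/-- The second inequality from the first. -/
theorem h68si_ifaceSI_of_FI (hFI : IfaceFI) : IfaceSI :=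
  ifaceSI_of hFI ifaceAdm h74s_ifaceLPIdx h74s_ifaceLNSplit h68si_ifaceLNUnr h89n_ifaceNewton
    h68si_ifaceFB h25k_kumGen h42nu_normUnif

/-- The first inequality. -/
theorem h68si_ifaceFI : IfaceFI := ifaceFI_of_unitNorm h82u_fiUnitNorm_holds

/-- **The second inequality.** -/
theorem h68si_ifaceSI : IfaceSI := h68si_ifaceSI_of_FI h68si_ifaceFI

/-- **The Hasse norm theorem** for cyclic Kummer layers of odd prime degree. -/
theorem h68si_ifaceHN : IfaceHN := (hn_ni_of ifaceAdm h68si_ifaceFI h68si_ifaceSI).1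

/-- The norm index `[C_L : N C_K] = p`. -/
theorem h68si_ifaceNI : IfaceNI := (hn_ni_of ifaceAdm h68si_ifaceFI h68si_ifaceSI).2

end Fermat.Agent.PT.Glob
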